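import Fermat.Agent.PT.GW2

/-!
# Counting framed cocycles
-/

set_option autoImplicit false

namespace Fermat.Agent.RTan

open Fermat.Agent.PT

section count

variable {G : Type} [Group G] {A : Type} [AddCommGroup A] {L : Levels G}
  {ρ : Act G A}

/-- the coboundary of an element, as a cocycle -/
def cob (hρ : Smooth L ρ) (a : A) : Z1 L ρ :=
  ⟨d0 ρ a, ⟨d0_mem_C1 hρ a, d1_d0 ρ a⟩⟩

@[simp] theorem coe_cob (hρ : Smooth L ρ) (a : A) : ((cob hρ a : Z1 L ρ) : G → A) = d0 ρ a := rfl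

theorem mk_cob (hρ : Smooth L ρ) (a : A) : H1.mk L ρ (cob hρ a) = 0 := H1.mk_eq_zero.2 ⟨a, rfl⟩

variable (Sel : AddSubgroup (H1 L ρ)) {Λ : Type} {Γ : Λ → Type} [∀ l, Group (Γ l)]
  (r : ∀ l, Γ l →* G)

/-- cocycles with class in `Sel` together with local trivialisations at `Λ` -/
def framed : AddSubgroup (Z1 L ρ × (Λ → A)) where
  carrier := {x | H1.mk L ρ x.1 ∈ Sel ∧ ∀ l γ, (x.1 : G → A) (r l γ) =
    ρ (r l γ) (x.2 l) - x.2 l}
  zero_mem' := ⟨by
    show H1.mk L ρ 0 ∈ Sel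
    rw [map_zero]; exact Sel.zero_mem, fun l γ => by
      show (0 : A) = ρ (r l γ) 0 - 0
      rw [map_zero, sub_zero]⟩
  add_mem' := by
    rintro ⟨c, W⟩ ⟨c', W'⟩ ⟨h1, h2⟩ ⟨h1', h2'⟩
    refine ⟨?_, fun l γ => ?_⟩
    · show H1.mk L ρ (c + c') ∈ Sel
      rw [map_add]; exact Sel.add_mem h1 h1'
    · show (c : G → A) (r l γ) + (c' : G → A) (r l γ) = ρ (r l γ) (W l + W' l) - (W l + W' l)
      have e1 : (c : G → A) (r l γ) = ρ (r l γ) (W l) - W l := h2 l γ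
      have e2 : (c' : G → A) (r l γ) = ρ (r l γ) (W' l) - W' l := h2' l γ
      rw [e1, e2, map_add]
      abel
  neg_mem' := by
    rintro ⟨c, W⟩ ⟨h1, h2⟩
    refine ⟨?_, fun l γ => ?_⟩
    · show H1.mk L ρ (-c) ∈ Sel
      rw [map_neg]; exact Sel.neg_mem h1
    · show -(c : G → A) (r l γ) = ρ (r l γ) (-W l) - (-W l)
      have e1 : (c : G → A) (r l γ) = ρ (r l γ) (W l) - W l := h2 l γ
      rw [e1, map_neg]
      abel

/-- the class map -/
def framedCls : framed Sel r →+ Sel where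
  toFun x := ⟨H1.mk L ρ x.1.1, x.2.1⟩
  map_zero' := by
    apply Subtype.ext
    exact map_zero (H1.mk L ρ)
  map_add' x y := by
    apply Subtype.ext
    exact map_add (H1.mk L ρ) x.1.1 y.1.1

variable [Finite A]

theorem finite_framed [Finite Λ] (hρ : Smooth L ρ) (hS : Finite Sel) :
    Finite (framed Sel r) := by
  have hfin : Finite (Λ → A) := inferInstance
  have hZ : Finite {c : Z1 L ρ // H1.mk L ρ c ∈ Sel} := by
    choose c₀ hc₀ using fun s : Sel => H1.mk_surjective L ρ (s : H1 L ρ)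
    have hrange : (Set.range (fun x : Sel × A => c₀ x.1 + cob hρ x.2)).Finite :=
      Set.finite_range _
    refine hrange.subset ?_
    intro c hc
    have h1 : H1.mk L ρ (c - c₀ ⟨_, hc⟩) = 0 := by
      rw [map_sub, hc₀, sub_self]
    obtain ⟨a, ha⟩ := H1.mk_eq_zero.1 h1
    refine ⟨(⟨_, hc⟩, a), ?_⟩
    apply Subtype.ext
    show (c₀ ⟨_, hc⟩ : G → A) + d0 ρ a = (c : G → A)
    rw [ha]
    show (c₀ ⟨_, hc⟩ : G → A) + ((c : G → A) - (c₀ ⟨_, hc⟩ : G → A)) = (c : G → A)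
    abel
  let g : framed Sel r → {c : Z1 L ρ // H1.mk L ρ c ∈ Sel} × (Λ → A) :=
    fun x => (⟨x.1.1, x.2.1⟩, x.1.2)
  refine Finite.of_injective g ?_
  rintro ⟨⟨c, W⟩, h⟩ ⟨⟨c', W'⟩, h'⟩ hh
  have e1 : c = c' := congrArg Subtype.val (congrArg Prod.fst hh)
  have e2 : W = W' := congrArg Prod.snd hh
  subst e1 e2
  rfl

/-- `|framed| ≤ |Sel| |A| ∏ |H⁰|` -/
theorem card_framed_le [Fintype Λ] (hρ : Smooth L ρ) [hS : Finite Sel] :
    Nat.card (framed Sel r) ≤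
      Nat.card Sel * (Nat.card A * ∏ l, Nat.card (H0 (ρ.comp (r l)))) := by
  have hfr := finite_framed Sel r hρ hS
  have h1 := card_eq_ker_mul_range (framedCls Sel r)
  rw [h1, mul_comm (Nat.card Sel)]
  refine Nat.mul_le_mul ?_
    (Nat.card_le_card_of_injective _ (Subtype.val_injective (p := (· ∈ (framedCls Sel r).range))))
  rw [← Nat.card_pi, ← Nat.card_prod]
  have hfH : Finite (A × ∀ l, H0 (ρ.comp (r l))) := inferInstance
  have hmem : ∀ x : A × (∀ l, H0 (ρ.comp (r l))),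
      ((cob hρ x.1, fun l => x.1 + (x.2 l : A)) : Z1 L ρ × (Λ → A)) ∈ framed Sel r := by
    intro x
    refine ⟨?_, fun l γ => ?_⟩
    · show H1.mk L ρ (cob hρ x.1) ∈ Sel
      rw [mk_cob]
      exact Sel.zero_mem
    · show ρ (r l γ) x.1 - x.1 = ρ (r l γ) (x.1 + (x.2 l : A)) - (x.1 + (x.2 l : A))
      have h2 : ρ (r l γ) (x.2 l : A) = (x.2 l : A) := mem_H0.1 (x.2 l).2 γ
      rw [map_add, h2]
      abel
  have hker : ∀ x : A × (∀ l, H0 (ρ.comp (r l))),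
      (⟨_, hmem x⟩ : framed Sel r) ∈ (framedCls Sel r).ker := by
    intro x
    rw [AddMonoidHom.mem_ker]
    apply Subtype.ext
    exact mk_cob hρ x.1
  refine Nat.card_le_card_of_surjective
    (fun x : A × (∀ l, H0 (ρ.comp (r l))) => (⟨⟨_, hmem x⟩, hker x⟩ : (framedCls Sel r).ker)) ?_
  rintro ⟨⟨⟨c, W⟩, h2, h3⟩, h4⟩
  have h5 : H1.mk L ρ c = 0 := by
    rw [AddMonoidHom.mem_ker] at h4
    exact congrArg Subtype.val h4
  obtain ⟨a, ha⟩ := H1.mk_eq_zero.1 h5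
  have h6 : ∀ l, W l - a ∈ H0 (ρ.comp (r l)) := by
    intro l
    rw [mem_H0]
    intro γ
    have h7 : (c : G → A) (r l γ) = ρ (r l γ) (W l) - W l := h3 l γ
    rw [← ha, d0_apply] at h7
    show ρ (r l γ) (W l - a) = W l - a
    rw [map_sub]
    have h8 : ρ (r l γ) (W l) = ρ (r l γ) a - a + W l := by rw [h7]; abel
    rw [h8]; abel
  refine ⟨(a, fun l => ⟨W l - a, h6 l⟩), ?_⟩
  apply Subtype.ext
  apply Subtype.ext
  refine Prod.ext (Subtype.ext ha) ?_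
  funext l
  show a + (W l - a) = W l
  abel

end count

end Fermat.Agent.RTan
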