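import Fermat.Agent.TWP.Assemble
import Fermat.Agent.TWP.Tame2
import Fermat.Agent.RT8J.Framed
import Fermat.Agent.RTan.Count

/-!
# The framed tangent space and Selmer groups
-/

set_option autoImplicit false

namespace Fermat.Agent.RTan

open IsLocalRing Module Matrix Fermat.Agent.PT
open Fermat.Agent.PTC (ptd sL allL)
open Fermat.Agent.TWP (psi psi_mul psi_mul_rbar psi_sub MDef sqKer mem_sqKer IsDer ad0 twAct Pl rl Γl
  mem_ad0 rep_mul_inv rep_inv_mul Qb)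
open Fermat.Agent.DefRing (MatCont Red Norm SliceData M2 GQ)
open Fermat.Agent.RT8J (TanX JRing)
open scoped Pointwise

section tame

variable {𝒪 : Type} [CommRing 𝒪] {p : ℕ} [hp : Fact p.Prime] {Sig Smin : Finset ℕ} {R k : Type}
    [CommRing R] [IsLocalRing R] [Algebra 𝒪 R] [Field k] {π : R →+* k} {r : GQ →* M2 R}
    {rbar : GQ →* M2 k} (h : MDef 𝒪 p Sig Smin π r rbar)

/-- the subgroup where the cocycle of `δ` is the coboundary of `Z` -/
def cobSub {δ : R → k} (hδ : IsDer 𝒪 π δ) (hred : ∀ σ, (r σ).map π = rbar σ) (Z : M2 k) :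
    Subgroup GQ where
  carrier := {σ | psi r rbar δ σ = rbar σ * Z * rbar σ⁻¹ - Z}
  one_mem' := by
    show psi r rbar δ 1 = rbar 1 * Z * rbar 1⁻¹ - Z
    have h1 := psi_mul hδ hred 1 1
    rw [mul_one, map_one, one_mul, inv_one, map_one, mul_one] at h1
    rw [inv_one, map_one, one_mul, mul_one, sub_self]
    exact left_eq_add.1 h1
  mul_mem' := by
    intro a b ha hb
    have ha' : psi r rbar δ a = rbar a * Z * rbar a⁻¹ - Z := ha
    have hb' : psi r rbar δ b = rbar b * Z * rbar b⁻¹ - Z := hb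
    show psi r rbar δ (a * b) = rbar (a * b) * Z * rbar (a * b)⁻¹ - Z
    rw [psi_mul hδ hred, ha', hb', _root_.mul_inv_rev, map_mul, map_mul]
    noncomm_ring
  inv_mem' := by
    intro a ha
    have ha' : psi r rbar δ a = rbar a * Z * rbar a⁻¹ - Z := ha
    show psi r rbar δ a⁻¹ = rbar a⁻¹ * Z * rbar a⁻¹⁻¹ - Z
    have h0 : psi r rbar δ 1 = 0 := by
      have h1 := psi_mul hδ hred 1 1
      rw [mul_one, map_one, one_mul, inv_one, map_one, mul_one] at h1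
      exact left_eq_add.1 h1
    have h1 := psi_mul hδ hred a⁻¹ a
    rw [inv_mul_cancel, h0, ha', inv_inv] at h1
    rw [inv_inv]
    have e1 : rbar a⁻¹ * rbar a = 1 := rep_inv_mul rbar a
    have h2 : rbar a⁻¹ * (rbar a * Z * rbar a⁻¹ - Z) * rbar a = Z - rbar a⁻¹ * Z * rbar a := by
      have : rbar a⁻¹ * (rbar a * Z * rbar a⁻¹ - Z) * rbar a =
        (rbar a⁻¹ * rbar a) * Z * (rbar a⁻¹ * rbar a) - rbar a⁻¹ * Z * rbar a := by noncomm_ring
      rw [this, e1, one_mul, mul_one]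
    rw [h2] at h1
    have h3 := eq_neg_of_add_eq_zero_left h1.symm
    rw [h3]; abel

lemma mem_cobSub {δ : R → k} (hδ : IsDer 𝒪 π δ) (hred : ∀ σ, (r σ).map π = rbar σ) {Z : M2 k}
    {σ : GQ} : σ ∈ cobSub hδ hred Z ↔ psi r rbar δ σ = rbar σ * Z * rbar σ⁻¹ - Z := Iff.rfl

/-- from the matrix relation to the cocycle relation -/
lemma mem_cobSub_of {δ : R → k} (hδ : IsDer 𝒪 π δ) (hred : ∀ σ, (r σ).map π = rbar σ) {Z : M2 k}
    {σ : GQ} (hσ : (r σ).map δ = (r σ).map π * Z - Z * (r σ).map π) :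
    σ ∈ cobSub hδ hred Z := by
  rw [mem_cobSub, psi, hσ, hred, sub_mul, mul_assoc Z, rep_mul_inv, mul_one]

include h in
lemma sqKer_le_cobSub {δ : R → k} (hδ : IsDer 𝒪 π δ) (Z : M2 k) :
    sqKer r ≤ cobSub hδ h.red Z := by
  intro σ hσ
  rw [mem_cobSub, h.psi_eq_zero hδ hσ]
  have h1 := h.rbar_eq_one hσ
  have h2 : rbar σ⁻¹ = 1 := h.rbar_eq_one (Subgroup.inv_mem _ hσ)
  rw [h1, h2, one_mul, mul_one, sub_self]

/-- `p`-th powers of matrices congruent to `1`. -/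
lemma pow_sub_one_mem {I : Ideal R} (hpI : (p : R) ∈ I) {M : M2 R}
    (hM : ∀ i j, (M - 1) i j ∈ I) (i j : Fin 2) : (M ^ p - 1) i j ∈ I ^ 2 := by
  set N := M - 1 with hN
  have hM' : M = 1 + N := by rw [hN]; abel
  have hmul : ∀ A B : M2 R, (∀ i j, A i j ∈ I) → (∀ i j, B i j ∈ I) →
      ∀ i j, (A * B) i j ∈ I ^ 2 := by
    intro A B hA hB i j
    rw [Matrix.mul_apply, pow_two]
    exact Ideal.sum_mem _ fun l _ => Ideal.mul_mem_mul (hA i l) (hB l j)
  have key : ∀ m : ℕ, ∃ X : M2 R, (∀ i j, X i j ∈ I ^ 2) ∧ (1 + N) ^ m = 1 + m • N + X := by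
    intro m
    induction m with
    | zero => exact ⟨0, fun i j => by simp, by simp⟩
    | succ m ih =>
      obtain ⟨X, hX, hX'⟩ := ih
      refine ⟨(m • N) * N + X * (1 + N), fun i j => ?_, ?_⟩
      · rw [Matrix.add_apply]
        refine Ideal.add_mem _ (hmul _ _ (fun i j => ?_) hM i j) ?_
        · rw [Matrix.smul_apply]
          exact nsmul_mem (hM i j) m
        · rw [Matrix.mul_apply]
          exact Ideal.sum_mem _ fun l _ => Ideal.mul_mem_right _ _ (hX i l)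
      · rw [pow_succ, hX', succ_nsmul]
        noncomm_ring
  obtain ⟨X, hX, hX'⟩ := key p
  rw [hM', hX', add_sub_right_comm, add_sub_cancel_left, Matrix.add_apply]
  refine Ideal.add_mem _ ?_ (hX i j)
  rw [Matrix.smul_apply, nsmul_eq_mul, pow_two]
  exact Ideal.mul_mem_mul hpI (hM i j)

include h in
lemma pow_mem_sqKer (hpR : (p : R) ∈ maximalIdeal R) {σ : GQ} {a : ℕ}
    (hσ : rbar σ ^ p ^ a = 1) : σ ^ p ^ (a + 1) ∈ sqKer r := by
  rw [mem_sqKer]
  intro i j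
  have h1 : r (σ ^ p ^ (a + 1)) = (r (σ ^ p ^ a)) ^ p := by
    rw [pow_succ, pow_mul, map_pow]
  rw [h1]
  refine pow_sub_one_mem hpR (fun i j => ?_) i j
  rw [← h.ker]
  have h2 : (r (σ ^ p ^ a)).map π = 1 := by rw [h.red, map_pow, hσ]
  have h3 := congrFun (congrFun (RT8J.map_sub_one_pi π (r (σ ^ p ^ a))) i) j
  rw [h2, sub_self] at h3
  exact h3

include h in
/-- **tame generation** -/
theorem mem_cobSub_of_tame (hpR : (p : R) ∈ maximalIdeal R) {l : Nat.Primes} (hl : (l : ℕ) ≠ p)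
    {c : Qb} (hc : c ^ p = ((l : ℕ) : Qb)) {τ φ : GQ}
    (hτ : τ ∈ (Pl l).inertiaSubgroupIn ℚ) (hτc : τ c ≠ c) (hφ : (Pl l).IsFrobeniusAt φ l)
    (hun : ∀ σ ∈ (Pl l).inertiaSubgroupIn ℚ, ∃ a, rbar σ ^ p ^ a = 1)
    {δ : R → k} (hδ : IsDer 𝒪 π δ) {Z : M2 k}
    (h1 : (r φ).map δ = (r φ).map π * Z - Z * (r φ).map π)
    (h2 : (r τ).map δ = (r τ).map π * Z - Z * (r τ).map π)
    {σ : GQ} (hσ : σ • Pl l = Pl l) : σ ∈ cobSub hδ h.red Z := by
  obtain ⟨L, hL, hLn, hL'⟩ := h.exists_level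
  have h3 := TWP.tame_decomp (p := p) hl hc hτ hτc hφ (QuotientGroup.mk' (sqKer r)) L
    (fun σ hσ => (QuotientGroup.eq_one_iff σ).2 (hL' σ hσ)) (by
      intro σ hσ
      obtain ⟨a, ha⟩ := hun σ hσ
      refine ⟨a + 1, ?_⟩
      rw [← map_pow]
      exact (QuotientGroup.eq_one_iff _).2 (pow_mem_sqKer h hpR ha)) hσ
  have h4 : Subgroup.closure {QuotientGroup.mk' (sqKer r) φ, QuotientGroup.mk' (sqKer r) τ} =
      (Subgroup.closure {φ, τ}).map (QuotientGroup.mk' (sqKer r)) := by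
    rw [MonoidHom.map_closure, Set.image_pair]
  rw [h4] at h3
  obtain ⟨g, hg, hgσ⟩ := h3
  have h5 : Subgroup.closure {φ, τ} ≤ cobSub hδ h.red Z := by
    rw [Subgroup.closure_le]
    rintro x (rfl | rfl)
    · exact mem_cobSub_of hδ h.red h1
    · exact mem_cobSub_of hδ h.red h2
  have h6 : g⁻¹ * σ ∈ sqKer r := by
    rw [← QuotientGroup.eq]
    exact hgσ
  have h7 : σ = g * (g⁻¹ * σ) := by group
  rw [h7]
  exact Subgroup.mul_mem _ (h5 hg) (sqKer_le_cobSub h hδ Z h6)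

end tame

section norm

variable {𝒪 : Type} [CommRing 𝒪] [IsLocalRing 𝒪] {rbar : GQ →* M2 (ResidueField 𝒪)}
  {sd : SliceData rbar} {R : Type} [CommRing R] [Algebra 𝒪 R] {π : R →+* ResidueField 𝒪}

/-- derivations and linear combinations of the values of the representation -/
lemma der_lc {r : GQ →* M2 R} (hπ : ∀ o, π (algebraMap 𝒪 R o) = residue 𝒪 o)
    {δ : R → ResidueField 𝒪} (hδ : IsDer 𝒪 π δ) {C : M2 (ResidueField 𝒪)}
    (hC : ∀ σ, (r σ).map δ = rbar σ * C - C * rbar σ) (c : GQ →₀ 𝒪) (i j : Fin 2) :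
    δ ((Finsupp.linearCombination 𝒪 r c) i j) =
      (Finsupp.linearCombination 𝒪 rbar c * C - C * Finsupp.linearCombination 𝒪 rbar c) i j := by
  rw [DefRing.lc_apply, Finsupp.sum, hδ.sum]
  have h1 : ∀ σ, δ (algebraMap 𝒪 R (c σ) * r σ i j) =
      residue 𝒪 (c σ) * (rbar σ * C - C * rbar σ) i j := by
    intro σ
    rw [hδ.mul, hδ.alg, zero_mul, add_zero, hπ, ← hC σ]
    rfl
  rw [Finset.sum_congr rfl fun σ _ => h1 σ]
  have h2 : Finsupp.linearCombination 𝒪 rbar c * C - C * Finsupp.linearCombination 𝒪 rbar c =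
      ∑ σ ∈ c.support, c σ • (rbar σ * C - C * rbar σ) := by
    rw [Finsupp.linearCombination_apply, Finsupp.sum, Finset.sum_mul, Finset.mul_sum,
      ← Finset.sum_sub_distrib]
    refine Finset.sum_congr rfl fun σ _ => ?_
    rw [smul_sub, smul_mul_assoc, mul_smul_comm]
  rw [h2, Matrix.sum_apply]
  refine Finset.sum_congr rfl fun σ _ => ?_
  rw [Matrix.smul_apply, Algebra.smul_def]
  rfl

/-- a normalised deformation has no infinitesimal conjugations -/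
theorem cob_eq_zero {r : GQ →* M2 R} (hn : Norm sd r)
    (hπ : ∀ o, π (algebraMap 𝒪 R o) = residue 𝒪 o)
    {δ : R → ResidueField 𝒪} (hδ : IsDer 𝒪 π δ) {C : M2 (ResidueField 𝒪)}
    (htr : C.trace = 0) (h2 : (2 : ResidueField 𝒪) ≠ 0)
    (hC : ∀ σ, psi r rbar δ σ = rbar σ * C * rbar σ⁻¹ - C) : C = 0 := by
  have hC' : ∀ σ, (r σ).map δ = rbar σ * C - C * rbar σ := by
    intro σ
    rw [← psi_mul_rbar (r := r) (rbar := rbar) (δ := δ) σ, hC, sub_mul, mul_assoc (rbar σ * C),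
      rep_inv_mul, mul_one]
  have k1 := der_lc hπ hδ hC' sd.α 1 0
  have k2 := der_lc hπ hδ hC' sd.β 0 0
  have k3 := der_lc hπ hδ hC' sd.β 1 0
  rw [hn.s1, hδ.zero, sd.hα] at k1
  rw [hn.s2, hδ.zero, sd.hβ] at k2
  rw [hn.s3, hδ.one, sd.hβ] at k3
  simp [Matrix.sub_apply, Matrix.mul_apply, Fin.sum_univ_two, Matrix.single] at k1 k2 k3
  rw [trace_fin_two] at htr
  have k4 : C 0 0 = 0 := by
    have h3 : (2 : ResidueField 𝒪) * C 0 0 = 0 := by linear_combination htr + (-k3)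
    exact (mul_eq_zero.1 h3).resolve_left h2
  refine Matrix.ext fun i j => ?_
  fin_cases i <;> fin_cases j
  · exact k4
  · exact k2
  · exact k1
  · show C 1 1 = 0
    linear_combination htr - k4

end norm

/-- tame data at a prime `l ≠ p` -/
structure TameAt (p : ℕ) {k : Type} [Field k] (rbar : GQ →* M2 k) (l : Nat.Primes) (φ τ : GQ) :
    Prop where
  ne : (l : ℕ) ≠ p
  root : ∃ c : Qb, c ^ p = ((l : ℕ) : Qb) ∧ τ c ≠ c
  mem : τ ∈ (Pl l).inertiaSubgroupIn ℚ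
  frob : (Pl l).IsFrobeniusAt φ l
  unip : ∀ σ ∈ (Pl l).inertiaSubgroupIn ℚ, ∃ a, rbar σ ^ p ^ a = 1

section count

variable {𝒪 : Type} [CommRing 𝒪] [IsLocalRing 𝒪] [Finite (ResidueField 𝒪)] {p : ℕ}
  [hp : Fact p.Prime]
  {Sig Smin : Finset ℕ} {rbar : GQ →* M2 (ResidueField 𝒪)} {sd : SliceData rbar}
  {R : Type} [CommRing R] [IsLocalRing R] [Algebra 𝒪 R] {π : R →+* ResidueField 𝒪}
  {r0 : GQ →* M2 R}

/-- derivations are determined by the matrix entries -/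
theorem der_ext_adj (hadj : Algebra.adjoin 𝒪 {x : R | ∃ σ i j, x = r0 σ i j} = ⊤)
    {δ δ' : R → ResidueField 𝒪} (hδ : IsDer 𝒪 π δ) (hδ' : IsDer 𝒪 π δ')
    (h : ∀ σ, (r0 σ).map δ = (r0 σ).map δ') : δ = δ' := by
  funext x
  have hx : x ∈ Algebra.adjoin 𝒪 {x : R | ∃ σ i j, x = r0 σ i j} := by
    rw [hadj]; trivial
  induction hx using Algebra.adjoin_induction with
  | mem x hx =>
    obtain ⟨σ, i, j, rfl⟩ := hx
    exact congrFun (congrFun (h σ) i) j
  | algebraMap o => rw [hδ.alg, hδ'.alg]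
  | add x y _ _ hx hy => rw [hδ.add, hδ'.add, hx, hy]
  | mul x y _ _ hx hy => rw [hδ.mul, hδ'.mul, hx, hy]

/-- **The framed tangent space is bounded by the Selmer group.** -/
theorem card_TanX_le_sel {S' : Finset Nat.Primes} (h : MDef 𝒪 p Sig Smin π r0 rbar)
    (hSig : ∀ v : Nat.Primes, (v : ℕ) ∈ Sig → v ∈ S')
    (hpk : (p : ResidueField 𝒪) = 0) (h2 : (2 : ResidueField 𝒪) ≠ 0)
    (hπ : ∀ o, π (algebraMap 𝒪 R o) = residue 𝒪 o)
    (hn : Norm sd r0) (hadj : Algebra.adjoin 𝒪 {x : R | ∃ σ i j, x = r0 σ i j} = ⊤)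
    (hsm : Smooth (sL S') (twAct 1 rbar))
    {Λ Υ : Type} [Fintype Λ] (ℓ : Λ → Nat.Primes) (φ τ : Λ → GQ)
    (htame : ∀ l, TameAt p rbar (ℓ l) (φ l) (τ l)) (s : Υ → R)
    (Sel : AddSubgroup (H1 (sL S') (twAct 1 rbar))) [hfin : Finite Sel]
    (hSel : ∀ x ∈ TanX (𝒪 := 𝒪) π r0 φ τ s, ∀ f : Z1 (sL S') (twAct 1 rbar),
      (∀ σ, ((f.1 σ : ad0 (ResidueField 𝒪)) : M2 (ResidueField 𝒪)) = psi r0 rbar x.1 σ) →
        H1.mk (sL S') (twAct 1 rbar) f ∈ Sel) :
    (TanX (𝒪 := 𝒪) π r0 φ τ s).Finite ∧ Nat.card (TanX (𝒪 := 𝒪) π r0 φ τ s) ≤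
      Nat.card Sel * ∏ l, Nat.card (H0 ((twAct 1 rbar).comp (rl (ℓ l)))) := by
  have hpR : (p : R) ∈ maximalIdeal R := by
    rw [← h.ker, map_natCast, hpk]
  have hex : ∀ x : TanX (𝒪 := 𝒪) π r0 φ τ s, ∃ f : Z1 (sL S') (twAct 1 rbar),
      ∀ σ, ((f.1 σ : ad0 (ResidueField 𝒪)) : M2 (ResidueField 𝒪)) = psi r0 rbar x.1.1 σ :=
    fun x => h.exists_Z1 hSig hpk x.2.1
  choose f hf using hex
  -- local relations
  have hloc : ∀ (x : TanX (𝒪 := 𝒪) π r0 φ τ s) (l : Λ) (γ : Γl (ℓ l)),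
      psi r0 rbar x.1.1 (rl (ℓ l) γ) =
        rbar (rl (ℓ l) γ) * x.1.2 l * rbar (rl (ℓ l) γ)⁻¹ - x.1.2 l := by
    intro x l γ
    obtain ⟨c, hc, hτc⟩ := (htame l).root
    exact mem_cobSub_of_tame h hpR (htame l).ne hc (htame l).mem hτc (htame l).frob
      (htame l).unip x.2.1 (x.2.2.2.1 l) (x.2.2.2.2.1 l) (TWP.rl_mem (ℓ l) γ)
  let Z : TanX (𝒪 := 𝒪) π r0 φ τ s → Λ → ad0 (ResidueField 𝒪) :=
    fun x l => ⟨x.1.2 l, x.2.2.1 l⟩
  have hmem : ∀ (x : TanX (𝒪 := 𝒪) π r0 φ τ s) (B : ad0 (ResidueField 𝒪)),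
      ((f x + cob hsm B, fun l => Z x l + B) : Z1 (sL S') (twAct 1 rbar) ×
        (Λ → ad0 (ResidueField 𝒪))) ∈ framed Sel (fun l => rl (ℓ l)) := by
    intro x B
    refine ⟨?_, fun l γ => ?_⟩
    · show H1.mk (sL S') (twAct 1 rbar) (f x + cob hsm B) ∈ Sel
      rw [map_add, mk_cob, add_zero]
      exact hSel x.1 x.2 (f x) (hf x)
    · show (f x).1 (rl (ℓ l) γ) + ((cob hsm B : Z1 (sL S') (twAct 1 rbar)) : GQ → _) (rl (ℓ l) γ) =
        twAct 1 rbar (rl (ℓ l) γ) (Z x l + B) - (Z x l + B)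
      rw [coe_cob, d0_apply, map_add]
      have h3 : (f x).1 (rl (ℓ l) γ) = twAct 1 rbar (rl (ℓ l) γ) (Z x l) - Z x l := by
        apply Subtype.ext
        rw [hf, hloc]
        show _ = (1 : GQ →* ResidueField 𝒪) _ • _ - _
        rw [MonoidHom.one_apply, one_smul]
      rw [h3]
      abel
  have hfr := finite_framed Sel (fun l => rl (ℓ l)) hsm hfin
  let F : TanX (𝒪 := 𝒪) π r0 φ τ s × ad0 (ResidueField 𝒪) → framed Sel (fun l => rl (ℓ l)) :=
    fun x => ⟨_, hmem x.1 x.2⟩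
  have hF : Function.Injective F := by
    rintro ⟨x, B⟩ ⟨x', B'⟩ hxx
    have h3 := congrArg Subtype.val hxx
    have h4 : f x + cob hsm B = f x' + cob hsm B' := congrArg Prod.fst h3
    have h5 : ∀ l, Z x l + B = Z x' l + B' := fun l => congrFun (congrArg Prod.snd h3) l
    have hsub : IsDer 𝒪 π (fun y => x.1.1 y - x'.1.1 y) := by
      refine ⟨fun a b => ?_, fun a b => ?_, fun o => ?_⟩
      · rw [x.2.1.add, x'.2.1.add]; ring
      · rw [x.2.1.mul, x'.2.1.mul]; ring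
      · rw [x.2.1.alg, x'.2.1.alg, sub_zero]
    have h6 : ((B' - B : ad0 (ResidueField 𝒪)) : M2 (ResidueField 𝒪)) = 0 := by
      refine cob_eq_zero hn hπ hsub (B' - B).2 h2 fun σ => ?_
      rw [psi_sub, ← hf, ← hf]
      have h7 : (f x).1 σ - (f x').1 σ = twAct 1 rbar σ (B' - B) - (B' - B) := by
        have h8 : (f x).1 σ + (twAct 1 rbar σ B - B) = (f x').1 σ + (twAct 1 rbar σ B' - B') :=
          congrFun (congrArg Subtype.val h4) σ
        rw [map_sub]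
        have h9 : (f x).1 σ = (f x').1 σ + (twAct 1 rbar σ B' - B') - (twAct 1 rbar σ B - B) := by
          rw [← h8]; abel
        rw [h9]; abel
      have h8 := congrArg Subtype.val h7
      have h9 : ((twAct 1 rbar σ (B' - B) - (B' - B) : ad0 (ResidueField 𝒪)) :
        M2 (ResidueField 𝒪)) = (1 : GQ →* ResidueField 𝒪) σ • (rbar σ * (B' - B : ad0 _).1 *
          rbar σ⁻¹) - (B' - B : ad0 _).1 := rfl
      rw [MonoidHom.one_apply, one_smul] at h9
      exact h8.trans h9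
    have h7 : B' = B := sub_eq_zero.1 (Subtype.ext h6)
    subst h7
    have h8 : f x = f x' := add_right_cancel h4
    have h9 : ∀ l, Z x l = Z x' l := fun l => add_right_cancel (h5 l)
    have h10 : x = x' := by
      apply Subtype.ext
      refine Prod.ext ?_ ?_
      · refine der_ext_adj hadj x.2.1 x'.2.1 fun σ => ?_
        rw [← psi_mul_rbar (r := r0) (rbar := rbar) (δ := x.1.1) σ,
          ← psi_mul_rbar (r := r0) (rbar := rbar) (δ := x'.1.1) σ, ← hf, ← hf, h8]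
      · funext l
        exact congrArg Subtype.val (h9 l)
    rw [h10]
  have hfX : Finite (TanX (𝒪 := 𝒪) π r0 φ τ s × ad0 (ResidueField 𝒪)) := Finite.of_injective F hF
  have hfT : Finite (TanX (𝒪 := 𝒪) π r0 φ τ s) :=
    Finite.of_injective (fun x => (x, (0 : ad0 (ResidueField 𝒪)))) fun x y hxy =>
      congrArg Prod.fst hxy
  refine ⟨hfT, ?_⟩
  have h3 := Nat.card_le_card_of_injective F hF
  rw [Nat.card_prod] at h3
  have h4 := card_framed_le Sel (fun l => rl (ℓ l)) hsm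
  have hpos : 0 < Nat.card (ad0 (ResidueField 𝒪)) := Nat.card_pos
  refine Nat.le_of_mul_le_mul_right (c := Nat.card (ad0 (ResidueField 𝒪))) ?_ hpos
  calc _ ≤ _ := h3
    _ ≤ _ := h4
    _ = _ := by ring

end count

end Fermat.Agent.RTan
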