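import Fermat.Agent.RTan.Pts
import Fermat.Agent.TWDeg.EigSp

/-!
# The local statements at `p` for the representations of modular forms
-/

set_option autoImplicit false
set_option linter.unusedSectionVars false

noncomputable section

namespace Fermat.Agent.RTan

open IsLocalRing Matrix HeckeHom ModularCurve.Period CongruenceSubgroup
open Fermat.Agent.TWP (Pl Qb)
open Fermat.Agent.DefRing (MatCont M2 GQ mapRep)
open Fermat.Agent.TWDeg (eigSp)
open scoped MatrixGroups

/-- A stable line with unramified quotient. -/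
def ResLine (B : ValuationSubring Qb) {k : Type} [Field k] (ρ : GQ →* M2 k) : Prop :=
  ∃ w : Fin 2 → k, w ≠ 0 ∧ (∀ s ∈ B.decompositionSubgroup ℚ, ∃ c : k, ρ s *ᵥ w = c • w) ∧
    ∀ s ∈ B.inertiaSubgroupIn ℚ, ∀ u, ∃ c : k, ρ s *ᵥ u - u = c • w

/-- [U1] If the multiplicity of an eigensystem in level `Γ₀(n p)` is greater than twice its
multiplicity in level `Γ₀(n)`, `p ∤ n`, then its representation has a stable line at `p`, with
unramified quotient on which Frobenius acts by a sign. -/
def U1 : Prop :=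
  ∀ (p : ℕ) [Fact p.Prime] (_hp2 : p ≠ 2) (m n : ℕ) [NeZero n] (_hm : m ≠ 0) (_hpm : p ∣ m)
    (_hnm : ∀ q : ℕ, q.Prime → q ∣ n * p → q ∣ m) (_hpn : ¬ p ∣ n)
    (E : Type) [Field E] [CharZero E] [IsAlgClosed E] (a : ℕ → E)
    (A : Type) [CommRing A] [IsDomain A] [IsDiscreteValuationRing A]
    [IsAdicComplete (maximalIdeal A) A] [Finite (ResidueField A)] [CharZero A]
    (_hpA : (p : A) ∈ maximalIdeal A) (ι : A →+* E) (_hι : Function.Injective ι)
    (r : GQ →* M2 A) (_hr : MatCont A r)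
    (_htr : ∀ s : ℕ, s.Prime → ¬ s ∣ m → ∀ B : ValuationSubring (AlgebraicClosure ℚ),
      B.LiesOverPrime s → ∀ τ : GQ, B.IsFrobeniusAt τ s →
        ι (r τ).trace = a s ∧ (r τ).det = (s : A))
    (_hirr : Submodule.span (ResidueField A) (Set.range (mapRep (residue A) r)) = ⊤)
    (_hdim : 2 * Module.finrank E (eigSp E m n a) < Module.finrank E (eigSp E m (n * p) a))
    (B : ValuationSubring (AlgebraicClosure ℚ)) (_hB : B.LiesOverPrime p),
    ∃ z : E, HasLine p B (mapRep ι r) z ∧ z ^ 2 = 1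

/-- [U2] If an eigensystem occurs in level `Γ₀(n)`, `p ∤ n`, and its representation is residually
ordinary, then its representation has a stable line at `p`, with unramified quotient on which
Frobenius acts by `z`, and `z T_p = z ^ 2 + p` on the eigenspace. -/
def U2 : Prop :=
  ∀ (p : ℕ) [hp : Fact p.Prime] (_hp2 : p ≠ 2) (m n : ℕ) [NeZero n] (_hm : m ≠ 0) (_hpm : p ∣ m)
    (_hnm : ∀ q : ℕ, q.Prime → q ∣ n → q ∣ m) (hpn : ¬ p ∣ n)
    (E : Type) [Field E] [CharZero E] [IsAlgClosed E] (a : ℕ → E)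
    (A : Type) [CommRing A] [IsDomain A] [IsDiscreteValuationRing A]
    [IsAdicComplete (maximalIdeal A) A] [Finite (ResidueField A)] [CharZero A]
    (_hpA : (p : A) ∈ maximalIdeal A) (ι : A →+* E) (_hι : Function.Injective ι)
    (r : GQ →* M2 A) (_hr : MatCont A r)
    (_htr : ∀ s : ℕ, s.Prime → ¬ s ∣ m → ∀ B : ValuationSubring (AlgebraicClosure ℚ),
      B.LiesOverPrime s → ∀ τ : GQ, B.IsFrobeniusAt τ s →
        ι (r τ).trace = a s ∧ (r τ).det = (s : A))
    (_hirr : Submodule.span (ResidueField A) (Set.range (mapRep (residue A) r)) = ⊤)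
    (_hne : eigSp E m n a ≠ ⊥)
    (B : ValuationSubring (AlgebraicClosure ℚ)) (_hB : B.LiesOverPrime p)
    (_hord : ResLine B (mapRep (residue A) r)),
    ∃ z : E, HasLine p B (mapRep ι r) z ∧
      ∀ ψ ∈ eigSp E m n a, z • heckeHom hp.out hpn E ψ = (z ^ 2 + (p : E)) • ψ

end Fermat.Agent.RTan

end
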