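import Fermat.Agent.HopfOrder.Closure2
import Fermat.Agent.DefRing.Slice

/-!
# Flat representations in matrix form
-/

set_option autoImplicit false

namespace Fermat.Agent.RTan

open IsLocalRing Matrix
open Fermat.Agent.DefRing (M2 GQ mapRep)
open Fermat.Agent.HopfOrder (IsFlatMod)

section defs

variable {T : Type} [CommRing T]

/-- the representation `r` modulo `I` is flat at `p`: there is an equivariant additive map to a
finite flat Galois module whose kernel consists of vectors with coordinates in `I`. -/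
def FlatLev (p : ℕ) [Fact p.Prime] (r : GQ →* M2 T) (I : Ideal T) : Prop :=
  ∃ (M : Type) (_ : AddCommGroup M) (_ : Finite M) (_ : DistribMulAction GQ M)
    (f : (Fin 2 → T) →+ M), IsFlatMod p M ∧ (∀ (σ : GQ) x, f (r σ *ᵥ x) = σ • f x) ∧
      ∀ x, f x = 0 → ∀ i, x i ∈ I

/-- **Flat representations**: all the levels `T / 𝔪^n T` are flat. -/
def FlatM (p : ℕ) [Fact p.Prime] (𝒪 : Type) [CommRing 𝒪] [IsLocalRing 𝒪] [Algebra 𝒪 T]
    (r : GQ →* M2 T) : Prop :=
  ∀ n : ℕ, FlatLev p r ((maximalIdeal 𝒪 ^ n).map (algebraMap 𝒪 T))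

lemma FlatLev.mono {p : ℕ} [Fact p.Prime] {r : GQ →* M2 T} {I I' : Ideal T} (h : FlatLev p r I)
    (hI : I ≤ I') : FlatLev p r I' := by
  obtain ⟨M, i1, i2, i3, f, h1, h2, h3⟩ := h
  exact ⟨M, i1, i2, i3, f, h1, h2, fun x hx i => hI (h3 x hx i)⟩

end defs

section family

variable {p : ℕ} [hp : Fact p.Prime] {𝒪 : Type} [CommRing 𝒪] [IsLocalRing 𝒪]
  [IsNoetherianRing 𝒪] {T : Type} [CommRing T] [Algebra 𝒪 T]
  {J : Type} [Finite J] {T' : J → Type} [∀ j, CommRing (T' j)] [∀ j, Algebra 𝒪 (T' j)]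
  [∀ j, Module.Finite 𝒪 (T' j)]

/-- comparison of topologies -/
theorem exists_pow_mem_family (f : ∀ j, T →ₐ[𝒪] T' j) (hf : ∀ x, (∀ j, f j x = 0) → x = 0)
    (n : ℕ) : ∃ N : ℕ, ∀ x : T,
      (∀ j, f j x ∈ (maximalIdeal 𝒪 ^ N).map (algebraMap 𝒪 (T' j))) →
        x ∈ (maximalIdeal 𝒪 ^ n).map (algebraMap 𝒪 T) := by
  classical
  have := Fintype.ofFinite J
  let F : T →ₗ[𝒪] ∀ j, T' j := LinearMap.pi fun j => (f j).toLinearMap
  have hF : Function.Injective F := by
    rw [← LinearMap.ker_eq_bot, LinearMap.ker_eq_bot']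
    intro x hx
    exact hf x fun j => congrFun hx j
  obtain ⟨k, hk⟩ := Ideal.exists_pow_inf_eq_pow_smul (R := 𝒪) (M := ∀ j, T' j) (maximalIdeal 𝒪)
    (LinearMap.range F)
  refine ⟨n + k, fun x hx => ?_⟩
  have h1 : F x ∈ (maximalIdeal 𝒪 ^ (n + k) • ⊤ : Submodule 𝒪 (∀ j, T' j)) := by
    have h5 : F x = ∑ j, Pi.single j (f j x) :=
      (Finset.univ_sum_single (F x)).symm
    rw [h5]
    refine Submodule.sum_mem _ fun j _ => ?_
    have h6 : f j x ∈ (maximalIdeal 𝒪 ^ (n + k) • ⊤ : Submodule 𝒪 (T' j)) := by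
      rw [Ideal.smul_top_eq_map]
      exact hx j
    have h7 := Submodule.mem_map_of_mem (f := LinearMap.single 𝒪 T' j) h6
    rw [Submodule.map_smul''] at h7
    exact Submodule.smul_mono le_rfl le_top h7
  have h2 : F x ∈ maximalIdeal 𝒪 ^ (n + k) • (⊤ : Submodule 𝒪 (∀ j, T' j)) ⊓
      LinearMap.range F := ⟨h1, x, rfl⟩
  rw [hk (n + k) (Nat.le_add_left k n), Nat.add_sub_cancel] at h2
  have h3 : (maximalIdeal 𝒪 ^ n • (maximalIdeal 𝒪 ^ k • (⊤ : Submodule 𝒪 (∀ j, T' j)) ⊓
      LinearMap.range F)) ≤ (maximalIdeal 𝒪 ^ n • (⊤ : Submodule 𝒪 T)).map F := by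
    rw [Submodule.map_smul'']
    refine Submodule.smul_mono le_rfl ?_
    rintro y ⟨-, x, rfl⟩
    exact ⟨x, trivial, rfl⟩
  obtain ⟨y, hy, hxy⟩ := h3 h2
  rw [hF hxy] at hy
  have hy' : x ∈ (maximalIdeal 𝒪 ^ n • ⊤ : Submodule 𝒪 T) := hy
  rw [Ideal.smul_top_eq_map] at hy'
  exact hy'

/-- flatness is detected by separating families -/
theorem FlatM.of_family (f : ∀ j, T →ₐ[𝒪] T' j) (hf : ∀ x, (∀ j, f j x = 0) → x = 0)
    {r : GQ →* M2 T} (h : ∀ j, FlatM p 𝒪 (mapRep (f j : T →+* T' j) r)) : FlatM p 𝒪 r := by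
  intro n
  obtain ⟨N, hN⟩ := exists_pow_mem_family f hf n
  choose M i1 i2 i3 g h1 h2 h3 using fun j => h j N
  have hfin : Finite (∀ j, M j) := Pi.finite
  refine ⟨∀ j, M j, inferInstance, hfin, inferInstance, ?_, IsFlatMod.pi h1, ?_, ?_⟩
  · exact
      { toFun := fun x j => g j (fun i => f j (x i))
        map_zero' := by
          funext j
          show g j _ = 0
          rw [show (fun i => f j ((0 : Fin 2 → T) i)) = 0 from funext fun i => map_zero _, map_zero]
        map_add' := fun x y => by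
          funext j
          show g j _ = g j _ + g j _
          rw [← map_add]
          congr 1
          funext i
          exact map_add _ _ _ }
  · intro σ x
    funext j
    show g j _ = σ • g j _
    rw [← h2]
    congr 1
    funext i
    show f j ((r σ *ᵥ x) i) = _
    rw [Matrix.mulVec, dotProduct, map_sum]
    simp only [map_mul]
    rfl
  · intro x hx i
    refine hN _ fun j => ?_
    exact h3 j _ (congrFun hx j) i

end family

end Fermat.Agent.RTan
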