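import Fermat.Agent.TWP.Loc
import Fermat.Agent.ORD.Pair

/-!
# The local Galois group surjects onto the decomposition group
-/

set_option autoImplicit false

namespace Fermat.Agent.RTan

open Fermat.Agent.TWP
open scoped Pointwise

/-- A condition on `σ x` is clopen. -/
theorem isClopen_apply' {K Ω : Type*} [Field K] [Field Ω] [Algebra K Ω] [Algebra.IsAlgebraic K Ω]
    (x : Ω) (P : Ω → Prop) : IsClopen {σ : Ω ≃ₐ[K] Ω | P (σ x)} := by
  have h : ∀ P : Ω → Prop, IsOpen {σ : Ω ≃ₐ[K] Ω | P (σ x)} := by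
    intro P
    rw [isOpen_iff_mem_nhds]
    intro σ hσ
    have hfd : FiniteDimensional K (IntermediateField.adjoin K {x}) :=
      IntermediateField.adjoin.finiteDimensional
        ((Algebra.IsAlgebraic.isAlgebraic (R := K) x).isIntegral)
    have h1 : IsOpen ((IntermediateField.adjoin K {x}).fixingSubgroup : Set (Ω ≃ₐ[K] Ω)) :=
      IntermediateField.fixingSubgroup_isOpen _
    have h2 : IsOpen ((fun τ : Ω ≃ₐ[K] Ω => σ * τ) ''
        ((IntermediateField.adjoin K {x}).fixingSubgroup : Set (Ω ≃ₐ[K] Ω))) :=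
      (Homeomorph.mulLeft σ).isOpenMap _ h1
    refine Filter.mem_of_superset (h2.mem_nhds ⟨1, one_mem _, mul_one σ⟩) ?_
    rintro _ ⟨τ, hτ, rfl⟩
    have h3 : τ x = x := (IntermediateField.mem_fixingSubgroup_iff _ τ).mp hτ x
      (IntermediateField.mem_adjoin_simple_self K x)
    show P ((σ * τ) x)
    rw [AlgEquiv.mul_apply, h3]
    exact hσ
  refine ⟨?_, h P⟩
  rw [← isOpen_compl_iff]
  exact h (fun y => ¬ P y)

/-- every element of the decomposition group comes from the local Galois group -/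
theorem exists_rl (q : Nat.Primes) {σ : Gal} (hσ : σ • Pl q = Pl q) :
    ∃ γ : Γl q, rl q γ = σ := by
  classical
  let _ : Fact (q : ℕ).Prime := ⟨q.2⟩
  have halg : Algebra.IsAlgebraic ℚ_[(q : ℕ)] (PadicAlgCl (q : ℕ)) := inferInstance
  let Z : AlgebraicClosure ℚ → Set (PadicAlgCl (q : ℕ) ≃ₐ[ℚ_[(q : ℕ)]] PadicAlgCl (q : ℕ)) :=
    fun x => {γ | γ (padicEmbedding (q : ℕ) x) = padicEmbedding (q : ℕ) (σ x)}
  have hZ : ∀ x, IsClosed (Z x) := fun x =>
    (isClopen_apply' (padicEmbedding (q : ℕ) x)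
      (fun y => y = padicEmbedding (q : ℕ) (σ x))).1
  have hne : (⋂ x, Z x).Nonempty := by
    have hc : CompactSpace (PadicAlgCl (q : ℕ) ≃ₐ[ℚ_[(q : ℕ)]] PadicAlgCl (q : ℕ)) := inferInstance
    have h1 := (isCompact_univ (X := PadicAlgCl (q : ℕ) ≃ₐ[ℚ_[(q : ℕ)]]
      PadicAlgCl (q : ℕ))).inter_iInter_nonempty Z hZ ?_
    · rwa [Set.univ_inter] at h1
    · intro u
      have hfd : FiniteDimensional ℚ (IntermediateField.adjoin ℚ (u : Set (AlgebraicClosure ℚ))) :=
        IntermediateField.finiteDimensional_adjoin fun x _ =>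
          (AlgebraicClosure.isAlgebraic ℚ).isIntegral.isIntegral x
      obtain ⟨γ, hγ⟩ := exists_loc q (IntermediateField.adjoin ℚ (u : Set (AlgebraicClosure ℚ))) hσ
      refine ⟨γ, trivial, Set.mem_iInter₂.mpr ?_⟩
      intro x hx
      have h2 : localGaloisToGlobal (q : ℕ) γ x = σ x :=
        hγ x (IntermediateField.subset_adjoin ℚ _ hx)
      have h3 := padicEmbedding_localGaloisToGlobal (q : ℕ) γ x
      rw [h2] at h3
      exact h3.symm
  obtain ⟨γ, hγ⟩ := hne
  rw [Set.mem_iInter] at hγ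
  refine ⟨γ, ?_⟩
  ext x
  apply (padicEmbedding (q : ℕ)).injective
  have h1 : γ (padicEmbedding (q : ℕ) x) = padicEmbedding (q : ℕ) (σ x) := hγ x
  exact (padicEmbedding_localGaloisToGlobal (q : ℕ) γ x).trans h1

end Fermat.Agent.RTan
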