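import Fermat.Agent.RTan.OrdJ5
import Fermat.Agent.TW.OPt

/-!
# Ordinary structures on Hecke algebras from their points
-/

set_option autoImplicit false

namespace Fermat.Agent.RTan

open IsLocalRing Matrix
open Fermat.Agent.TWP (Pl rl Γl Qb MDef)
open Fermat.Agent.DefRing (MatCont Red Norm SliceData M2 GQ mapRep)
open Fermat.Agent.ORD (Pair)
open scoped Pointwise TensorProduct

section pts

variable {O : Type} [CommRing O] [IsDomain O] {T : Type} [CommRing T] [Algebra O T]
  [Module.Finite O T] [Module.Free O T] [IsReduced T]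
  {E : Type} [Field E] [IsAlgClosed E] [Algebra O E]

/-- The points of a finite free reduced algebra with values in an algebraically closed field
separate elements. -/
theorem pts_injective (hE : Function.Injective (algebraMap O E)) (a : T)
    (h : ∀ f : T →ₐ[O] E, f a = 0) : a = 0 := by
  have hfs : FaithfulSMul O E := (faithfulSMul_iff_algebraMap_injective O E).mpr hE
  let _ : Algebra (FractionRing O) E := FractionRing.liftAlgebra O E
  have hst : IsScalarTower O (FractionRing O) E := FractionRing.isScalarTower_liftAlgebra O E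
  have hC : IsReduced (FractionRing O ⊗[O] T) := TW.isReduced_frac O T
  have hCa : IsArtinianRing (FractionRing O ⊗[O] T) :=
    IsArtinianRing.of_finite (FractionRing O) _
  apply TW.frac_inj O T
  rw [map_zero]
  apply (IsArtinianRing.equivPi (FractionRing O ⊗[O] T)).injective
  rw [map_zero]
  funext I
  let _ : Field ((FractionRing O ⊗[O] T) ⧸ I.asIdeal) := Ideal.Quotient.field _
  let f₀ : T →ₐ[O] (FractionRing O ⊗[O] T) ⧸ I.asIdeal :=
    (Ideal.Quotient.mkₐ O _).comp Algebra.TensorProduct.includeRight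
  let e : ((FractionRing O ⊗[O] T) ⧸ I.asIdeal) →ₐ[FractionRing O] E := IsAlgClosed.lift
  have h1 : e (f₀ a) = 0 := h ((e.restrictScalars O).comp f₀)
  exact (map_eq_zero_iff e e.toRingHom.injective).mp h1

end pts

section lines

variable {p : ℕ} [hp : Fact p.Prime]

/-- An unramified quotient of rank one on which Frobenius acts by `z`. -/
def HasLine (p : ℕ) (A : ValuationSubring Qb) {E : Type} [Field E] (ρ : GQ →* M2 E) (z : E) :
    Prop :=
  ∃ w : Fin 2 → E, w ≠ 0 ∧
    (∀ s ∈ A.decompositionSubgroup ℚ, ∃ c : E, ρ s *ᵥ w = c • w) ∧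
    (∀ s ∈ A.inertiaSubgroupIn ℚ, ∀ u, ∃ c : E, ρ s *ᵥ u - u = c • w) ∧
    ∀ Φ, A.IsFrobeniusAt Φ p → ∀ u, ∃ c : E, ρ Φ *ᵥ u - z • u = c • w

variable {O : Type} [CommRing O] {χ : GQ → O}

theorem HasLine.ordAt {E : Type} [Field E] [Algebra O E] {ρ : GQ →* M2 E} {z : E}
    (h : HasLine p (Pl (ExtCitation.pPrime p)) ρ z)
    (hdet : ∀ σ, (ρ σ).det = algebraMap O E (χ σ)) : OrdAt p χ ρ := by
  obtain ⟨w, hw, h1, h2, -⟩ := h
  exact OrdAt.of_line hw hdet h1 h2

theorem HasLine.z_eq [IsLocalRing O] {rbar : GQ →* M2 (ResidueField O)} (b : Bas p χ rbar)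
    {E : Type} [Field E] [Algebra O E] {ρ : GQ →* M2 E} {z : E}
    (h : HasLine p (Pl (ExtCitation.pPrime p)) ρ z) (hg : IsUnit (b.g ρ).det) {φ : GQ}
    (hφ : (Pl (ExtCitation.pPrime p)).IsFrobeniusAt φ p) : b.z ρ φ = z := by
  obtain ⟨w, -, -, h2, h3⟩ := h
  exact b.z_eq hg (h2 _ b.mem) (h3 φ hφ)

end lines

section hecke

variable {p : ℕ} [hp : Fact p.Prime] {O : Type} [CommRing O] [IsDomain O] {χ : GQ → O}
  {T : Type} [CommRing T] [Algebra O T] [Module.Finite O T] [Module.Free O T] [IsReduced T]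
  {E : Type} [Field E] [IsAlgClosed E] [Algebra O E]
  {r : GQ →* M2 T}

/-- **Ordinarity from points.** -/
theorem ordAt_of_pts (hE : Function.Injective (algebraMap O E))
    (hdet : ∀ σ, (r σ).det = algebraMap O T (χ σ))
    (h : ∀ f : T →ₐ[O] E, ∃ z, HasLine p (Pl (ExtCitation.pPrime p))
      (mapRep (f : T →+* E) r) z) : OrdAt p χ r := by
  have hdet' : ∀ f : T →ₐ[O] E, ∀ σ, (mapRep (f : T →+* E) r σ).det = algebraMap O E (χ σ) := by
    intro f σ
    have h1 : (mapRep (f : T →+* E) r σ).det = f (r σ).det :=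
      (RingHom.map_det (f : T →+* E) (r σ)).symm
    rw [h1, hdet, AlgHom.commutes]
  intro σ₀ hσ₀
  constructor
  · intro σ hσ
    refine Matrix.ext fun a b => pts_injective hE _ fun f => ?_
    obtain ⟨z, hz⟩ := h f
    have h1 := congrFun (congrFun (stab_map (e := χ σ₀) (σ₀ := σ₀) f r σ) a) b
    rw [(hz.ordAt (hdet' f) σ₀ hσ₀).stab σ hσ] at h1
    exact h1
  · intro σ hσ
    refine Matrix.ext fun a b => pts_injective hE _ fun f => ?_
    obtain ⟨z, hz⟩ := h f
    have h1 := congrFun (congrFun (quot_map (e := χ σ₀) (σ₀ := σ₀) f r σ) a) b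
    rw [(hz.ordAt (hdet' f) σ₀ hσ₀).quot σ hσ] at h1
    exact h1

/-- **Triviality from points.** -/
theorem eq_one_of_pts (hE : Function.Injective (algebraMap O E)) {τ : GQ}
    (h : ∀ f : T →ₐ[O] E, (r τ).map f = 1) : r τ = 1 := by
  refine Matrix.ext fun a b => ?_
  rw [← sub_eq_zero]
  refine pts_injective hE _ fun f => ?_
  have h1 := congrFun (congrFun (h f) a) b
  rw [Matrix.map_apply] at h1
  rw [map_sub, h1]
  by_cases hab : a = b
  · subst hab; rw [Matrix.one_apply_eq, Matrix.one_apply_eq, map_one, sub_self]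
  · rw [Matrix.one_apply_ne hab, Matrix.one_apply_ne hab, map_zero, sub_self]

variable [IsLocalRing O] [IsLocalRing T] [IsLocalHom (algebraMap O T)]
  {rbar : GQ →* M2 (ResidueField O)} (b : Bas p χ rbar)

omit [IsDomain O] [Module.Finite O T] [Module.Free O T] [IsReduced T] [IsAlgClosed E] in
/-- the eigenvalue at a point -/
theorem map_z_pt (hr : Red rbar r) (f : T →ₐ[O] E) {z : E}
    (h : HasLine p (Pl (ExtCitation.pPrime p)) (mapRep (f : T →+* E) r) z) {φ : GQ}
    (hφ : (Pl (ExtCitation.pPrime p)).IsFrobeniusAt φ p) : f (b.z r φ) = z := by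
  have hg : IsUnit (b.g r).det := b.isUnit_det hr
  rw [b.map_z f r hg φ]
  refine h.z_eq b ?_ hφ
  rw [← b.g_map f r]
  have h1 : ((b.g r).map f).det = f (b.g r).det := (RingHom.map_det (f : T →+* E) (b.g r)).symm
  rw [h1]
  exact hg.map f

/-- the eigenvalue is a sign if it is so at all points -/
theorem z_sq_of_pts (hE : Function.Injective (algebraMap O E)) (hr : Red rbar r) {φ : GQ}
    (hφ : (Pl (ExtCitation.pPrime p)).IsFrobeniusAt φ p)
    (h : ∀ f : T →ₐ[O] E, ∃ z, z ^ 2 = 1 ∧ HasLine p (Pl (ExtCitation.pPrime p))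
      (mapRep (f : T →+* E) r) z) : b.z r φ ^ 2 = 1 := by
  rw [← sub_eq_zero]
  refine pts_injective hE _ fun f => ?_
  obtain ⟨z, hz, hl⟩ := h f
  rw [map_sub, map_pow, map_z_pt b hr f hl hφ, hz, map_one, sub_self]

/-- the quadratic equation of the eigenvalue -/
theorem z_quad_of_pts (hE : Function.Injective (algebraMap O E)) (hr : Red rbar r) {φ : GQ}
    (hφ : (Pl (ExtCitation.pPrime p)).IsFrobeniusAt φ p) (t : T)
    (h : ∀ f : T →ₐ[O] E, ∃ z, z ^ 2 - f t * z + p = 0 ∧
      HasLine p (Pl (ExtCitation.pPrime p)) (mapRep (f : T →+* E) r) z) :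
    b.z r φ ^ 2 - t * b.z r φ + p = 0 := by
  refine pts_injective hE _ fun f => ?_
  obtain ⟨z, hz, hl⟩ := h f
  rw [map_add, map_sub, map_pow, map_mul, map_z_pt b hr f hl hφ, map_natCast, hz]

omit hp [IsDomain O] [Module.Finite O T] [Module.Free O T] [IsReduced T]
  [IsLocalHom (algebraMap O T)] in
/-- a sign congruent to a sign -/
theorem sign_eq (h2 : (2 : ResidueField O) ≠ 0) {z : T} {z₀ : O} (hz : z ^ 2 = 1)
    (hz₀ : z₀ ^ 2 = 1) (h : z - algebraMap O T z₀ ∈ maximalIdeal T) : z = algebraMap O T z₀ := by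
  have hu : IsUnit (z + algebraMap O T z₀) := by
    by_contra hcon
    have h1 : z + algebraMap O T z₀ ∈ maximalIdeal T := hcon
    have h3 := Ideal.sub_mem _ h1 h
    have h4 : z + algebraMap O T z₀ - (z - algebraMap O T z₀) = algebraMap O T (2 * z₀) := by
      rw [map_mul, map_ofNat]; ring
    rw [h4] at h3
    have h5 : ¬ IsUnit (algebraMap O T (2 * z₀)) := h3
    apply h5
    refine IsUnit.map _ (IsUnit.mul ?_ (IsUnit.of_pow_eq_one hz₀ two_ne_zero))
    rw [← isUnit_map_iff (residue O), isUnit_iff_ne_zero, map_ofNat]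
    exact h2
  have h1 : (z + algebraMap O T z₀) * (z - algebraMap O T z₀) = 0 := by
    have h4 : algebraMap O T z₀ ^ 2 = 1 := by rw [← map_pow, hz₀, map_one]
    linear_combination hz - h4
  rw [hu.mul_right_eq_zero, sub_eq_zero] at h1
  exact h1

omit [IsDomain O] [Module.Finite O T] [Module.Free O T] [IsReduced T] in
/-- residue of the eigenvalue -/
theorem z_sub_mem (hs : Function.Surjective (residue T ∘ algebraMap O T)) (hr : Red rbar r)
    {φ : GQ} {z₀ : O} (hres : b.z rbar φ = residue O z₀) :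
    b.z r φ - algebraMap O T z₀ ∈ maximalIdeal T := by
  obtain ⟨π, hπ⟩ := RT8J.exists_pi hs
  rw [← RT8J.pi_eq_zero_iff π hπ, map_sub, hπ]
  let π' : T →ₐ[O] ResidueField O := { π with commutes' := hπ }
  have h1 : π (b.z r φ) = b.z (mapRep (π' : T →+* ResidueField O) r) φ :=
    b.map_z π' r (b.isUnit_det hr) φ
  have h2 : mapRep (π' : T →+* ResidueField O) r = rbar :=
    MonoidHom.ext fun σ => RT8J.map_pi_of_red π hπ hr σ
  rw [h1, h2, hres, sub_self]

end hecke

end Fermat.Agent.RTan
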