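import Fermat.Agent.RTan.Pts
import Fermat.Agent.RTan.FlatM

/-!
# Points with values in an algebraically closed field
-/

set_option autoImplicit false

namespace Fermat.Agent.RTan

open IsLocalRing Matrix
open Fermat.Agent.TWP (Pl rl Γl Qb MDef)
open Fermat.Agent.DefRing (MatCont Red Norm SliceData M2 GQ mapRep)
open scoped Pointwise TensorProduct

section factor

variable {O : Type} [CommRing O] [IsDomain O] [IsDiscreteValuationRing O]
  [IsAdicComplete (maximalIdeal O) O] [Finite (ResidueField O)] [CharZero O]
  {T : Type} [CommRing T] [Algebra O T] [Module.Finite O T]
  {E : Type} [Field E] [Algebra O E]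

/-- Points factor through complete discrete valuation rings. -/
theorem exists_opt (hE : Function.Injective (algebraMap O E)) (f : T →ₐ[O] E) :
    ∃ (pt : TW.OPt O T) (ι : pt.A →ₐ[O] E), Function.Injective ι ∧ ∀ a, ι (pt.χ a) = f a := by
  classical
  have hfs : FaithfulSMul O E := (faithfulSMul_iff_algebraMap_injective O E).mpr hE
  let _ : Algebra (FractionRing O) E := FractionRing.liftAlgebra O E
  have hst : IsScalarTower O (FractionRing O) E := FractionRing.isScalarTower_liftAlgebra O E
  obtain ⟨S, hS⟩ := Module.Finite.fg_top (R := O) (M := T)
  have hintf : ∀ a, IsIntegral O (f a) := fun a =>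
    (Algebra.IsIntegral.isIntegral (R := O) a).map f
  let L : IntermediateField (FractionRing O) E :=
    IntermediateField.adjoin (FractionRing O) ((S.image f : Finset E) : Set E)
  have hfin0 : FiniteDimensional (FractionRing O) L := by
    refine IntermediateField.finiteDimensional_adjoin fun x hx => ?_
    obtain ⟨a, -, rfl⟩ := Finset.mem_image.mp (Finset.mem_coe.mp hx)
    exact (hintf a).tower_top
  have hmem : ∀ a, f a ∈ L := by
    intro a
    have ha : a ∈ Submodule.span O (S : Set T) := by rw [hS]; trivial
    induction ha using Submodule.span_induction with
    | mem x hx =>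
      exact IntermediateField.subset_adjoin _ _
        (Finset.mem_coe.mpr (Finset.mem_image_of_mem _ (Finset.mem_coe.mp hx)))
    | zero => rw [map_zero]; exact L.zero_mem
    | add x y _ _ hx hy => rw [map_add]; exact L.add_mem hx hy
    | smul o x _ hx =>
      rw [map_smul, Algebra.smul_def, IsScalarTower.algebraMap_apply O (FractionRing O) E]
      exact L.mul_mem (L.algebraMap_mem _) hx
  have hloc := QuadRep.isLocalRing_integralClosure O (FractionRing O) L
  have hdvr := QuadRep.isDiscreteValuationRing_integralClosure O (FractionRing O) L
  have hcomp := QuadRep.isAdicComplete_integralClosure O (FractionRing O) L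
  have hfin := QuadRep.finite_residueField_integralClosure O (FractionRing O) L
  have hfin' := QuadRep.finite_integralClosure O (FractionRing O) L
  have hch := QuadRep.charZero_integralClosure O (FractionRing O) L
  have hlochom := QuadRep.isLocalHom_integralClosure O (FractionRing O) L
  let f' : T →ₐ[O] L :=
    { toFun := fun a => ⟨f a, hmem a⟩
      map_one' := Subtype.ext (map_one f)
      map_mul' := fun a b => Subtype.ext (map_mul f a b)
      map_zero' := Subtype.ext (map_zero f)
      map_add' := fun a b => Subtype.ext (map_add f a b)
      commutes' := fun o => Subtype.ext (by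
        show f (algebraMap O T o) = _
        rw [AlgHom.commutes, IsScalarTower.algebraMap_apply O (FractionRing O) E,
          IsScalarTower.algebraMap_apply O (FractionRing O) L]
        rfl) }
  have hint : ∀ a, IsIntegral O (f' a) := fun a =>
    (Algebra.IsIntegral.isIntegral (R := O) a).map f'
  let pt : TW.OPt O T :=
    { A := integralClosure O L
      isDVR := hdvr
      isAdicComplete := hcomp
      finiteResidueField := hfin
      charZero := hch
      finite := hfin'
      isLocalHom := hlochom
      χ := f'.codRestrict (integralClosure O L) hint }
  let ι : integralClosure O L →ₐ[O] E :=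
    ((L.val).restrictScalars O).comp (integralClosure O L).val
  refine ⟨pt, ι, ?_, fun a => rfl⟩
  exact (Subtype.val_injective).comp Subtype.val_injective

end factor

end Fermat.Agent.RTan
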