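import Fermat.Agent.RTan.FlatR
import Fermat.Agent.RT8.ModMain

/-!
# Modularity theorems for systems of modules: framings discharged
-/

set_option autoImplicit false

namespace Fermat.Agent.RTan

open IsLocalRing Matrix Fermat.Agent.PT
open Fermat.Agent.PTC (ptd sL allL muA cyclo_spec)
open Fermat.Agent.TWP (twAct Pl rl Γl Qb SQ RD UnrOut TWSet)
open Fermat.Agent.DefRing (MatCont Red Norm SliceData M2 GQ mapRep)
open Fermat.Agent.ORD (Pair)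
open scoped Pointwise

variable {𝒪 : Type} [CommRing 𝒪] [IsDomain 𝒪] [IsDiscreteValuationRing 𝒪]
  [IsAdicComplete (maximalIdeal 𝒪) 𝒪] [Finite (ResidueField 𝒪)] {p : ℕ}
  [hp : Fact p.Prime] {rbar : GQ →* M2 (ResidueField 𝒪)} {sd : SliceData rbar} {m : ℕ}
  {Λ K : Type} [Fintype Λ] [DecidableEq Λ] [Finite K]

/-- The global data for a family of modules. -/
structure MTan (X : RT8.MSys sd p m Λ K) (χ : GQ → 𝒪) where
  /-- the base set of places (with auxiliary primes) -/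
  S : Finset Nat.Primes
  hpS : ExtCitation.pPrime p ∈ S
  unrOut : UnrOut S rbar
  rd : RD p rbar
  /-- the Taylor–Wiles primes -/
  q : ℕ → Fin m → Nat.Primes
  τQ : ℕ → Fin m → GQ
  /-- their levels -/
  lev : ℕ → ℕ
  tw : ∀ n, TWSet p rbar (lev n) S m (q n) (τQ n)
  ec : ∀ n, (Nat.card (ResidueField 𝒪) : ℝ) *
    chi (sL (SQ S (q n))) (dualAct (muA p) (twAct 1 rbar)) ≤ 1
  prime : ∀ l, (X.ℓ l).Prime
  inj : Function.Injective X.ℓ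
  mem : ∀ l, (⟨X.ℓ l, prime l⟩ : Nat.Primes) ∈ S
  tame : ∀ l, TameAt p rbar ⟨X.ℓ l, prime l⟩ (X.φ l) (X.τ l)
  det_pt : ∀ σ, (X.pt.r σ).det = algebraMap 𝒪 X.pt.T (χ σ)
  det : ∀ n k σ, ((X.L n k).C.r σ).det = algebraMap 𝒪 (X.L n k).C.T (χ σ)
  unr_pt : ∀ (v : Nat.Primes), v ≠ ExtCitation.pPrime p → (∀ l, (v : ℕ) ≠ X.ℓ l) →
    ∀ A : ValuationSubring Qb, A.LiesOverPrime v →
      ∀ σ ∈ A.inertiaSubgroupIn ℚ, X.pt.r σ = 1
  unr : ∀ n k (v : Nat.Primes), v ≠ ExtCitation.pPrime p → (∀ l, (v : ℕ) ≠ X.ℓ l) →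
    (∀ i, v ≠ q n i) → ∀ A : ValuationSubring Qb, A.LiesOverPrime v →
      ∀ σ ∈ A.inertiaSubgroupIn ℚ, (X.L n k).C.r σ = 1

variable {X : RT8.MSys sd p m Λ K} {χ : GQ → 𝒪} (D : MTan X χ)
  (hp𝒪 : (p : 𝒪) ∈ maximalIdeal 𝒪)

/-- the data of the associated patching system -/
noncomputable def MTan.toTan : TanData (X.toSys hp.out hp𝒪) χ where
  S := D.S
  hpS := D.hpS
  unrOut := D.unrOut
  rd := D.rd
  q := D.q
  τQ := D.τQ
  lev := D.lev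
  tw := D.tw
  ec := D.ec
  prime := D.prime
  inj := D.inj
  mem := D.mem
  tame := D.tame
  det n
    | none => D.det_pt
    | some k => D.det n k
  unr n
    | none => fun v h1 h2 _ => D.unr_pt v h1 h2
    | some k => D.unr n k

theorem forall_opt {n : ℕ} (P : ∀ (T : Type) [CommRing T] [Algebra 𝒪 T], (GQ →* M2 T) → Prop)
    (h0 : P X.pt.T X.pt.r) (h1 : ∀ k, P (X.L n k).C.T (X.L n k).C.r) :
    ∀ j, P ((X.toSys hp.out hp𝒪).C n j).T ((X.toSys hp.out hp𝒪).C n j).r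
  | none => h0
  | some k => h1 k

section A

variable (hp2 : p ≠ 2) (hχ : CycChar p χ)

include D hp2 hχ in
/-- Framings in the flat case. -/
theorem MTan.exists_frm_fl (hpt : FlatM p 𝒪 X.pt.r) (hL : ∀ n k, FlatM p 𝒪 (X.L n k).C.r) :
    Nonempty (RT8.Frm (X.toSys hp.out hp𝒪) Empty m) :=
  (D.toTan hp𝒪).exists_frm_fl hp2 hχ fun n =>
    forall_opt hp𝒪 (fun _ _ _ r => FlatM p 𝒪 r) hpt (hL n)

include D hp2 hχ in
/-- Framings in the strict case. -/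
theorem MTan.exists_frm_st (hpt : OrdAt p χ X.pt.r) (hL : ∀ n k, OrdAt p χ (X.L n k).C.r)
    (b : Bas p χ rbar) {φ τ : GQ} (hpair : Pair p (Pl (ExtCitation.pPrime p)) φ τ)
    (hτ : rbar τ ≠ 1) : Nonempty (RT8.Frm (X.toSys hp.out hp𝒪) Empty m) :=
  (D.toTan hp𝒪).exists_frm_st hp2 hχ hp𝒪
    (fun n => forall_opt hp𝒪 (fun _ _ _ r => OrdAt p χ r) hpt (hL n)) b hpair hτ

end A

section B

variable (hp2 : p ≠ 2) (hχ : CycChar p χ) (b : Bas p χ rbar) {φ τ : GQ}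

/-- image in a level of the joint elements -/
theorem prK_z (n : ℕ) (k : K) (φ : GQ) :
    X.prK hp.out hp𝒪 n k (b.z (X.A hp.out hp𝒪 n).r0 φ) = b.z (X.L n k).C.r φ := by
  have h1 := b.map_z (X.prK hp.out hp𝒪 n k) (X.A hp.out hp𝒪 n).r0
    (b.isUnit_det (X.A hp.out hp𝒪 n).red) φ
  rw [X.prK_r0 hp.out hp𝒪 n k] at h1
  exact h1

theorem prK_v (n : ℕ) (k : K) (τ : GQ) :
    X.prK hp.out hp𝒪 n k (b.v (X.A hp.out hp𝒪 n).r0 τ) = b.v (X.L n k).C.r τ := by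
  have h1 := b.map_v (X.prK hp.out hp𝒪 n k) (X.A hp.out hp𝒪 n).r0
    (b.isUnit_det (X.A hp.out hp𝒪 n).red) τ
  rw [X.prK_r0 hp.out hp𝒪 n k] at h1
  exact h1

theorem pr_pt_z (n : ℕ) (φ : GQ) :
    (X.A hp.out hp𝒪 n).pr none (b.z (X.A hp.out hp𝒪 n).r0 φ) = b.z X.pt.r φ := by
  have h1 := b.map_z ((X.A hp.out hp𝒪 n).pr none) (X.A hp.out hp𝒪 n).r0
    (b.isUnit_det (X.A hp.out hp𝒪 n).red) φ
  have h2 : mapRep ((X.A hp.out hp𝒪 n).pr none : (X.A hp.out hp𝒪 n).R →+*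
    ((X.toSys hp.out hp𝒪).C n none).T) (X.A hp.out hp𝒪 n).r0 = X.pt.r :=
      (X.A hp.out hp𝒪 n).pr_r0 none
  rw [h2] at h1
  exact h1

/-- The modular input at `p` in case (B), in terms of the Frobenius eigenvalue `z` on the
quotient of the ordinary line at each level. -/
def PModB (X : RT8.MSys sd p m Λ K) (b : Bas p χ rbar) (φ τ : GQ) (z₀ : 𝒪) (k : K)
    (S₀ : Finset Λ) : Prop :=
  (∀ n (x : (X.L n k).M), (b.z (X.L n k).C.r φ - algebraMap 𝒪 _ z₀) • x = 0) ∨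
  ∃ (k' : K) (W : ∀ n, RT8.DegM X n k k'), X.ram k' = S₀ ∧ 0 < (X.B k').d ∧
    (∀ n, (X.L n k').C.r τ = 1) ∧
    (∀ n (zi : (X.L n k').C.T), b.z (X.L n k').C.r φ * zi = 1 →
      ∀ x y, (W n).down ((W n).up (x, y)) =
        ((((p : ℕ) : (X.L n k').C.T) + 1) • x +
          (b.z (X.L n k').C.r φ + ((p : ℕ) : (X.L n k').C.T) * zi) • y,
         (b.z (X.L n k').C.r φ + ((p : ℕ) : (X.L n k').C.T) * zi) • x +
          (((p : ℕ) : (X.L n k').C.T) + 1) • y)) ∧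
    ∀ n (x : (X.L n k).M), ∃ y,
      (b.z (X.L n k).C.r φ - algebraMap 𝒪 _ z₀) • x = (W n).up y

theorem PModB.toPInM {g' : ℕ} {Z : RT8.Frm (X.toSys hp.out hp𝒪) Bool g'} {z₀ : 𝒪} {k : K}
    {S₀ : Finset Λ} (hz₀ : z₀ ^ 2 = 1)
    (hZf : ∀ n, Z.s n false = b.z (X.A hp.out hp𝒪 n).r0 φ - algebraMap 𝒪 _ z₀)
    (hZt : ∀ n, Z.s n true = b.v (X.A hp.out hp𝒪 n).r0 τ)
    (h : PModB X b φ τ z₀ k S₀) : RT8.PInM hp.out hp𝒪 Z k S₀ := by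
  have hf : ∀ n k, X.prK hp.out hp𝒪 n k (Z.s n false) =
      b.z (X.L n k).C.r φ - algebraMap 𝒪 _ z₀ := by
    intro n k
    rw [hZf, map_sub, prK_z, AlgHom.commutes]
  have ht : ∀ n k, X.prK hp.out hp𝒪 n k (Z.s n true) = b.v (X.L n k).C.r τ := by
    intro n k
    rw [hZt, prK_v]
  rcases h with h | ⟨k', W, h1, h2, h3, h4, h5⟩
  · exact Or.inl fun n x => by rw [hf]; exact h n x
  · refine Or.inr ⟨k', W, z₀, h1, h2, fun n x => ?_, hz₀, fun n zi hzi x y => ?_,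
      fun n x => ?_⟩
    · rw [ht, b.v_eq_zero (b.isUnit_det (X.L n k').C.red) (h3 n), zero_smul]
    · rw [hf, add_sub_cancel] at hzi ⊢
      exact h4 n zi hzi x y
    · rw [hf]
      exact h5 n x

include D hp2 hχ hp𝒪 in
/-- **Modularity, case (B).** -/
theorem MTan.modularB (hpt : OrdAt p χ X.pt.r) (hL : ∀ n k, OrdAt p χ (X.L n k).C.r)
    (hpair : Pair p (Pl (ExtCitation.pPrime p)) φ τ)
    (hτ : rbar τ = 1) (z₀ : 𝒪) (hz₀ : z₀ ^ 2 = 1) (hzpt : b.z X.pt.r φ = algebraMap 𝒪 _ z₀)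
    (hN : RT8.NumC (fun l => (X.ℓ l : 𝒪)))
    (κ : Finset Λ → K) (S₀ : Finset Λ) (l₂ : Λ) (hl₂ : l₂ ∈ S₀)
    (hram : ∀ S, S₀ ⊆ S → X.ram (κ S) = S) (hd : 0 < (X.B (κ S₀)).d)
    (hnew : ∀ l ∈ S₀, l ≠ l₂ → RT8.NewM X (κ S₀) l) (h2 : RT8.TwoM X (κ S₀) l₂)
    (W : ∀ S, S₀ ⊆ S → ∀ l ∉ S, RT8.DegPM X (κ (insert l S)) (κ S) l)
    (hin : PModB X b φ τ z₀ (κ S₀) S₀)
    (S : Finset Λ) (hdom : IsDomain X.pt.T) (hjS : ∀ l ∉ S, X.pt.r (X.τ l) = 1)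
    (hj2 : X.pt.r (X.τ l₂) ≠ 1)
    (hinj : ∀ t : (X.B (κ S)).C.T, (∀ x : (X.B (κ S)).M, t • x = 0) → t = 0) :
    S₀ ⊆ S ∧ ∃ f : (X.B (κ S)).C.T →ₐ[𝒪] X.pt.T,
      mapRep (f : (X.B (κ S)).C.T →+* X.pt.T) (X.B (κ S)).C.r = X.pt.r := by
  have hres : b.z rbar φ = residue 𝒪 z₀ := by
    obtain ⟨π, hπ⟩ := RT8J.exists_pi (𝒪 := 𝒪) (R := (X.A hp.out hp𝒪 0).R)
      (X.A hp.out hp𝒪 0).surj
    have h1 := pi_z b (Y := X.toSys hp.out hp𝒪) (n := 0) hπ φ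
    rw [← h1, ← hπ, ← sub_eq_zero, ← map_sub, RT8J.pi_eq_zero_iff π hπ]
    by_contra hcon
    have h2 : IsUnit (b.z (X.A hp.out hp𝒪 0).r0 φ - algebraMap 𝒪 _ z₀) := by
      rwa [mem_maximalIdeal, mem_nonunits_iff, not_not] at hcon
    have h3 := h2.map ((X.A hp.out hp𝒪 0).pr none)
    rw [map_sub, pr_pt_z, hzpt, AlgHom.commutes] at h3
    have h4 : algebraMap 𝒪 X.pt.T z₀ - algebraMap 𝒪 X.pt.T z₀ = 0 := sub_self _
    have h5 : IsUnit (0 : X.pt.T) := h4 ▸ h3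
    exact not_isUnit_zero h5
  obtain ⟨g', hg', Z, hZf, hZt, huv⟩ := (D.toTan hp𝒪).exists_frm_B hp2 hχ hp𝒪
    (fun n => forall_opt hp𝒪 (fun _ _ _ r => OrdAt p χ r) hpt (hL n)) b hpair hτ z₀ hz₀ hres
  exact RT8.MSys.modularB hp.out hp𝒪 hN Z hg'.le huv κ S₀ l₂ hl₂ hram hd hnew h2 W
    (PModB.toPInM hp𝒪 b hz₀ hZf hZt hin) S hdom hjS hj2 (fun n => by
      rw [hZf, map_sub, pr_pt_z, hzpt, AlgHom.commutes]
      exact sub_self _) hinj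

end B

end Fermat.Agent.RTan
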