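import Fermat.Agent.RTan.Str
import Fermat.Agent.RTan.LocSurj
import Fermat.Agent.DefRing.Slice

/-!
# Ordinary structures in matrix form
-/

set_option autoImplicit false

namespace Fermat.Agent.RTan

open Matrix
open Fermat.Agent.TWP (Pl rl Γl Qb)
open Fermat.Agent.DefRing (M2 GQ mapRep)
open scoped Pointwise

section defs

variable {𝒪 : Type} [CommRing 𝒪] {T : Type} [CommRing T] [Algebra 𝒪 T]

/-- Ordinary structure in matrix form: `σ₀` is an element of inertia acting by `e` on the line and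
trivially on the quotient. -/
structure OrdM (A : ValuationSubring Qb) (σ₀ : GQ) (e : 𝒪) (r : GQ →* M2 T) : Prop where
  stab : ∀ σ ∈ A.decompositionSubgroup ℚ,
    (algebraMap 𝒪 T e • (1 : M2 T) - r σ₀) * r σ * (r σ₀ - 1) = 0
  quot : ∀ σ ∈ A.inertiaSubgroupIn ℚ, (algebraMap 𝒪 T e • (1 : M2 T) - r σ₀) * (r σ - 1) = 0

variable {A : ValuationSubring Qb} {σ₀ : GQ} {e : 𝒪}

lemma map_alg_smul_one {T' : Type} [CommRing T'] [Algebra 𝒪 T'] (f : T →ₐ[𝒪] T') (e : 𝒪) :
    ((algebraMap 𝒪 T e • (1 : M2 T)).map f) = algebraMap 𝒪 T' e • (1 : M2 T') := by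
  refine Matrix.ext fun i j => ?_
  rw [Matrix.map_apply, Matrix.smul_apply, Matrix.smul_apply, smul_eq_mul, smul_eq_mul, map_mul,
    AlgHom.commutes]
  by_cases h : i = j
  · subst h; rw [Matrix.one_apply_eq, Matrix.one_apply_eq, map_one]
  · rw [Matrix.one_apply_ne h, Matrix.one_apply_ne h, map_zero]

lemma map_one2 {T' : Type} [CommRing T'] [Algebra 𝒪 T'] (f : T →ₐ[𝒪] T') :
    (1 : M2 T).map f = 1 := by
  refine Matrix.ext fun i j => ?_
  rw [Matrix.map_apply]
  by_cases h : i = j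
  · subst h; rw [Matrix.one_apply_eq, Matrix.one_apply_eq, map_one]
  · rw [Matrix.one_apply_ne h, Matrix.one_apply_ne h, map_zero]

lemma map_sub2 {T' : Type} [CommRing T'] [Algebra 𝒪 T'] (f : T →ₐ[𝒪] T') (X Y : M2 T) :
    (X - Y).map f = X.map f - Y.map f := by
  refine Matrix.ext fun i j => ?_
  rw [Matrix.map_apply, Matrix.sub_apply, Matrix.sub_apply, map_sub]
  rfl

lemma map_mul2 {T' : Type} [CommRing T'] [Algebra 𝒪 T'] (f : T →ₐ[𝒪] T') (X Y : M2 T) :
    (X * Y).map f = X.map f * Y.map f := Matrix.map_mul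

/-- the two expressions are natural -/
lemma stab_map {T' : Type} [CommRing T'] [Algebra 𝒪 T'] (f : T →ₐ[𝒪] T') (r : GQ →* M2 T)
    (σ : GQ) : ((algebraMap 𝒪 T e • (1 : M2 T) - r σ₀) * r σ * (r σ₀ - 1)).map f =
      (algebraMap 𝒪 T' e • (1 : M2 T') - mapRep (f : T →+* T') r σ₀) *
        mapRep (f : T →+* T') r σ * (mapRep (f : T →+* T') r σ₀ - 1) := by
  rw [map_mul2, map_mul2, map_sub2, map_sub2, map_alg_smul_one, map_one2]
  rfl

lemma quot_map {T' : Type} [CommRing T'] [Algebra 𝒪 T'] (f : T →ₐ[𝒪] T') (r : GQ →* M2 T)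
    (σ : GQ) : ((algebraMap 𝒪 T e • (1 : M2 T) - r σ₀) * (r σ - 1)).map f =
      (algebraMap 𝒪 T' e • (1 : M2 T') - mapRep (f : T →+* T') r σ₀) *
        (mapRep (f : T →+* T') r σ - 1) := by
  rw [map_mul2, map_sub2, map_sub2, map_alg_smul_one, map_one2]
  rfl

theorem OrdM.map {T' : Type} [CommRing T'] [Algebra 𝒪 T'] (f : T →ₐ[𝒪] T') {r : GQ →* M2 T}
    (h : OrdM A σ₀ e r) : OrdM A σ₀ e (mapRep (f : T →+* T') r) where
  stab σ hσ := by
    rw [← stab_map, h.stab σ hσ]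
    exact Matrix.ext fun i j => map_zero f
  quot σ hσ := by
    rw [← quot_map, h.quot σ hσ]
    exact Matrix.ext fun i j => map_zero f

/-- ordinary structures are detected by separating families of homomorphisms -/
theorem OrdM.of_family {J : Type} {T' : J → Type} [∀ j, CommRing (T' j)]
    [∀ j, Algebra 𝒪 (T' j)] (f : ∀ j, T →ₐ[𝒪] T' j) (hf : ∀ x, (∀ j, f j x = 0) → x = 0)
    {r : GQ →* M2 T} (h : ∀ j, OrdM A σ₀ e (mapRep (f j : T →+* T' j) r)) : OrdM A σ₀ e r where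
  stab σ hσ := by
    refine Matrix.ext fun a b => hf _ fun j => ?_
    have h1 := congrFun (congrFun (stab_map (e := e) (σ₀ := σ₀) (f j) r σ) a) b
    rw [(h j).stab σ hσ] at h1
    exact h1
  quot σ hσ := by
    refine Matrix.ext fun a b => hf _ fun j => ?_
    have h1 := congrFun (congrFun (quot_map (e := e) (σ₀ := σ₀) (f j) r σ) a) b
    rw [(h j).quot σ hσ] at h1
    exact h1

end defs

section line

variable {𝒪 : Type} [CommRing 𝒪] {E : Type} [Field E] [Algebra 𝒪 E]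
  {A : ValuationSubring Qb} {σ₀ : GQ} {e : 𝒪}

/-- from a stable line over a field to the matrix form -/
theorem OrdM.of_line {r : GQ →* M2 E} {w : Fin 2 → E} (hw : w ≠ 0)
    (hσ₀ : σ₀ ∈ A.inertiaSubgroupIn ℚ) (hdet : (r σ₀).det = algebraMap 𝒪 E e)
    (hD : ∀ σ ∈ A.decompositionSubgroup ℚ, ∃ c : E, r σ *ᵥ w = c • w)
    (hI : ∀ σ ∈ A.inertiaSubgroupIn ℚ, ∀ u : Fin 2 → E, ∃ c : E, r σ *ᵥ u - u = c • w) :
    OrdM A σ₀ e r := by
  have hI' : ∀ σ ∈ A.inertiaSubgroupIn ℚ, σ ∈ A.decompositionSubgroup ℚ := by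
    rintro _ ⟨s, -, rfl⟩
    exact s.2
  -- the eigenvalue on the line
  have hew : (algebraMap 𝒪 E e • (1 : M2 E) - r σ₀) *ᵥ w = 0 := by
    obtain ⟨c, hc⟩ := hD σ₀ (hI' σ₀ hσ₀)
    -- choose a complementary vector
    have hu : ∃ u : Fin 2 → E, w 0 * u 1 - w 1 * u 0 ≠ 0 := by
      by_contra hcon
      push Not at hcon
      apply hw
      apply vec_ext
      · have := hcon ![0, 1]
        simpa using this
      · have := hcon ![1, 0]
        simpa using this
    obtain ⟨u, hu⟩ := hu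
    obtain ⟨d, hd⟩ := hI σ₀ hσ₀ u
    have e0 : r σ₀ 0 0 * w 0 + r σ₀ 0 1 * w 1 = c * w 0 := by rw [← mulVec0, hc]; rfl
    have e1 : r σ₀ 1 0 * w 0 + r σ₀ 1 1 * w 1 = c * w 1 := by rw [← mulVec1, hc]; rfl
    have f0 : r σ₀ 0 0 * u 0 + r σ₀ 0 1 * u 1 - u 0 = d * w 0 := by
      have := congrFun hd 0
      rw [Pi.sub_apply, mulVec0] at this
      exact this
    have f1 : r σ₀ 1 0 * u 0 + r σ₀ 1 1 * u 1 - u 1 = d * w 1 := by
      have := congrFun hd 1
      rw [Pi.sub_apply, mulVec1] at this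
      exact this
    have h1 : (r σ₀).det * (w 0 * u 1 - w 1 * u 0) = c * (w 0 * u 1 - w 1 * u 0) := by
      rw [det_fin_two]
      linear_combination (r σ₀ 1 0 * u 0 + r σ₀ 1 1 * u 1) * e0 -
        (r σ₀ 0 0 * u 0 + r σ₀ 0 1 * u 1) * e1 + c * w 0 * f1 - c * w 1 * f0
    have h2 : c = algebraMap 𝒪 E e := by
      rw [← hdet]
      exact (mul_right_cancel₀ hu h1).symm
    rw [sub_mulVec, hc, smul_mulVec, one_mulVec, h2, sub_self]
  constructor
  · intro σ hσ
    obtain ⟨c, hc⟩ := hD σ hσ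
    refine Matrix.toLin'.injective (LinearMap.ext fun u => ?_)
    rw [Matrix.toLin'_apply, map_zero, LinearMap.zero_apply, ← mulVec_mulVec, ← mulVec_mulVec,
      sub_mulVec (r σ₀), one_mulVec]
    obtain ⟨d, hd⟩ := hI σ₀ hσ₀ u
    rw [hd, mulVec_smul, hc, mulVec_smul, mulVec_smul, hew, smul_zero, smul_zero]
  · intro σ hσ
    refine Matrix.toLin'.injective (LinearMap.ext fun u => ?_)
    rw [Matrix.toLin'_apply, map_zero, LinearMap.zero_apply, ← mulVec_mulVec,
      sub_mulVec (r σ), one_mulVec]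
    obtain ⟨d, hd⟩ := hI σ hσ u
    rw [hd, mulVec_smul, hew, smul_zero]

end line

section basis

variable {𝒪 : Type} [CommRing 𝒪] {T : Type} [CommRing T] [Algebra 𝒪 T]

/-- the idempotent -/
def idem (e' : 𝒪) (M : M2 T) : M2 T := algebraMap 𝒪 T e' • (M - 1)

/-- the change of basis -/
def gm (P : M2 T) (i j : Fin 2) : M2 T := !![P 0 j, (1 - P) 0 i; P 1 j, (1 - P) 1 i]

variable {e e' : 𝒪} (he : e' * (e - 1) = 1) {M : M2 T}

include he in
lemma one_sub_idem : 1 - idem e' M = algebraMap 𝒪 T e' • (algebraMap 𝒪 T e • (1 : M2 T) - M) := by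
  have h1 : algebraMap 𝒪 T e' * (algebraMap 𝒪 T e - 1) = 1 := by
    rw [← map_one (algebraMap 𝒪 T), ← map_sub, ← map_mul, he]
  have h2 : (1 : M2 T) = (algebraMap 𝒪 T e' * (algebraMap 𝒪 T e - 1)) • (1 : M2 T) := by
    rw [h1, one_smul]
  rw [idem]
  nth_rewrite 1 [h2]
  rw [mul_smul, ← smul_sub, sub_smul, one_smul]
  congr 1
  abel

include he in
lemma idem_idem (hM : (algebraMap 𝒪 T e • (1 : M2 T) - M) * (M - 1) = 0) :
    idem e' M * idem e' M = idem e' M := by
  have h1 : (1 - idem e' M) * idem e' M = 0 := by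
    rw [one_sub_idem he, idem, smul_mul_smul_comm, hM, smul_zero]
  rw [sub_mul, one_mul, sub_eq_zero] at h1
  exact h1.symm

lemma gm_mul {P : M2 T} (hP : P * P = P) (i j : Fin 2) :
    P * gm P i j = gm P i j * !![1, 0; 0, 0] := by
  have h0 : ∀ a b, P a 0 * P 0 b + P a 1 * P 1 b = P a b := by
    intro a b
    have := congrFun (congrFun hP a) b
    rwa [Matrix.mul_apply, Fin.sum_univ_two] at this
  have hPi : ∀ a b, P a 0 * (1 - P) 0 b + P a 1 * (1 - P) 1 b = 0 := by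
    intro a b
    have : P * (1 - P) = 0 := by rw [mul_sub, mul_one, hP, sub_self]
    have := congrFun (congrFun this a) b
    rwa [Matrix.mul_apply, Fin.sum_univ_two] at this
  apply ext_two <;> rw [Matrix.mul_apply, Matrix.mul_apply, Fin.sum_univ_two, Fin.sum_univ_two]
  · show P 0 0 * P 0 j + P 0 1 * P 1 j = P 0 j * 1 + (1 - P) 0 i * 0
    rw [h0]; ring
  · show P 0 0 * (1 - P) 0 i + P 0 1 * (1 - P) 1 i = P 0 j * 0 + (1 - P) 0 i * 0
    rw [hPi]; ring
  · show P 1 0 * P 0 j + P 1 1 * P 1 j = P 1 j * 1 + (1 - P) 1 i * 0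
    rw [h0]; ring
  · show P 1 0 * (1 - P) 0 i + P 1 1 * (1 - P) 1 i = P 1 j * 0 + (1 - P) 1 i * 0
    rw [hPi]; ring

/-- over a field, good indices exist -/
lemma exists_good_index {k : Type} [Field k] {P : M2 k} (hP : P * P = P) (h0 : P ≠ 0)
    (h1 : P ≠ 1) : ∃ i j, (gm P i j).det ≠ 0 := by
  have hj : ∃ j a, P a j ≠ 0 := by
    by_contra hcon
    push Not at hcon
    exact h0 (Matrix.ext fun a j => hcon j a)
  have hi : ∃ i a, (1 - P) a i ≠ 0 := by
    by_contra hcon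
    push Not at hcon
    apply h1
    have : (1 : M2 k) - P = 0 := Matrix.ext fun a i => hcon i a
    exact (sub_eq_zero.1 this).symm
  obtain ⟨j, a, hj⟩ := hj
  obtain ⟨i, b, hi⟩ := hi
  refine ⟨i, j, fun hdet => ?_⟩
  obtain ⟨w, hw, hw0⟩ := Matrix.exists_mulVec_eq_zero_iff.mpr hdet
  have h2 : P * gm P i j = gm P i j * !![1, 0; 0, 0] := gm_mul hP i j
  have h3 : (P * gm P i j) *ᵥ w = 0 := by rw [← mulVec_mulVec, hw0, mulVec_zero]
  rw [h2, ← mulVec_mulVec] at h3
  have h4 : (!![1, 0; 0, 0] : M2 k) *ᵥ w = ![w 0, 0] := by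
    apply vec_ext
    · rw [mulVec0]; simp
    · rw [mulVec1]; simp
  rw [h4] at h3
  have h5 : ∀ a, gm P i j a 0 * w 0 = 0 := by
    intro a
    have := congrFun h3 a
    simpa [mulVec, dotProduct, Fin.sum_univ_two] using this
  have h6 : ∀ a, gm P i j a 0 = P a j := by
    intro a
    fin_cases a <;> rfl
  have h7 : w 0 = 0 := by
    have := h5 a
    rw [h6] at this
    exact (mul_eq_zero.1 this).resolve_left hj
  have h8 : ∀ a, gm P i j a 1 * w 1 = 0 := by
    intro a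
    have := congrFun hw0 a
    rw [Pi.zero_apply] at this
    simpa [mulVec, dotProduct, Fin.sum_univ_two, h7] using this
  have h9 : ∀ a, gm P i j a 1 = (1 - P) a i := by
    intro a
    fin_cases a <;> rfl
  have h10 : w 1 = 0 := by
    have := h8 b
    rw [h9] at this
    exact (mul_eq_zero.1 this).resolve_left hi
  exact hw (vec_ext h7 h10)

lemma gm_map {T' : Type} [CommRing T'] (f : T →+* T') (P : M2 T) (i j : Fin 2) :
    (gm P i j).map f = gm (P.map f) i j := by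
  have h1 : ∀ a b, f ((1 - P) a b) = (1 - P.map f) a b := by
    intro a b
    rw [Matrix.sub_apply, map_sub, Matrix.sub_apply, Matrix.map_apply]
    congr 1
    by_cases h : a = b
    · subst h; rw [Matrix.one_apply_eq, Matrix.one_apply_eq, map_one]
    · rw [Matrix.one_apply_ne h, Matrix.one_apply_ne h, map_zero]
  apply ext_two
  · rfl
  · exact h1 0 i
  · rfl
  · exact h1 1 i

end basis

end Fermat.Agent.RTan
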