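import Fermat.Agent.RTan.OrdJ4

/-!
# Ordinary representations: natural bases
-/

set_option autoImplicit false

namespace Fermat.Agent.RTan

open IsLocalRing Matrix Fermat.Agent.PT
open Fermat.Agent.TWP (Pl rl Γl Qb MDef)
open Fermat.Agent.DefRing (MatCont Red Norm SliceData M2 GQ mapRep)
open Fermat.Agent.ORD (Pair)
open scoped Pointwise

/-- Ordinary representations at `p` with values in an `𝒪`-algebra, with determinant `χ`: for all
`σ₀` in the inertia group, `(χ σ₀ - r σ₀) r σ (r σ₀ - 1) = 0` on the decomposition group and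
`(χ σ₀ - r σ₀) (r σ - 1) = 0` on the inertia group. -/
def OrdAt (p : ℕ) [Fact p.Prime] {𝒪 : Type} [CommRing 𝒪] (χ : GQ → 𝒪) {T : Type} [CommRing T]
    [Algebra 𝒪 T] (r : GQ →* M2 T) : Prop :=
  ∀ σ₀ ∈ (Pl (ExtCitation.pPrime p)).inertiaSubgroupIn ℚ,
    OrdM (Pl (ExtCitation.pPrime p)) σ₀ (χ σ₀) r

section ordAt

variable {p : ℕ} [hp : Fact p.Prime] {𝒪 : Type} [CommRing 𝒪] {χ : GQ → 𝒪} {T : Type} [CommRing T]
  [Algebra 𝒪 T]

theorem OrdAt.map {T' : Type} [CommRing T'] [Algebra 𝒪 T'] (f : T →ₐ[𝒪] T') {r : GQ →* M2 T}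
    (h : OrdAt p χ r) : OrdAt p χ (mapRep (f : T →+* T') r) := fun σ₀ hσ₀ => (h σ₀ hσ₀).map f

theorem OrdAt.of_family {J : Type} {T' : J → Type} [∀ j, CommRing (T' j)]
    [∀ j, Algebra 𝒪 (T' j)] (f : ∀ j, T →ₐ[𝒪] T' j) (hf : ∀ x, (∀ j, f j x = 0) → x = 0)
    {r : GQ →* M2 T} (h : ∀ j, OrdAt p χ (mapRep (f j : T →+* T' j) r)) : OrdAt p χ r :=
  fun σ₀ hσ₀ => OrdM.of_family f hf fun j => h j σ₀ hσ₀

/-- **Ordinary representations from a stable line over a field.** -/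
theorem OrdAt.of_line {E : Type} [Field E] [Algebra 𝒪 E] {r : GQ →* M2 E} {w : Fin 2 → E}
    (hw : w ≠ 0) (hdet : ∀ σ, (r σ).det = algebraMap 𝒪 E (χ σ))
    (hD : ∀ σ ∈ (Pl (ExtCitation.pPrime p)).decompositionSubgroup ℚ, ∃ c : E, r σ *ᵥ w = c • w)
    (hI : ∀ σ ∈ (Pl (ExtCitation.pPrime p)).inertiaSubgroupIn ℚ, ∀ u : Fin 2 → E, ∃ c : E,
      r σ *ᵥ u - u = c • w) : OrdAt p χ r :=
  fun σ₀ hσ₀ => OrdM.of_line hw hσ₀ (hdet σ₀) hD hI

end ordAt

/-- data for the natural bases -/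
structure Bas (p : ℕ) [Fact p.Prime] {𝒪 : Type} [CommRing 𝒪] [IsLocalRing 𝒪] (χ : GQ → 𝒪)
    (rbar : GQ →* M2 (ResidueField 𝒪)) where
  /-- an element of inertia -/
  σ₀ : GQ
  /-- inverse of `χ σ₀ - 1` -/
  e' : 𝒪
  i : Fin 2
  j : Fin 2
  mem : σ₀ ∈ (Pl (ExtCitation.pPrime p)).inertiaSubgroupIn ℚ
  inv : e' * (χ σ₀ - 1) = 1
  det : (gm (idem e' (rbar σ₀)) i j).det ≠ 0

section bas

variable {p : ℕ} [hp : Fact p.Prime] {𝒪 : Type} [CommRing 𝒪] [IsLocalRing 𝒪] {χ : GQ → 𝒪}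
  {rbar : GQ →* M2 (ResidueField 𝒪)}

theorem exists_bas (hp2 : p ≠ 2) (hχ : CycChar p χ) (hp𝒪 : (p : 𝒪) ∈ maximalIdeal 𝒪)
    (hdet : ∀ σ, (rbar σ).det = residue 𝒪 (χ σ)) (h : OrdAt p χ rbar) :
    Nonempty (Bas p χ rbar) := by
  have hA : (Pl (ExtCitation.pPrime p)).LiesOverPrime p := TWP.Pl_lies (ExtCitation.pPrime p)
  have hne : NeZero p := ⟨hp.out.ne_zero⟩
  obtain ⟨ζ, hζ⟩ := HasEnoughRootsOfUnity.exists_primitiveRoot (AlgebraicClosure ℚ) p
  have hζ1 : IsPrimitiveRoot ζ (p ^ 1) := by rwa [pow_one]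
  have hcop : Nat.Coprime 2 (p ^ 1) := by
    rw [pow_one]
    exact (Nat.coprime_primes Nat.prime_two hp.out).mpr (Ne.symm hp2)
  obtain ⟨σ₀, hσ₀, h2⟩ := ORD.exists_inertia_root hA 1 hζ1 (hζ1.pow_of_coprime 2 hcop)
  have h3 : ∀ μ : Qb, μ ^ p ^ 1 = 1 → σ₀ μ = μ ^ 2 := by
    intro μ hμ
    obtain ⟨a, -, rfl⟩ := hζ1.eq_pow_of_pow_eq_one hμ
    rw [map_pow, h2, ← pow_mul, ← pow_mul, mul_comm]
  have h4 := hχ.spec 1 σ₀ 2 h3
  have h5 : residue 𝒪 (χ σ₀) = 2 := by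
    have h6 : residue 𝒪 (χ σ₀ - ((2 : ℕ) : 𝒪)) = 0 := by
      rw [residue_eq_zero_iff]
      rw [pow_one] at h4
      exact (Ideal.span_singleton_le_iff_mem _).mpr hp𝒪 h4
    rw [map_sub, sub_eq_zero, map_natCast] at h6
    rw [h6]; norm_num
  have h2k : (2 : ResidueField 𝒪) ≠ 0 := by
    intro h0
    have h7 : (p : ResidueField 𝒪) = 0 := by
      rw [← map_natCast (residue 𝒪), residue_eq_zero_iff]; exact hp𝒪
    have h8 : ((2 : ℕ) : ResidueField 𝒪) = 0 := by exact_mod_cast h0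
    have h9 := Nat.isCoprime_iff_coprime.mpr
      ((Nat.coprime_primes Nat.prime_two hp.out).mpr (Ne.symm hp2))
    obtain ⟨a, b, hab⟩ := h9
    have h10 := congrArg (fun z : ℤ => (z : ResidueField 𝒪)) hab
    push_cast at h10
    push_cast at h8
    rw [h8, h7, mul_zero, mul_zero, add_zero] at h10
    exact zero_ne_one h10
  have hu : IsUnit (χ σ₀ - 1) := by
    by_contra hcon
    have h6 : χ σ₀ - 1 ∈ maximalIdeal 𝒪 := hcon
    rw [← residue_eq_zero_iff, map_sub, h5, map_one] at h6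
    have h7 : (2 : ResidueField 𝒪) - 1 = 1 := by norm_num
    rw [h7] at h6
    exact one_ne_zero h6
  obtain ⟨e', he'⟩ := hu.exists_left_inv
  have h7 := h σ₀ hσ₀
  have hP : idem e' (rbar σ₀) * idem e' (rbar σ₀) = idem e' (rbar σ₀) :=
    idem_idem he' (h7.quot σ₀ hσ₀)
  have he0 : residue 𝒪 e' ≠ 0 := by
    intro h0
    have h8 := congrArg (residue 𝒪) he'
    rw [map_mul, h0, zero_mul, map_one] at h8
    exact zero_ne_one h8
  have hP0 : idem e' (rbar σ₀) ≠ 0 := by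
    intro h0
    have h8 : rbar σ₀ - 1 = 0 := by
      rw [idem] at h0
      exact (smul_eq_zero.1 h0).resolve_left he0
    have h9 := hdet σ₀
    rw [sub_eq_zero.1 h8, det_one, h5] at h9
    have h10 : (1 : ResidueField 𝒪) = 0 := by linear_combination -h9
    exact one_ne_zero h10
  have hP1 : idem e' (rbar σ₀) ≠ 1 := by
    intro h0
    have h8 : algebraMap 𝒪 (ResidueField 𝒪) (χ σ₀) • (1 : M2 (ResidueField 𝒪)) - rbar σ₀ = 0 := by
      have h9 := one_sub_idem he' (M := rbar σ₀)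
      rw [h0, sub_self] at h9
      exact (smul_eq_zero.1 h9.symm).resolve_left he0
    have h9 := hdet σ₀
    rw [← sub_eq_zero.1 h8, det_smul, det_one, Fintype.card_fin] at h9
    have h10 : algebraMap 𝒪 (ResidueField 𝒪) (χ σ₀) = 2 := h5
    rw [h10, h5] at h9
    apply h2k
    linear_combination h9
  obtain ⟨i, j, hij⟩ := exists_good_index hP hP0 hP1
  exact ⟨⟨σ₀, e', i, j, hσ₀, he', hij⟩⟩

variable (b : Bas p χ rbar)

/-- the natural basis -/
noncomputable def Bas.g {T : Type} [CommRing T] [Algebra 𝒪 T] (r : GQ →* M2 T) : M2 T :=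
  gm (idem b.e' (r b.σ₀)) b.i b.j

omit [IsLocalRing 𝒪] in
theorem idem_map {T T' : Type} [CommRing T] [Algebra 𝒪 T] [CommRing T'] [Algebra 𝒪 T']
    (f : T →ₐ[𝒪] T') (e' : 𝒪) (M : M2 T) :
    (idem e' M).map f = idem e' (M.map f) := by
  refine Matrix.ext fun i j => ?_
  rw [Matrix.map_apply, idem, idem, Matrix.smul_apply, Matrix.smul_apply, smul_eq_mul, smul_eq_mul,
    map_mul, AlgHom.commutes, Matrix.sub_apply, Matrix.sub_apply, map_sub, Matrix.map_apply]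
  congr 2
  by_cases h : i = j
  · subst h; rw [Matrix.one_apply_eq, Matrix.one_apply_eq, map_one]
  · rw [Matrix.one_apply_ne h, Matrix.one_apply_ne h, map_zero]

theorem Bas.g_map {T T' : Type} [CommRing T] [Algebra 𝒪 T] [CommRing T'] [Algebra 𝒪 T']
    (f : T →ₐ[𝒪] T') (r : GQ →* M2 T) : (b.g r).map f = b.g (mapRep (f : T →+* T') r) := by
  have h1 := gm_map (f : T →+* T') (idem b.e' (r b.σ₀)) b.i b.j
  have h2 : (idem b.e' (r b.σ₀)).map (f : T →+* T') =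
      idem b.e' (mapRep (f : T →+* T') r b.σ₀) := idem_map f b.e' (r b.σ₀)
  rw [h2] at h1
  exact h1

/-- the eigenvalue on the quotient -/
noncomputable def Bas.z {T : Type} [CommRing T] [Algebra 𝒪 T] (r : GQ →* M2 T) (φ : GQ) : T :=
  ((b.g r)⁻¹ * r φ * b.g r) 1 1

/-- the monodromy -/
noncomputable def Bas.v {T : Type} [CommRing T] [Algebra 𝒪 T] (r : GQ →* M2 T) (τ : GQ) : T :=
  ((b.g r)⁻¹ * r τ * b.g r) 0 1

theorem map_inv2 {T T' : Type} [CommRing T] [CommRing T'] (f : T →+* T') {g : M2 T}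
    (hg : IsUnit g.det) : (g⁻¹).map f = (g.map f)⁻¹ := by
  have h1 : g * g⁻¹ = 1 := Matrix.mul_nonsing_inv _ hg
  have h4 : g.map f * (g⁻¹).map f = 1 := by
    rw [← Matrix.map_mul, h1]
    exact Matrix.map_one f (map_zero f) (map_one f)
  exact (Matrix.inv_eq_right_inv h4).symm

theorem Bas.cj_map' {T T' : Type} [CommRing T] [Algebra 𝒪 T] [CommRing T'] [Algebra 𝒪 T']
    (f : T →ₐ[𝒪] T') (r : GQ →* M2 T) (hg : IsUnit (b.g r).det) (σ : GQ) :
    ((b.g r)⁻¹ * r σ * b.g r).map f = (b.g (mapRep (f : T →+* T') r))⁻¹ *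
      mapRep (f : T →+* T') r σ * b.g (mapRep (f : T →+* T') r) := by
  have h1 : ((b.g r)⁻¹).map f = (b.g (mapRep (f : T →+* T') r))⁻¹ := by
    rw [← b.g_map]
    exact map_inv2 (f : T →+* T') hg
  rw [map_mul2, map_mul2, h1, b.g_map]
  rfl

theorem Bas.map_z {T T' : Type} [CommRing T] [Algebra 𝒪 T] [CommRing T'] [Algebra 𝒪 T']
    (f : T →ₐ[𝒪] T') (r : GQ →* M2 T) (hg : IsUnit (b.g r).det) (φ : GQ) :
    f (b.z r φ) = b.z (mapRep (f : T →+* T') r) φ :=
  congrFun (congrFun (b.cj_map' f r hg φ) 1) 1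

theorem Bas.map_v {T T' : Type} [CommRing T] [Algebra 𝒪 T] [CommRing T'] [Algebra 𝒪 T']
    (f : T →ₐ[𝒪] T') (r : GQ →* M2 T) (hg : IsUnit (b.g r).det) (τ : GQ) :
    f (b.v r τ) = b.v (mapRep (f : T →+* T') r) τ :=
  congrFun (congrFun (b.cj_map' f r hg τ) 0) 1

theorem Bas.v_eq_zero {T : Type} [CommRing T] [Algebra 𝒪 T] {r : GQ →* M2 T}
    (hg : IsUnit (b.g r).det) {τ : GQ} (hτ : r τ = 1) : b.v r τ = 0 := by
  rw [Bas.v, hτ, mul_one, Matrix.nonsing_inv_mul _ hg, Matrix.one_apply_ne (by decide)]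

/-- the basis is good -/
theorem Bas.isUnit_det {T : Type} [CommRing T] [IsLocalRing T] [Algebra 𝒪 T]
    [IsLocalHom (algebraMap 𝒪 T)] {r : GQ →* M2 T} (hr : Red rbar r) : IsUnit (b.g r).det := by
  -- lift of the residual matrix
  choose M hM using fun (i j : Fin 2) => residue_surjective (R := 𝒪) (rbar b.σ₀ i j)
  let M' : M2 𝒪 := Matrix.of M
  have h1 : ∀ i j, r b.σ₀ i j - algebraMap 𝒪 T (M' i j) ∈ maximalIdeal T := fun i j =>
    hr b.σ₀ i j _ (hM i j)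
  have h2 : (r b.σ₀).map (residue T) = (M'.map (algebraMap 𝒪 T)).map (residue T) := by
    refine Matrix.ext fun i j => ?_
    have := h1 i j
    rw [← residue_eq_zero_iff, map_sub, sub_eq_zero] at this
    exact this
  have hu : IsUnit (gm (idem b.e' M') b.i b.j).det := by
    rw [← isUnit_map_iff (residue 𝒪), isUnit_iff_ne_zero]
    have h3 := b.det
    have h4 : residue 𝒪 (gm (idem b.e' M') b.i b.j).det = (gm (idem b.e' (rbar b.σ₀)) b.i b.j).det := by
      rw [RingHom.map_det]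
      congr 1
      have h5 := gm_map (residue 𝒪) (idem b.e' M') b.i b.j
      have h6 : (idem b.e' M').map (residue 𝒪) = idem b.e' (rbar b.σ₀) := by
        have h7 := idem_map (Algebra.ofId 𝒪 (ResidueField 𝒪)) b.e' M'
        have h8 : M'.map (Algebra.ofId 𝒪 (ResidueField 𝒪)) = rbar b.σ₀ :=
          Matrix.ext fun i j => hM i j
        rw [h8] at h7
        exact h7
      rw [h6] at h5
      exact h5
    rw [h4]
    exact h3
  rw [← isUnit_map_iff (residue T), isUnit_iff_ne_zero]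
  have h3 : (residue T) (b.g r).det = (residue T) (algebraMap 𝒪 T
      (gm (idem b.e' M') b.i b.j).det) := by
    rw [RingHom.map_det, RingHom.map_det, RingHom.map_det]
    congr 1
    show (gm (idem b.e' (r b.σ₀)) b.i b.j).map (residue T) =
      ((gm (idem b.e' M') b.i b.j).map (algebraMap 𝒪 T)).map (residue T)
    have h4 := gm_map (algebraMap 𝒪 T) (idem b.e' M') b.i b.j
    rw [h4, gm_map, gm_map]
    congr 1
    have h5 := idem_map (IsScalarTower.toAlgHom 𝒪 T (ResidueField T)) b.e' (r b.σ₀)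
    have h6 := idem_map (IsScalarTower.toAlgHom 𝒪 T (ResidueField T)) b.e'
      (M'.map (algebraMap 𝒪 T))
    have h7 := idem_map (Algebra.ofId 𝒪 T) b.e' M'
    have h8 : (idem b.e' M').map (algebraMap 𝒪 T) = idem b.e' (M'.map (algebraMap 𝒪 T)) := h7
    rw [h8]
    have h9 : (r b.σ₀).map (IsScalarTower.toAlgHom 𝒪 T (ResidueField T)) =
      (M'.map (algebraMap 𝒪 T)).map (IsScalarTower.toAlgHom 𝒪 T (ResidueField T)) := h2
    rw [h9] at h5
    exact h5.trans h6.symm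
  rw [h3]
  exact ((hu.map (algebraMap 𝒪 T)).map (residue T)).ne_zero

/-- local data at `p` -/
theorem Bas.ordLoc {T : Type} [CommRing T] [IsLocalRing T] [Algebra 𝒪 T]
    [IsLocalHom (algebraMap 𝒪 T)] {r : GQ →* M2 T} (hr : Red rbar r) (h : OrdAt p χ r)
    (hdet : ∀ σ, (r σ).det = algebraMap 𝒪 T (χ σ)) : OrdLoc p χ r (b.g r) where
  unit := b.isUnit_det hr
  tri := (h b.σ₀ b.mem).tri b.inv b.mem hdet (b.isUnit_det hr)

end bas

section line

variable {p : ℕ} [hp : Fact p.Prime] {𝒪 : Type} [CommRing 𝒪] [IsLocalRing 𝒪] {χ : GQ → 𝒪}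
  {rbar : GQ →* M2 (ResidueField 𝒪)} (b : Bas p χ rbar)

/-- **Identification of the eigenvalue**: over a field `E`, if `w` spans a line on whose quotient
`σ₀` acts trivially and `φ` acts by `z`. -/
theorem Bas.z_eq {E : Type} [Field E] [Algebra 𝒪 E] {r : GQ →* M2 E} (hg : IsUnit (b.g r).det)
    {w : Fin 2 → E}
    (h₀ : ∀ u : Fin 2 → E, ∃ c : E, r b.σ₀ *ᵥ u - u = c • w) {φ : GQ} {z : E}
    (hφ : ∀ u : Fin 2 → E, ∃ c : E, r φ *ᵥ u - z • u = c • w) : b.z r φ = z := by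
  -- the first column of `g` is a multiple of `w`
  have hcol : ∀ a : Fin 2, ∃ c : E, (fun i => (idem b.e' (r b.σ₀)) i a) = c • w := by
    intro a
    obtain ⟨c, hc⟩ := h₀ (Pi.single a 1)
    refine ⟨algebraMap 𝒪 E b.e' * c, ?_⟩
    funext i
    have h1 := congrFun hc i
    rw [Pi.sub_apply, mulVec_single_one, Matrix.col_apply] at h1
    rw [idem, Matrix.smul_apply, Matrix.sub_apply, Pi.smul_apply, smul_eq_mul, smul_eq_mul,
      mul_assoc]
    congr 1
    rw [Pi.smul_apply, smul_eq_mul] at h1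
    rw [← h1]
    congr 1
    rw [Matrix.one_apply, Pi.single_apply]
  obtain ⟨c, hc⟩ := hcol b.j
  have hc0 : (b.g r).col 0 = c • w := by
    rw [← hc]
    funext i
    fin_cases i <;> rfl
  have hcne : c ≠ 0 := by
    intro h0
    rw [h0, zero_smul] at hc0
    have h1 : (b.g r).det = 0 := by
      have e0 := congrFun hc0 0
      have e1 := congrFun hc0 1
      rw [Matrix.col_apply] at e0 e1
      rw [det_fin_two, e0, e1]
      simp
    rw [h1] at hg
    exact not_isUnit_zero hg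
  -- the second column
  obtain ⟨d, hd⟩ := hφ ((b.g r).col 1)
  have h1 : r φ *ᵥ (b.g r).col 1 = z • (b.g r).col 1 + (d / c) • (b.g r).col 0 := by
    rw [hc0, smul_smul, div_mul_cancel₀ _ hcne, ← hd]
    abel
  have h2 : (r φ * b.g r).col 1 = r φ *ᵥ (b.g r).col 1 := by
    funext i
    rw [Matrix.col_apply, Matrix.mul_apply]
    rfl
  have hinv : (b.g r)⁻¹ * b.g r = 1 := Matrix.nonsing_inv_mul _ hg
  have h3 : ∀ a, (b.g r)⁻¹ *ᵥ (b.g r).col a = (1 : M2 E).col a := by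
    intro a
    rw [← hinv]
    funext i
    rw [Matrix.col_apply, Matrix.mul_apply]
    rfl
  show ((b.g r)⁻¹ * r φ * b.g r) 1 1 = z
  have h4 : ((b.g r)⁻¹ * r φ * b.g r) 1 1 = ((b.g r)⁻¹ *ᵥ ((r φ * b.g r).col 1)) 1 := by
    rw [mul_assoc, Matrix.mul_apply]
    rfl
  rw [h4, h2, h1, mulVec_add, mulVec_smul, mulVec_smul, h3, h3, Pi.add_apply, Pi.smul_apply,
    Pi.smul_apply, Matrix.col_apply, Matrix.col_apply, Matrix.one_apply_eq,
    Matrix.one_apply_ne (by decide)]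
  simp

end line

end Fermat.Agent.RTan
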