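import Fermat.Agent.RTan.Pts
import Fermat.Agent.RTE.PointP

/-!
# The Frobenius eigenvalue of the elliptic point
-/

set_option autoImplicit false

namespace Fermat.Agent.RTan

open IsLocalRing Matrix
open Fermat.Agent.TWP (Pl Qb)
open Fermat.Agent.DefRing (MatCont Red Norm SliceData M2 GQ mapRep)
open scoped Pointwise

variable {p : ℕ} [hp : Fact p.Prime] {O : Type} [CommRing O] [IsDomain O] [IsLocalRing O]
  {χ : GQ → O} {rbar : GQ →* M2 (ResidueField O)} (b : Bas p χ rbar)

/-- The eigenvalue on the quotient of a line over a domain. -/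
theorem bz_of_lineAt {r : GQ →* M2 O} (hr : Red rbar r) {w : Fin 2 → O} {z : GQ → ℤ}
    (h : RTE.LineAt (Pl (ExtCitation.pPrime p)) χ r w z) {φ : GQ}
    (hφ : (Pl (ExtCitation.pPrime p)).IsFrobeniusAt φ p) :
    b.z r φ = ((z φ : ℤ) : O) ∧ (((z φ : ℤ) : O)) ^ 2 = 1 := by
  have hφD : φ ∈ (Pl (ExtCitation.pPrime p)).decompositionSubgroup ℚ :=
    hφ.mem_decompositionSubgroup
  constructor
  · let K := FractionRing O
    let f : O →ₐ[O] K := Algebra.ofId O K
    have hu := b.isUnit_det hr
    have hinj : Function.Injective f := IsFractionRing.injective O K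
    apply hinj
    rw [b.map_z f r hu φ]
    have hg : IsUnit (b.g (mapRep (f : O →+* K) r)).det := by
      rw [← b.g_map f r]
      have h1 : ((b.g r).map f).det = f (b.g r).det :=
        (RingHom.map_det (f : O →+* K) (b.g r)).symm
      rw [h1]
      exact hu.map f
    -- clearing denominators
    have key : ∀ (σ : GQ) (c : ℤ), (∀ u : Fin 2 → O, ∃ d : O, r σ *ᵥ u - (c : O) • u = d • w) →
        ∀ u : Fin 2 → K, ∃ d : K, mapRep (f : O →+* K) r σ *ᵥ u - (c : K) • u =
          d • fun i => f (w i) := by
      intro σ c hc u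
      obtain ⟨s, hs⟩ := IsLocalization.exist_integer_multiples_of_finite (nonZeroDivisors O) u
      choose v hv using hs
      obtain ⟨d, hd⟩ := hc v
      have hs0 : f (s : O) ≠ 0 := by
        rw [Ne, map_eq_zero_iff f hinj]
        exact nonZeroDivisors.ne_zero s.2
      have hv' : (fun i => f (v i)) = f (s : O) • u := by
        funext i
        have := hv i
        rw [Algebra.smul_def] at this
        exact this
      have h2 : mapRep (f : O →+* K) r σ *ᵥ (fun i => f (v i)) -
          (c : K) • (fun i => f (v i)) = f d • fun i => f (w i) := by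
        funext i
        have h3 := congrArg f (congrFun hd i)
        rw [Pi.sub_apply, map_sub, Pi.smul_apply, Pi.smul_apply, smul_eq_mul, smul_eq_mul,
          map_mul, map_mul, map_intCast] at h3
        rw [Pi.sub_apply, Pi.smul_apply, Pi.smul_apply, smul_eq_mul, smul_eq_mul, ← h3]
        congr 1
        show _ = f ((r σ *ᵥ v) i)
        rw [mulVec, dotProduct, mulVec, dotProduct, map_sum]
        simp only [map_mul]
        rfl
      rw [hv', mulVec_smul, smul_comm (c : K), ← smul_sub] at h2
      refine ⟨f d / f (s : O), ?_⟩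
      rw [div_eq_inv_mul, mul_smul, ← h2, inv_smul_smul₀ hs0]
    have hI : ∀ u : Fin 2 → O, ∃ d : O, r b.σ₀ *ᵥ u - ((1 : ℤ) : O) • u = d • w := by
      intro u
      have h1 := h.quot b.σ₀ (inertia_le_decomp b.mem) u
      rw [h.inertia b.σ₀ b.mem] at h1
      exact h1
    have h1 := b.z_eq hg (w := fun i => f (w i)) (fun u => by
      obtain ⟨d, hd⟩ := key b.σ₀ 1 hI u
      refine ⟨d, ?_⟩
      rw [Int.cast_one, one_smul] at hd
      exact hd) (φ := φ) (z := ((z φ : ℤ) : K)) (key φ (z φ) (h.quot φ hφD))
    rw [h1, map_intCast]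
  · rcases h.pm φ hφD with h1 | h1 <;> rw [h1] <;> norm_num

end Fermat.Agent.RTan
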