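import Fermat.Agent.RTan.OrdJ

/-!
# The ordinary local condition: Kummer elements
-/

set_option autoImplicit false

namespace Fermat.Agent.RTan

open IsLocalRing Matrix Fermat.Agent.PT
open Fermat.Agent.PTC (ptd sL allL muA cyclo_spec)
open Fermat.Agent.TWP (psi psi_mul psi_mul_rbar psi_sub MDef sqKer mem_sqKer IsDer ad0 twAct Pl rl Γl
  mem_ad0 rep_mul_inv rep_inv_mul Qb map_mul_der)
open Fermat.Agent.DefRing (MatCont Red Norm SliceData M2 GQ mapRep)
open Fermat.Agent.ORD (Pair)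
open scoped Pointwise

section gen

/-- the decomposition group is generated by Frobenius and inertia at finite levels -/
theorem exists_frob_pow (q : Nat.Primes) {φ : GQ} (hφ : (Pl q).IsFrobeniusAt φ q)
    (F : IntermediateField ℚ (AlgebraicClosure ℚ)) [FiniteDimensional ℚ F]
    (hF : ∀ σ : GQ, ∀ x ∈ F, σ x ∈ F) {σ : GQ} (hσ : σ ∈ (Pl q).decompositionSubgroup ℚ) :
    ∃ j : ℕ, ∃ τ ∈ (Pl q).inertiaSubgroupIn ℚ, ∀ x ∈ F, ((φ ^ j)⁻¹ * σ) x = τ x := by
  let _ : Fact (q : ℕ).Prime := ⟨q.2⟩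
  have hN : Normal ℚ F := by
    have h1 : @Normal ℚ F _ _ F.algebra' := by
      rw [IntermediateField.normal_iff_forall_map_le']
      rintro σ _ ⟨x, hx, rfl⟩
      exact hF σ x hx
    exact Fermat.Agent.PTC.normal_conv.mp h1
  have hφD : φ • Pl q = Pl q := hφ.mem_decompositionSubgroup
  have hσD : σ • Pl q = Pl q := hσ
  obtain ⟨g, hg⟩ := exists_rl q hφD
  obtain ⟨γ, hγ⟩ := exists_rl q hσD
  obtain ⟨j, τ, hτ, h⟩ := TWP.procyc_aux (padicEmbedding (q : ℕ)).toRingHom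
    Fermat.Agent.CFT6.mem_nonunits_padic
    (Fermat.Agent.CFT6.liesOver_padic (q : ℕ)) (localGaloisToGlobal (q : ℕ))
    (fun τ x => padicEmbedding_localGaloisToGlobal (q : ℕ) τ x) F hφ
    (g := g) (fun x _ => by
      have : localGaloisToGlobal (q : ℕ) g = φ := hg
      rw [this]) γ
  refine ⟨j, τ, hτ, fun x hx => ?_⟩
  have h3 : rl q ((g ^ j)⁻¹ * γ) x = τ x := h x hx
  rw [← h3, map_mul (rl q), map_inv (rl q), map_pow (rl q), hg, hγ]

/-- the generation statement for subgroups -/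
theorem decomp_le (q : Nat.Primes) {φ : GQ} (hφ : (Pl q).IsFrobeniusAt φ q)
    (F : IntermediateField ℚ (AlgebraicClosure ℚ)) [FiniteDimensional ℚ F]
    (hF : ∀ σ : GQ, ∀ x ∈ F, σ x ∈ F) (W : Subgroup GQ) (hWφ : φ ∈ W)
    (hWI : (Pl q).inertiaSubgroupIn ℚ ≤ W)
    (hWF : ∀ σ ∈ (Pl q).decompositionSubgroup ℚ, (∀ x ∈ F, σ x = x) → σ ∈ W) :
    (Pl q).decompositionSubgroup ℚ ≤ W := by
  intro σ hσ
  obtain ⟨j, τ, hτ, h⟩ := exists_frob_pow q hφ F hF hσ
  have hφD : φ ∈ (Pl q).decompositionSubgroup ℚ := hφ.mem_decompositionSubgroup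
  have h1 : τ⁻¹ * ((φ ^ j)⁻¹ * σ) ∈ W := by
    refine hWF _ ?_ fun x hx => ?_
    · exact mul_mem (inv_mem (inertia_le_decomp hτ)) (mul_mem (inv_mem (pow_mem hφD j)) hσ)
    · rw [AlgEquiv.mul_apply, h x hx]
      exact τ.symm_apply_apply x
  have h2 : σ = φ ^ j * (τ * (τ⁻¹ * ((φ ^ j)⁻¹ * σ))) := by group
  rw [h2]
  exact mul_mem (pow_mem hWφ j) (mul_mem (hWI hτ) h1)

end gen

/-- a cyclotomic character with values in `𝒪` -/
structure CycChar {𝒪 : Type} [CommRing 𝒪] (p : ℕ) (χ : GQ → 𝒪) : Prop where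
  spec : ∀ (n : ℕ) (σ : GQ) (a : ℕ), (∀ μ : Qb, μ ^ p ^ n = 1 → σ μ = μ ^ a) →
    χ σ - (a : 𝒪) ∈ Ideal.span {((p : 𝒪) ^ n)}

section cyc

variable {𝒪 : Type} [CommRing 𝒪] [IsLocalRing 𝒪] {p : ℕ} [hp : Fact p.Prime] {χ : GQ → 𝒪}
  (hχ : CycChar p χ) (hp𝒪 : (p : 𝒪) ∈ maximalIdeal 𝒪)

include hχ hp𝒪 in
lemma CycChar.residue [Algebra (ZMod p) (ResidueField 𝒪)] (σ : GQ) :
    residue 𝒪 (χ σ) = algebraMap (ZMod p) (ResidueField 𝒪)
      (ExtCitation.cycloChar p σ : ZMod p) := by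
  have h1 := hχ.spec 1 σ (ExtCitation.cycloChar p σ : ZMod p).val fun μ hμ =>
    cyclo_spec p σ (by rwa [pow_one] at hμ)
  rw [pow_one, Ideal.mem_span_singleton] at h1
  have h2 : IsLocalRing.residue 𝒪 (χ σ - ((ExtCitation.cycloChar p σ : ZMod p).val : 𝒪)) = 0 := by
    rw [residue_eq_zero_iff]
    obtain ⟨y, hy⟩ := h1
    rw [hy]
    exact Ideal.mul_mem_right _ _ hp𝒪
  rw [map_sub, sub_eq_zero, map_natCast] at h2
  rw [h2, ← map_natCast (algebraMap (ZMod p) (ResidueField 𝒪)), ZMod.natCast_zmod_val]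

include hχ hp𝒪 in
omit hp in
lemma CycChar.eq_one [IsNoetherianRing 𝒪] {σ : GQ}
    (hσ : ∀ (n : ℕ) (μ : Qb), μ ^ p ^ n = 1 → σ μ = μ) : χ σ = 1 := by
  have h1 : ∀ n : ℕ, χ σ - 1 ∈ maximalIdeal 𝒪 ^ n := by
    intro n
    have h2 := hχ.spec n σ 1 fun μ hμ => by rw [pow_one]; exact hσ n μ hμ
    rw [Nat.cast_one, Ideal.mem_span_singleton] at h2
    obtain ⟨y, hy⟩ := h2
    rw [hy]
    exact Ideal.mul_mem_right _ _ (Ideal.pow_mem_pow hp𝒪 n)
  have h3 : χ σ - 1 ∈ (⨅ n : ℕ, maximalIdeal 𝒪 ^ n) := by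
    rw [Ideal.mem_iInf]; exact h1
  rw [Ideal.iInf_pow_eq_bot_of_isLocalRing _ (maximalIdeal.isMaximal 𝒪).ne_top] at h3
  exact sub_eq_zero.1 h3

end cyc

section loc

variable {𝒪 : Type} [CommRing 𝒪] [IsLocalRing 𝒪] [IsNoetherianRing 𝒪] {p : ℕ} [hp : Fact p.Prime]
  {Sig Smin : Finset ℕ} {R : Type} [CommRing R] [IsLocalRing R] [Algebra 𝒪 R]
  {π : R →+* ResidueField 𝒪} {r : GQ →* M2 R} {rbar : GQ →* M2 (ResidueField 𝒪)} {χ : GQ → 𝒪}

/-- the entries of the conjugate representation on the congruence subgroup -/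
lemma cj_sq {g : M2 R} (hg : IsUnit g.det) {σ : GQ} (hσ : σ ∈ sqKer r) (i j : Fin 2) :
    (cj g hg r σ - 1) i j ∈ maximalIdeal R ^ 2 := by
  have h1 : g⁻¹ * g = 1 := Matrix.nonsing_inv_mul _ hg
  have h2 : cj g hg r σ - 1 = g⁻¹ * (r σ - 1) * g := by
    rw [cj_apply, mul_sub, mul_one, sub_mul, h1]
  rw [h2, Matrix.mul_apply]
  refine Ideal.sum_mem _ fun l _ => Ideal.mul_mem_right _ _ ?_
  rw [Matrix.mul_apply]
  exact Ideal.sum_mem _ fun m _ => Ideal.mul_mem_left _ _ (mem_sqKer.1 hσ m l)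

/-- Local data at `p` for the ordinary condition: `g` a change of basis making the representation
triangular. -/
structure OrdLoc (p : ℕ) [Fact p.Prime] (χ : GQ → 𝒪) (r : GQ →* M2 R) (g : M2 R) : Prop where
  unit : IsUnit g.det
  tri : Tri (Pl (ExtCitation.pPrime p)) χ (cj g unit r)

variable (h : MDef 𝒪 p Sig Smin π r rbar) (hχ : CycChar p χ) (hp𝒪 : (p : 𝒪) ∈ maximalIdeal 𝒪)
  (hπ : ∀ o, π (algebraMap 𝒪 R o) = residue 𝒪 o)
  {g : M2 R} (hL : OrdLoc p χ r g) (hg' : IsUnit (g.map π).det)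

include h in
/-- derivations killing the Frobenius eigenvalue kill all the eigenvalues on the quotient -/
theorem der_quot {φ : GQ} (hφ : (Pl (ExtCitation.pPrime p)).IsFrobeniusAt φ p)
    {δ : R → ResidueField 𝒪} (hδ : IsDer 𝒪 π δ) (hδφ : δ (cj g hL.unit r φ 1 1) = 0)
    {σ : GQ} (hσ : σ ∈ (Pl (ExtCitation.pPrime p)).decompositionSubgroup ℚ) :
    δ (cj g hL.unit r σ 1 1) = 0 := by
  obtain ⟨F, hF, hFn, hFL⟩ := h.exists_level
  have hun : ∀ σ ∈ (Pl (ExtCitation.pPrime p)).decompositionSubgroup ℚ,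
      cj g hL.unit r σ⁻¹ 1 1 * cj g hL.unit r σ 1 1 = 1 := by
    intro σ hσ
    have h2 := hL.tri.mul11 (τ := σ) (inv_mem hσ)
    rw [inv_mul_cancel, map_one, Matrix.one_apply_eq] at h2
    exact h2.symm
  let W : Subgroup GQ :=
    { carrier := {σ | σ ∈ (Pl (ExtCitation.pPrime p)).decompositionSubgroup ℚ ∧
        δ (cj g hL.unit r σ 1 1) = 0}
      one_mem' := ⟨one_mem _, by rw [map_one, Matrix.one_apply_eq, hδ.one]⟩
      mul_mem' := by
        rintro a b ⟨ha, ha'⟩ ⟨hb, hb'⟩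
        refine ⟨mul_mem ha hb, ?_⟩
        rw [hL.tri.mul11 ha, hδ.mul, ha', hb', mul_zero, zero_mul, add_zero]
      inv_mem' := by
        rintro a ⟨ha, ha'⟩
        refine ⟨inv_mem ha, ?_⟩
        have h3 := hun a ha
        have h4 := congrArg δ h3
        rw [hδ.mul, ha', hδ.one, mul_zero, zero_add] at h4
        refine (mul_eq_zero.1 h4).resolve_right fun h5 => ?_
        have h6 := congrArg π h3
        rw [map_mul, h5, mul_zero, map_one] at h6
        exact zero_ne_one h6 }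
  have hW : (Pl (ExtCitation.pPrime p)).decompositionSubgroup ℚ ≤ W := by
    refine decomp_le (ExtCitation.pPrime p) hφ F hFn W
      ⟨hφ.mem_decompositionSubgroup, hδφ⟩ ?_ ?_
    · intro σ hσ
      refine ⟨inertia_le_decomp hσ, ?_⟩
      rw [hL.tri.quo σ hσ, hδ.one]
    · intro σ hσ hσF
      refine ⟨hσ, ?_⟩
      have h3 := hδ.sq h.ker (cj_sq hL.unit (hFL σ hσF) 1 1)
      rw [Matrix.sub_apply, Matrix.one_apply_eq, hδ.sub, hδ.one, sub_zero] at h3
      exact h3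
  exact (hW hσ).2

include h in
/-- if the Frobenius eigenvalue is a sign, all eigenvalues on the quotient are signs -/
theorem sign_quot {φ : GQ} (hφ : (Pl (ExtCitation.pPrime p)).IsFrobeniusAt φ p)
    (hsφ : π (cj g hL.unit r φ 1 1) ^ 2 = 1)
    {σ : GQ} (hσ : σ ∈ (Pl (ExtCitation.pPrime p)).decompositionSubgroup ℚ) :
    π (cj g hL.unit r σ 1 1) ^ 2 = 1 := by
  obtain ⟨F, hF, hFn, hFL⟩ := h.exists_level
  let W : Subgroup GQ :=
    { carrier := {σ | σ ∈ (Pl (ExtCitation.pPrime p)).decompositionSubgroup ℚ ∧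
        π (cj g hL.unit r σ 1 1) ^ 2 = 1}
      one_mem' := ⟨one_mem _, by rw [map_one, Matrix.one_apply_eq, map_one, one_pow]⟩
      mul_mem' := by
        rintro a b ⟨ha, ha'⟩ ⟨hb, hb'⟩
        refine ⟨mul_mem ha hb, ?_⟩
        rw [hL.tri.mul11 ha, map_mul, mul_pow, ha', hb', one_mul]
      inv_mem' := by
        rintro a ⟨ha, ha'⟩
        refine ⟨inv_mem ha, ?_⟩
        have h2 := hL.tri.mul11 (τ := a) (inv_mem ha)
        rw [inv_mul_cancel, map_one, Matrix.one_apply_eq] at h2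
        have h4 := congrArg (fun x => π x ^ 2) h2
        simp only [map_one, one_pow, map_mul, mul_pow] at h4
        rw [ha', mul_one] at h4
        exact h4.symm }
  have hW : (Pl (ExtCitation.pPrime p)).decompositionSubgroup ℚ ≤ W := by
    refine decomp_le (ExtCitation.pPrime p) hφ F hFn W
      ⟨hφ.mem_decompositionSubgroup, hsφ⟩ ?_ ?_
    · intro σ hσ
      refine ⟨inertia_le_decomp hσ, ?_⟩
      rw [hL.tri.quo σ hσ, map_one, one_pow]
    · intro σ hσ hσF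
      refine ⟨hσ, ?_⟩
      have h3 := Ideal.pow_le_self two_ne_zero (cj_sq hL.unit (hFL σ hσF) 1 1)
      rw [← h.ker, Matrix.sub_apply, Matrix.one_apply_eq, map_sub, map_one, sub_eq_zero] at h3
      rw [h3, one_pow]
  exact (hW hσ).2

include h in
lemma cj_map (σ : GQ) : (cj g hL.unit r σ).map π = cj (g.map π) hg' rbar σ := by
  have h1 : g * g⁻¹ = 1 := Matrix.mul_nonsing_inv _ hL.unit
  have h3 : (g⁻¹).map π = (g.map π)⁻¹ := by
    have h4 : g.map π * (g⁻¹).map π = 1 := by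
      rw [← Matrix.map_mul, h1]
      exact Matrix.map_one π (map_zero π) (map_one π)
    exact (Matrix.inv_eq_right_inv h4).symm
  rw [cj_apply, Matrix.map_mul, Matrix.map_mul, h3, h.red, cj_apply]

include h hχ hp𝒪 hπ hg' in
/-- the residual line -/
theorem stable_line [Algebra (ZMod p) (ResidueField 𝒪)]
    (hs : ∀ σ ∈ (Pl (ExtCitation.pPrime p)).decompositionSubgroup ℚ,
      π (cj g hL.unit r σ 1 1) ^ 2 = 1) (γ : Γl (ExtCitation.pPrime p)) :
    ∃ x : ResidueField 𝒪, rbar (rl (ExtCitation.pPrime p) γ) *ᵥ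
        (g.map π *ᵥ v0 (ResidueField 𝒪)) = x • (g.map π *ᵥ v0 (ResidueField 𝒪)) ∧
      x ^ 2 = algebraMap (ZMod p) (ResidueField 𝒪)
        (ExtCitation.cycloChar p (rl (ExtCitation.pPrime p) γ) : ZMod p) *
        (rbar (rl (ExtCitation.pPrime p) γ)).det := by
  set σ := rl (ExtCitation.pPrime p) γ with hσdef
  have hσ : σ ∈ (Pl (ExtCitation.pPrime p)).decompositionSubgroup ℚ :=
    TWP.rl_mem (ExtCitation.pPrime p) γ
  have hinv : g.map π * (g.map π)⁻¹ = 1 := Matrix.mul_nonsing_inv _ hg'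
  have hinv' : (g.map π)⁻¹ * g.map π = 1 := Matrix.nonsing_inv_mul _ hg'
  have h1 : (cj (g.map π) hg' rbar σ) 1 0 = 0 := by
    rw [← cj_map h hL hg', Matrix.map_apply, hL.tri.low σ hσ, map_zero]
  refine ⟨(cj (g.map π) hg' rbar σ) 0 0, ?_, ?_⟩
  · have h2 : cj (g.map π) hg' rbar σ *ᵥ v0 (ResidueField 𝒪) =
        (cj (g.map π) hg' rbar σ) 0 0 • v0 (ResidueField 𝒪) := by
      rw [mulVec_v0, h1]
      apply vec_ext <;> simp
    rw [mulVec_mulVec, cj_back (g.map π) hg' rbar σ]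
    have h3 : g.map π * cj (g.map π) hg' rbar σ * (g.map π)⁻¹ * g.map π =
        g.map π * cj (g.map π) hg' rbar σ := by
      rw [mul_assoc, hinv', mul_one]
    rw [h3, ← mulVec_mulVec, h2, mulVec_smul]
  · have h2 : (rbar σ).det = residue 𝒪 (χ σ) := by
      rw [← h.red, ← hπ, ← hL.tri.det, cj_det]
      exact (RingHom.map_det π (r σ)).symm
    have h3 : π (cj g hL.unit r σ 0 0) * π (cj g hL.unit r σ 1 1) = residue 𝒪 (χ σ) := by
      rw [← map_mul, hL.tri.diag hσ, hπ]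
    have h4 : (cj (g.map π) hg' rbar σ) 0 0 = π (cj g hL.unit r σ 0 0) := by
      rw [← cj_map h hL hg', Matrix.map_apply]
    rw [h4, h2, ← hχ.residue hp𝒪 σ, ← h3]
    linear_combination (-(π (cj g hL.unit r σ 0 0)) ^ 2) * hs σ hσ

end loc

end Fermat.Agent.RTan
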