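import Fermat.Agent.RTan.FlatR
import Fermat.Agent.RTan.OrdJ5
import Fermat.Agent.FTau.Main

/-!
# Flat ordinary representations: the monodromy element acts trivially
-/

set_option autoImplicit false

namespace Fermat.Agent.RTan

open IsLocalRing Matrix
open Fermat.Agent.TWP (Pl Qb)
open Fermat.Agent.DefRing (MatCont Red Norm SliceData M2 GQ mapRep)
open Fermat.Agent.HopfOrder (IsFlatMod)
open Fermat.Agent.ORD (Pair)
open scoped Pointwise

section tri

variable {p : ℕ} [hp : Fact p.Prime] {O : Type} [CommRing O] [IsLocalRing O] {χ : GQ → O}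
  {T : Type} [CommRing T] [Algebra O T]

/-- additive homomorphisms from modules over local rings of residue characteristic `p` to finite
groups have `p`-power torsion image -/
theorem exists_pow_smul (hpO : (p : O) ∈ maximalIdeal O) {M : Type} [AddCommGroup M] [Finite M]
    (f : (Fin 2 → T) →+ M) : ∃ A : ℕ, ∀ x, p ^ A • f x = 0 := by
  obtain ⟨A, B, hB, hAB⟩ := Nat.exists_eq_pow_mul_and_not_dvd (n := Nat.card M)
    Nat.card_pos.ne' p hp.out.ne_one
  have hu : IsUnit (B : O) := by
    by_contra hcon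
    have h1 : (B : O) ∈ maximalIdeal O := hcon
    have h2 : IsCoprime (B : ℤ) (p : ℤ) := by
      rw [Nat.isCoprime_iff_coprime, Nat.coprime_comm]
      exact (Nat.Prime.coprime_iff_not_dvd hp.out).mpr hB
    obtain ⟨a, b, hab⟩ := h2
    have h3 : (1 : O) ∈ maximalIdeal O := by
      have h4 := congrArg (fun z : ℤ => (z : O)) hab
      push_cast at h4
      rw [← h4]
      exact Ideal.add_mem _ (Ideal.mul_mem_left _ _ h1) (Ideal.mul_mem_left _ _ hpO)
    exact (maximalIdeal.isMaximal O).ne_top ((Ideal.eq_top_iff_one _).mpr h3)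
  obtain ⟨v, hv⟩ := hu.exists_right_inv
  refine ⟨A, fun x => ?_⟩
  have h1 : x = B • ((algebraMap O T v) • x) := by
    funext i
    rw [Pi.smul_apply, Pi.smul_apply, nsmul_eq_mul, smul_eq_mul, ← mul_assoc,
      ← map_natCast (algebraMap O T), ← map_mul, hv, map_one, one_mul]
  rw [h1, map_nsmul, smul_smul, ← hAB]
  exact card_nsmul_eq_zero'

variable {r : GQ →* M2 T}

/-- **One level.** -/
theorem tau_lev (hp2 : p ≠ 2) (hpO : (p : O) ∈ maximalIdeal O) (hχ : CycChar p χ)
    {φ τ : GQ} (hpair : Pair p (Pl (ExtCitation.pPrime p)) φ τ)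
    (htri : Tri (Pl (ExtCitation.pPrime p)) χ r) {I : Ideal T} (h : FlatLev p r I) (i j : Fin 2) :
    (r τ - 1) i j ∈ I := by
  obtain ⟨M, i1, i2, i3, f, h1, h2, h3⟩ := h
  obtain ⟨A, hA⟩ := exists_pow_smul (T := T) hpO f
  let L : AddSubgroup M :=
    { carrier := {z | ∃ a : T, z = f ![a, 0]}
      zero_mem' := ⟨0, by
        have : (![0, 0] : Fin 2 → T) = 0 := by
          funext i; fin_cases i <;> rfl
        rw [this, map_zero]⟩
      add_mem' := by
        rintro _ _ ⟨a, rfl⟩ ⟨b, rfl⟩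
        refine ⟨a + b, ?_⟩
        rw [← map_add]
        congr 1
        funext i
        fin_cases i
        · rfl
        · exact add_zero _
      neg_mem' := by
        rintro _ ⟨a, rfl⟩
        refine ⟨-a, ?_⟩
        rw [← map_neg]
        congr 1
        funext i
        fin_cases i
        · rfl
        · exact neg_zero }
  have hvec : ∀ (a : T) (N : M2 T), N *ᵥ ![a, 0] = ![N 0 0 * a, N 1 0 * a] := by
    intro a N
    apply vec_ext
    · rw [mulVec0]; simp
    · rw [mulVec1]; simp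
  have hkey : ∀ x : Fin 2 → T, τ • f x = f x := by
    intro x
    refine FTau.Pair.tau_trivial (TWP.Pl_lies (ExtCitation.pPrime p)) hp2 hpair h1 L
      (n := A) ?_ ?_ (f x) ?_
    · rintro _ ⟨a, rfl⟩
      exact hA _
    · rintro s hs _ ⟨a, rfl⟩ k hk
      rw [← h2, hvec, htri.low s (inertia_le_decomp hs), zero_mul]
      have h4 := htri.diag (inertia_le_decomp hs)
      rw [htri.quo s hs, mul_one] at h4
      have h5 := hχ.spec A s k hk
      rw [Ideal.mem_span_singleton] at h5
      obtain ⟨y, hy⟩ := h5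
      have h6 : r s 0 0 = (k : T) + (p : T) ^ A * algebraMap O T y := by
        rw [h4, ← map_natCast (algebraMap O T) p, ← map_pow, ← map_mul, ← hy, map_sub,
          map_natCast]
        ring
      have h7 : (![r s 0 0 * a, 0] : Fin 2 → T) =
          k • ![a, 0] + p ^ A • ![algebraMap O T y * a, 0] := by
        rw [h6]
        apply vec_ext
        · show ((k : T) + (p : T) ^ A * algebraMap O T y) * a =
            k • a + p ^ A • (algebraMap O T y * a)
          rw [nsmul_eq_mul, nsmul_eq_mul, Nat.cast_pow]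
          ring
        · simp
      rw [h7, map_add, map_nsmul, map_nsmul, hA, add_zero]
    · intro s hs
      rw [← h2, ← map_sub]
      refine ⟨(r s *ᵥ x) 0 - x 0, ?_⟩
      congr 1
      apply vec_ext
      · rfl
      · show (r s *ᵥ x) 1 - x 1 = 0
        rw [mulVec1, htri.low s (inertia_le_decomp hs), htri.quo s hs]
        ring
  have h4 : ∀ x : Fin 2 → T, ∀ i, (r τ *ᵥ x - x) i ∈ I := by
    intro x
    apply h3
    rw [map_sub, h2, hkey, sub_self]
  have h5 := h4 (Pi.single j 1) i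
  rw [Pi.sub_apply, mulVec_single_one, Matrix.col_apply] at h5
  rw [Matrix.sub_apply, Matrix.one_apply]
  rw [Pi.single_apply] at h5
  exact h5

/-- conjugation of flat levels -/
theorem FlatLev.cj {I : Ideal T} (h : FlatLev p r I) (g : M2 T) (hg : IsUnit g.det) :
    FlatLev p (cj g hg r) I := by
  obtain ⟨M, i1, i2, i3, f, h1, h2, h3⟩ := h
  have hinv : g * g⁻¹ = 1 := Matrix.mul_nonsing_inv _ hg
  have hinv' : g⁻¹ * g = 1 := Matrix.nonsing_inv_mul _ hg
  refine ⟨M, i1, i2, i3, AddMonoidHom.mk' (fun x => f (g *ᵥ x)) (fun x y => by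
    rw [mulVec_add, map_add]), h1, ?_, ?_⟩
  · intro σ x
    show f (g *ᵥ ((g⁻¹ * r σ * g) *ᵥ x)) = σ • f (g *ᵥ x)
    rw [← h2, mulVec_mulVec, mulVec_mulVec]
    congr 2
    calc g * (g⁻¹ * r σ * g) = (g * g⁻¹) * r σ * g := by noncomm_ring
      _ = _ := by rw [hinv, one_mul]
  · intro x hx i
    have h4 := h3 (g *ᵥ x) hx
    have h5 : x = g⁻¹ *ᵥ (g *ᵥ x) := by rw [mulVec_mulVec, hinv', one_mulVec]
    rw [h5, Matrix.mulVec, dotProduct]
    exact Ideal.sum_mem _ fun a _ => Ideal.mul_mem_left _ _ (h4 a)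

variable [IsLocalRing T] [IsLocalHom (algebraMap O T)] {rbar : GQ →* M2 (ResidueField O)}

/-- **Flat and ordinary representations are trivial at the monodromy element.** -/
theorem tau_eq_one (hp2 : p ≠ 2) (hpO : (p : O) ∈ maximalIdeal O) (hχ : CycChar p χ)
    [IsNoetherianRing T] (b : Bas p χ rbar) (hr : Red rbar r)
    (hdet : ∀ σ, (r σ).det = algebraMap O T (χ σ)) (hord : OrdAt p χ r) (hflat : FlatM p O r)
    {φ τ : GQ} (hpair : Pair p (Pl (ExtCitation.pPrime p)) φ τ) : r τ = 1 := by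
  have hL := b.ordLoc hr hord hdet
  have h1 : ∀ n i j, (RTan.cj (b.g r) hL.unit r τ - 1) i j ∈ maximalIdeal T ^ n := by
    intro n i j
    have h2 := tau_lev hp2 hpO hχ hpair hL.tri ((hflat n).cj (b.g r) hL.unit) i j
    rw [Ideal.map_pow] at h2
    refine Ideal.pow_right_mono ?_ n h2
    rw [Ideal.map_le_iff_le_comap]
    intro o ho
    rw [Ideal.mem_comap]
    exact map_nonunit (algebraMap O T) o ho
  have h2 : RTan.cj (b.g r) hL.unit r τ = 1 := by
    rw [← sub_eq_zero]
    refine Matrix.ext fun i j => ?_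
    have h3 : (RTan.cj (b.g r) hL.unit r τ - 1) i j ∈ (⨅ n : ℕ, maximalIdeal T ^ n) := by
      rw [Ideal.mem_iInf]; exact fun n => h1 n i j
    rw [Ideal.iInf_pow_eq_bot_of_isLocalRing _ (maximalIdeal.isMaximal T).ne_top] at h3
    exact h3
  rw [cj_back (b.g r) hL.unit r τ, h2, mul_one, Matrix.mul_nonsing_inv _ hL.unit]

end tri

section res

variable {p : ℕ} [hp : Fact p.Prime] {𝒪 : Type} [CommRing 𝒪] [IsLocalRing 𝒪]
  [Finite (ResidueField 𝒪)]
  {R : Type} [CommRing R] [Algebra 𝒪 R]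
  {π : R →+* ResidueField 𝒪} {r : GQ →* M2 R} {rbar : GQ →* M2 (ResidueField 𝒪)}

/-- the residual representation of a flat representation is flat at the level zero -/
theorem flatLev_res (h : FlatM p 𝒪 r) (hred : ∀ σ, (r σ).map π = rbar σ)
    (hπ : ∀ o, π (algebraMap 𝒪 R o) = residue 𝒪 o) : FlatLev p rbar ⊥ := by
  have hfin : Finite (ResM (ResidueField 𝒪)) := inferInstanceAs (Finite (Fin 2 → ResidueField 𝒪))
  refine ⟨ResM (ResidueField 𝒪), inferInstance, hfin, resAction rbar,
    AddMonoidHom.mk' (fun x => x) (fun x y => rfl), isFlatMod_res h hred hπ, fun σ x => rfl,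
    fun x hx i => ?_⟩
  exact congrFun hx i

/-- **No flat lifts if the residual representation is ordinary and tres ramifiee.** -/
theorem rbar_tau_eq_one {χ : GQ → 𝒪} (hp2 : p ≠ 2) (hpO : (p : 𝒪) ∈ maximalIdeal 𝒪)
    (hχ : CycChar p χ) (b : Bas p χ rbar) (hdet : ∀ σ, (rbar σ).det = residue 𝒪 (χ σ))
    (hord : OrdAt p χ rbar) (h : FlatM p 𝒪 r) (hred : ∀ σ, (r σ).map π = rbar σ)
    (hπ : ∀ o, π (algebraMap 𝒪 R o) = residue 𝒪 o)
    {φ τ : GQ} (hpair : Pair p (Pl (ExtCitation.pPrime p)) φ τ) : rbar τ = 1 := by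
  have hu : IsUnit (b.g rbar).det := isUnit_iff_ne_zero.mpr b.det
  have htri : Tri (Pl (ExtCitation.pPrime p)) χ (cj (b.g rbar) hu rbar) :=
    (hord b.σ₀ b.mem).tri b.inv b.mem hdet hu
  have h1 : cj (b.g rbar) hu rbar τ = 1 := by
    rw [← sub_eq_zero]
    refine Matrix.ext fun i j => ?_
    have h2 := tau_lev hp2 hpO hχ hpair htri ((flatLev_res h hred hπ).cj (b.g rbar) hu) i j
    exact h2
  rw [cj_back (b.g rbar) hu rbar τ, h1, mul_one, Matrix.mul_nonsing_inv _ hu]

end res

end Fermat.Agent.RTan
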