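import Fermat.Agent.RTan.FlatM
import Fermat.Agent.Flat.Conv
import Fermat.Agent.Flat.MatB
import Fermat.Agent.TWP.Deform

/-!
# Derivations of flat representations give flat cocycles
-/

set_option autoImplicit false

namespace Fermat.Agent.RTan

open IsLocalRing Matrix
open Fermat.Agent.DefRing (M2 GQ mapRep)
open Fermat.Agent.HopfOrder (IsFlatMod)
open Fermat.Agent.TWP (psi psi_mul psi_mul_rbar IsDer)

section ext

variable {k : Type} [Field k] {rbar : GQ →* M2 k} {c : GQ → M2 k}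

/-- the extension module -/
def ExtM (k : Type) : Type := (Fin 2 → k) × (Fin 2 → k)

noncomputable instance : AddCommGroup (ExtM k) := inferInstanceAs (AddCommGroup ((Fin 2 → k) × (Fin 2 → k)))

instance [Finite k] : Finite (ExtM k) := inferInstanceAs (Finite ((Fin 2 → k) × (Fin 2 → k)))

/-- the Galois action on the extension module -/
@[reducible] noncomputable def extAction (rbar : GQ →* M2 k) (c : GQ → M2 k)
    (hc : ∀ σ τ, c (σ * τ) = c σ + rbar σ * c τ * rbar σ⁻¹) :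
    DistribMulAction GQ (ExtM k) where
  smul σ z := Flat.eAct rbar c σ z
  one_smul z := by
    have h1 : c 1 = 0 := by
      have h := hc 1 1
      rw [one_mul, map_one, inv_one, map_one, one_mul, mul_one, left_eq_add] at h
      exact h
    show Flat.eAct rbar c 1 z = z
    refine Prod.ext ?_ ?_
    · show rbar 1 *ᵥ z.1 = z.1
      rw [map_one, one_mulVec]
    · show rbar 1 *ᵥ z.2 + c 1 *ᵥ (rbar 1 *ᵥ z.1) = z.2
      rw [map_one, one_mulVec, h1, zero_mulVec, add_zero]
  mul_smul σ τ z := by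
    show Flat.eAct rbar c (σ * τ) z = Flat.eAct rbar c σ (Flat.eAct rbar c τ z)
    refine Prod.ext ?_ ?_
    · show rbar (σ * τ) *ᵥ z.1 = rbar σ *ᵥ (rbar τ *ᵥ z.1)
      rw [map_mul, mulVec_mulVec]
    · show rbar (σ * τ) *ᵥ z.2 + c (σ * τ) *ᵥ (rbar (σ * τ) *ᵥ z.1) =
        rbar σ *ᵥ (rbar τ *ᵥ z.2 + c τ *ᵥ (rbar τ *ᵥ z.1)) +
          c σ *ᵥ (rbar σ *ᵥ (rbar τ *ᵥ z.1))
      have h1 : rbar σ⁻¹ * rbar σ = 1 := by rw [← map_mul, inv_mul_cancel, map_one]
      have h2 : rbar σ * c τ * rbar σ⁻¹ * (rbar σ * rbar τ) = rbar σ * c τ * rbar τ := by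
        calc _ = rbar σ * c τ * (rbar σ⁻¹ * rbar σ) * rbar τ := by noncomm_ring
          _ = _ := by rw [h1, mul_one]
      simp only [mulVec_add, mulVec_mulVec, map_mul, hc, add_mul, add_mulVec]
      rw [h2, mul_assoc (rbar σ) (c τ)]
      abel
  smul_zero σ := by
    show Flat.eAct rbar c σ 0 = 0
    refine Prod.ext ?_ ?_
    · show rbar σ *ᵥ (0 : Fin 2 → k) = 0
      rw [mulVec_zero]
    · show rbar σ *ᵥ (0 : Fin 2 → k) + c σ *ᵥ (rbar σ *ᵥ (0 : Fin 2 → k)) = 0
      rw [mulVec_zero, mulVec_zero, add_zero]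
  smul_add σ z w := by
    show Flat.eAct rbar c σ (z + w) = Flat.eAct rbar c σ z + Flat.eAct rbar c σ w
    refine Prod.ext ?_ ?_
    · show rbar σ *ᵥ (z.1 + w.1) = rbar σ *ᵥ z.1 + rbar σ *ᵥ w.1
      rw [mulVec_add]
    · show rbar σ *ᵥ (z.2 + w.2) + c σ *ᵥ (rbar σ *ᵥ (z.1 + w.1)) =
        (rbar σ *ᵥ z.2 + c σ *ᵥ (rbar σ *ᵥ z.1)) + (rbar σ *ᵥ w.2 + c σ *ᵥ (rbar σ *ᵥ w.1))
      simp only [mulVec_add]
      abel

end ext

section main

variable {p : ℕ} [hp : Fact p.Prime] {𝒪 : Type} [CommRing 𝒪] [IsLocalRing 𝒪]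
  [Finite (ResidueField 𝒪)] {R : Type} [CommRing R] [Algebra 𝒪 R]
  {π : R →+* ResidueField 𝒪} {δ : R → ResidueField 𝒪} {r : GQ →* M2 R}
  {rbar : GQ →* M2 (ResidueField 𝒪)}

omit [Finite (ResidueField 𝒪)] in
/-- Flatness of the extension module of a derivation. -/
theorem isFlatMod_ext (h : FlatM p 𝒪 r) (hδ : IsDer 𝒪 π δ) (hred : ∀ σ, (r σ).map π = rbar σ)
    (hπ : ∀ o, π (algebraMap 𝒪 R o) = residue 𝒪 o) :
    @IsFlatMod p (ExtM (ResidueField 𝒪)) _
      (extAction rbar (psi r rbar δ) (psi_mul hδ hred)) := by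
  obtain ⟨M, i1, i2, i3, f, h1, h2, h3⟩ := h 1
  rw [pow_one] at h3
  let iE := extAction rbar (psi r rbar δ) (psi_mul hδ hred)
  -- the kernel is killed
  have hker : ∀ y ∈ (maximalIdeal 𝒪).map (algebraMap 𝒪 R), π y = 0 ∧ δ y = 0 := by
    intro y hy
    refine Submodule.span_induction ?_ ?_ ?_ ?_ hy
    · rintro _ ⟨o, ho, rfl⟩
      exact ⟨by rw [hπ]; exact (residue_eq_zero_iff o).mpr ho, hδ.alg o⟩
    · exact ⟨map_zero _, hδ.zero⟩
    · rintro a b _ _ ⟨ha, ha'⟩ ⟨hb, hb'⟩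
      exact ⟨by rw [map_add, ha, hb, add_zero], by rw [hδ.add, ha', hb', add_zero]⟩
    · rintro a b _ ⟨hb, hb'⟩
      exact ⟨by rw [smul_eq_mul, map_mul, hb, mul_zero],
        by rw [smul_eq_mul, hδ.mul, hb, hb']; ring⟩
  -- the range of `f`
  let N : AddSubgroup M := f.range
  have hN : ∀ (σ : GQ), ∀ x ∈ N, σ • x ∈ N := by
    rintro σ _ ⟨x, rfl⟩
    exact ⟨r σ *ᵥ x, h2 σ x⟩
  let iN : DistribMulAction GQ N :=
    { smul := fun σ x => ⟨σ • x.1, hN σ x.1 x.2⟩
      one_smul := fun x => Subtype.ext (one_smul _ _)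
      mul_smul := fun σ τ x => Subtype.ext (mul_smul _ _ _)
      smul_zero := fun σ => Subtype.ext (smul_zero _)
      smul_add := fun σ x y => Subtype.ext (smul_add _ _ _) }
  have hNf : IsFlatMod p N := h1.of_injective N.subtype Subtype.val_injective fun σ x => rfl
  have hNN : IsFlatMod p (Bool → N) := IsFlatMod.pi fun _ => hNf
  -- the map
  let ev : (Fin 2 → R) → ExtM (ResidueField 𝒪) := fun x => (fun i => π (x i), fun i => δ (x i))
  let ev' : (Fin 2 → R) → ExtM (ResidueField 𝒪) := fun x => (0, fun i => π (x i))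
  have hev : ∀ x y, f x = f y → ev x = ev y := by
    intro x y hxy
    have h4 : ∀ i, π (x i - y i) = 0 ∧ δ (x i - y i) = 0 := fun i =>
      hker _ (h3 (x - y) (by rw [map_sub, hxy, sub_self]) i)
    refine Prod.ext (funext fun i => ?_) (funext fun i => ?_)
    · have := (h4 i).1
      rw [map_sub, sub_eq_zero] at this
      exact this
    · have := (h4 i).2
      rw [hδ.sub, sub_eq_zero] at this
      exact this
  have hev' : ∀ x y, f x = f y → ev' x = ev' y := by
    intro x y hxy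
    have h4 : ∀ i, π (x i - y i) = 0 ∧ δ (x i - y i) = 0 := fun i =>
      hker _ (h3 (x - y) (by rw [map_sub, hxy, sub_self]) i)
    refine Prod.ext rfl (funext fun i => ?_)
    have := (h4 i).1
    rw [map_sub, sub_eq_zero] at this
    exact this
  have hadd : ∀ x y, ev (x + y) = ev x + ev y := fun x y =>
    Prod.ext (funext fun i => map_add _ _ _) (funext fun i => hδ.add _ _)
  have hadd' : ∀ x y, ev' (x + y) = ev' x + ev' y := fun x y =>
    Prod.ext (add_zero _).symm (funext fun i => map_add _ _ _)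
  have hπv : ∀ (σ : GQ) (x : Fin 2 → R), (fun i => π ((r σ *ᵥ x) i)) =
      rbar σ *ᵥ fun i => π (x i) := by
    intro σ x
    funext i
    rw [← hred]
    simp only [mulVec, dotProduct, Fin.sum_univ_two, map_add, map_mul, Matrix.map_apply]
  have hδv : ∀ (σ : GQ) (x : Fin 2 → R), (fun i => δ ((r σ *ᵥ x) i)) =
      (rbar σ *ᵥ fun i => δ (x i)) + psi r rbar δ σ *ᵥ (rbar σ *ᵥ fun i => π (x i)) := by
    intro σ x
    funext i
    rw [mulVec_mulVec, psi_mul_rbar, ← hred]
    simp only [mulVec, dotProduct, Fin.sum_univ_two, Pi.add_apply, hδ.add, hδ.mul,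
      Matrix.map_apply]
    ring
  have hG : ∀ (σ : GQ) x, ev (r σ *ᵥ x) = σ • ev x := fun σ x => Prod.ext (hπv σ x) (hδv σ x)
  have hG' : ∀ (σ : GQ) x, ev' (r σ *ᵥ x) = σ • ev' x := fun σ x => by
    refine Prod.ext ?_ ?_
    · show 0 = rbar σ *ᵥ (0 : Fin 2 → ResidueField 𝒪)
      rw [mulVec_zero]
    · show (fun i => π ((r σ *ᵥ x) i)) = (rbar σ *ᵥ fun i => π (x i)) +
        psi r rbar δ σ *ᵥ (rbar σ *ᵥ (0 : Fin 2 → ResidueField 𝒪))
      rw [hπv, mulVec_zero, mulVec_zero, add_zero]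
  choose lift hlift using fun y : N => y.2
  have hl : ∀ (y : N) x, f x = y.1 → ev (lift y) = ev x := fun y x hx =>
    hev _ _ ((hlift y).trans hx.symm)
  have hl' : ∀ (y : N) x, f x = y.1 → ev' (lift y) = ev' x := fun y x hx =>
    hev' _ _ ((hlift y).trans hx.symm)
  let F : (Bool → N) →+ ExtM (ResidueField 𝒪) := AddMonoidHom.mk'
    (fun y => ev (lift (y false)) + ev' (lift (y true))) fun x y => by
      rw [hl ((x + y) false) (lift (x false) + lift (y false))
        (by rw [map_add, hlift, hlift]; rfl),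
        hl' ((x + y) true) (lift (x true) + lift (y true))
        (by rw [map_add, hlift, hlift]; rfl), hadd, hadd']
      abel
  refine hNN.of_surjective F ?_ ?_
  · rintro ⟨a, b⟩
    choose oa hoa using fun i => residue_surjective (R := 𝒪) (a i)
    choose ob hob using fun i => residue_surjective (R := 𝒪) (b i)
    refine ⟨fun t => if t then ⟨f fun i => algebraMap 𝒪 R (ob i), _, rfl⟩ else
      ⟨f fun i => algebraMap 𝒪 R (oa i), _, rfl⟩, ?_⟩
    show ev (lift ⟨f fun i => algebraMap 𝒪 R (oa i), _⟩) +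
      ev' (lift ⟨f fun i => algebraMap 𝒪 R (ob i), _⟩) = (a, b)
    rw [hl _ _ rfl, hl' _ _ rfl]
    refine Prod.ext (funext fun i => ?_) (funext fun i => ?_)
    · show π (algebraMap 𝒪 R (oa i)) + 0 = a i
      rw [hπ, hoa, add_zero]
    · show δ (algebraMap 𝒪 R (oa i)) + π (algebraMap 𝒪 R (ob i)) = b i
      rw [hδ.alg, hπ, hob, zero_add]
  · intro σ y
    show ev (lift ((σ • y) false)) + ev' (lift ((σ • y) true)) =
      σ • (ev (lift (y false)) + ev' (lift (y true)))
    rw [smul_add, ← hG, ← hG', hl ((σ • y) false) (r σ *ᵥ lift (y false))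
      (by rw [h2, hlift]; rfl), hl' ((σ • y) true) (r σ *ᵥ lift (y true))
      (by rw [h2, hlift]; rfl)]

/-- **Derivations of flat representations give flat cocycles.** -/
theorem flatE_of_flatM (hp2 : p ≠ 2) (h : FlatM p 𝒪 r) (hδ : IsDer 𝒪 π δ)
    (hred : ∀ σ, (r σ).map π = rbar σ) (hπ : ∀ o, π (algebraMap 𝒪 R o) = residue 𝒪 o) :
    haveI := Flat.setting_padic (p := p) hp2
    Flat.FlatE p (PadicAlgCl p) (Flat.Loc.inert p) (rbar.comp (localGaloisToGlobal p))
      (fun γ => psi r rbar δ (localGaloisToGlobal p γ)) := by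
  let iE := extAction rbar (psi r rbar δ) (psi_mul hδ hred)
  have hF : IsFlatMod p (ExtM (ResidueField 𝒪)) := isFlatMod_ext h hδ hred hπ
  obtain ⟨H, i1, i2, h1, -, -, e, he, hact⟩ := hF.exists_hopfAlgebra
  exact Flat.exists_ord e hp2 he (fun s x => s • x) hact

end main

end Fermat.Agent.RTan
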