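import Fermat.Agent.RTan.OrdJ5
import Fermat.Agent.RTan.FlatE
import Fermat.Agent.Flat.ToH1
import Fermat.Agent.RT8.Assemble

/-!
# Framings of patching systems
-/

set_option autoImplicit false

namespace Fermat.Agent.RTan

open IsLocalRing Matrix Fermat.Agent.PT
open Fermat.Agent.PTC (ptd sL allL muA cyclo_spec)
open Fermat.Agent.TWP (psi psi_mul psi_mul_rbar psi_sub MDef sqKer mem_sqKer IsDer ad0 twAct Pl rl Γl
  mem_ad0 rep_mul_inv rep_inv_mul Qb map_mul_der SQ mem_SQ subset_SQ RD UnrOut TWSet)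
open Fermat.Agent.DefRing (MatCont Red Norm SliceData M2 GQ mapRep)
open Fermat.Agent.RT8J (TanX JRing)
open Fermat.Agent.ORD (Pair)
open scoped Pointwise

section data

variable {𝒪 : Type} [CommRing 𝒪] [IsLocalRing 𝒪] [Finite (ResidueField 𝒪)] {p : ℕ}
  [hp : Fact p.Prime] {rbar : GQ →* M2 (ResidueField 𝒪)} {sd : SliceData rbar} {m : ℕ}
  {Λ J K : Type} [Fintype Λ] [DecidableEq Λ]

/-- The global data needed to bound the tangent spaces of the joint rings of a patching system. -/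
structure TanData (Y : RT8.Sys sd p m Λ J K) (χ : GQ → 𝒪) where
  /-- the base set of places (with auxiliary primes) -/
  S : Finset Nat.Primes
  hpS : ExtCitation.pPrime p ∈ S
  unrOut : UnrOut S rbar
  rd : RD p rbar
  /-- the Taylor–Wiles primes -/
  q : ℕ → Fin m → Nat.Primes
  τQ : ℕ → Fin m → GQ
  /-- their levels -/
  lev : ℕ → ℕ
  tw : ∀ n, TWSet p rbar (lev n) S m (q n) (τQ n)
  ec : ∀ n, (Nat.card (ResidueField 𝒪) : ℝ) *
    chi (sL (SQ S (q n))) (dualAct (muA p) (twAct 1 rbar)) ≤ 1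
  prime : ∀ l, (Y.ℓ l).Prime
  inj : Function.Injective Y.ℓ
  mem : ∀ l, (⟨Y.ℓ l, prime l⟩ : Nat.Primes) ∈ S
  tame : ∀ l, TameAt p rbar ⟨Y.ℓ l, prime l⟩ (Y.φ l) (Y.τ l)
  det : ∀ n j σ, ((Y.C n j).r σ).det = algebraMap 𝒪 (Y.C n j).T (χ σ)
  unr : ∀ n j (v : Nat.Primes), v ≠ ExtCitation.pPrime p → (∀ l, (v : ℕ) ≠ Y.ℓ l) →
    (∀ i, v ≠ q n i) → ∀ A : ValuationSubring Qb, A.LiesOverPrime v →
      ∀ σ ∈ A.inertiaSubgroupIn ℚ, (Y.C n j).r σ = 1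

variable {Y : RT8.Sys sd p m Λ J K} {χ : GQ → 𝒪} (D : TanData Y χ)

/-- the ramification set of the joint ring -/
noncomputable def TanData.Sig (n : ℕ) : Finset ℕ :=
  insert p (Finset.univ.image Y.ℓ ∪ Finset.univ.image fun i => (D.q n i : ℕ))

omit [Finite (ResidueField 𝒪)] in
theorem TanData.mem_Sig (n : ℕ) (v : ℕ) : v ∈ D.Sig n ↔ v = p ∨ (∃ l, Y.ℓ l = v) ∨
    ∃ i, (D.q n i : ℕ) = v := by
  simp [TanData.Sig]

end data

section matrix

variable {𝒪 : Type} [CommRing 𝒪] [IsLocalRing 𝒪]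
  {rbar : GQ →* M2 (ResidueField 𝒪)} {sd : SliceData rbar}
  {J : Type} {T : J → Type} [∀ j, CommRing (T j)] [∀ j, Algebra 𝒪 (T j)]
  {r : ∀ j, GQ →* M2 (T j)} (A : JRing sd T r)

theorem jring_eq_one {σ : GQ} (h : ∀ j, r j σ = 1) : A.r0 σ = 1 := by
  refine Matrix.ext fun a b => ?_
  rw [← sub_eq_zero]
  apply A.inj
  intro j
  have h1 : (A.r0 σ).map (A.pr j) = 1 := (A.pr_r0_apply j σ).trans (h j)
  have h2 := congrFun (congrFun h1 a) b
  rw [Matrix.map_apply] at h2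
  rw [map_sub, h2]
  by_cases hab : a = b
  · subst hab; rw [Matrix.one_apply_eq, Matrix.one_apply_eq, map_one, sub_self]
  · rw [Matrix.one_apply_ne hab, Matrix.one_apply_ne hab, map_zero, sub_self]

theorem jring_det {χ : GQ → 𝒪} (h : ∀ j σ, (r j σ).det = algebraMap 𝒪 (T j) (χ σ)) (σ : GQ) :
    (A.r0 σ).det = algebraMap 𝒪 A.R (χ σ) := by
  rw [← sub_eq_zero]
  apply A.inj
  intro j
  rw [map_sub, AlgHom.commutes, ← h j, sub_eq_zero, ← A.pr_r0_apply j σ]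
  exact RingHom.map_det (A.pr j : A.R →+* T j) (A.r0 σ)

end matrix

section main

variable {𝒪 : Type} [CommRing 𝒪] [IsLocalRing 𝒪] [IsNoetherianRing 𝒪]
  [IsAdicComplete (maximalIdeal 𝒪) 𝒪] [Finite (ResidueField 𝒪)] {p : ℕ}
  [hp : Fact p.Prime] {rbar : GQ →* M2 (ResidueField 𝒪)} {sd : SliceData rbar} {m : ℕ}
  {Λ J K : Type} [Fintype Λ] [DecidableEq Λ]
  {Y : RT8.Sys sd p m Λ J K} {χ : GQ → 𝒪} (D : TanData Y χ)

omit [IsNoetherianRing 𝒪] [IsAdicComplete (maximalIdeal 𝒪) 𝒪] in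
/-- the matrix form of the deformation -/
theorem TanData.mdef (hχ : CycChar p χ) (n : ℕ) {π : (Y.A n).R →+* ResidueField 𝒪}
    (hπ : ∀ o, π (algebraMap 𝒪 _ o) = residue 𝒪 o) :
    MDef 𝒪 p (D.Sig n) ∅ π (Y.A n).r0 rbar where
  ker := RT8J.pi_eq_zero_iff π hπ
  cont := (Y.A n).cont
  red := RT8J.map_pi_of_red π hπ (Y.A n).red
  det σ := by
    have h1 := jring_det (Y.A n) (D.det n) σ
    have hne : NeZero p := ⟨hp.out.ne_zero⟩
    have h2 := hχ.spec 1 σ (ExtCitation.cycloChar p σ : ZMod p).val fun μ hμ =>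
      cyclo_spec p σ (by rwa [pow_one] at hμ)
    rw [pow_one, Ideal.mem_span_singleton] at h2
    obtain ⟨y, hy⟩ := h2
    refine ⟨(ExtCitation.cycloChar p σ : ZMod p).val, algebraMap 𝒪 _ y, ?_⟩
    rw [h1, ← map_natCast (algebraMap 𝒪 (Y.A n).R) p, ← map_mul, ← hy, map_sub, map_natCast]
    ring
  unr v hv hvS A hA σ hσ := by
    apply jring_eq_one
    intro j
    have h1 : ¬ _ := fun h => hvS ((D.mem_Sig n v).mpr h)
    push Not at h1
    refine D.unr n j ⟨v, hv⟩ (fun h => h1.1 (congrArg Subtype.val h)) (fun l h => h1.2.1 l h.symm)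
      (fun i h => h1.2.2 i (congrArg Subtype.val h).symm) A hA σ hσ
  unip v hv := absurd hv (Finset.notMem_empty v)

omit [IsNoetherianRing 𝒪] [IsAdicComplete (maximalIdeal 𝒪) 𝒪] in
/-- the bound for the tangent space -/
theorem TanData.bound (hp2 : p ≠ 2) (hχ : CycChar p χ) {Υ : Type} (d n : ℕ)
    (s : Υ → (Y.A n).R) {π : (Y.A n).R →+* ResidueField 𝒪}
    (hπ : ∀ o, π (algebraMap 𝒪 _ o) = residue 𝒪 o)
    (Tp : AddSubgroup (H1 (allL.comap (rl (ExtCitation.pPrime p)))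
      ((twAct 1 rbar).comp (rl (ExtCitation.pPrime p)))))
    (hTp : Nat.card Tp ≤ d *
      Nat.card (H0 ((twAct 1 rbar).comp (rl (ExtCitation.pPrime p)))))
    (hloc : ∀ δ : (Y.A n).R → ResidueField 𝒪,
      IsDer 𝒪 π δ → (∀ u, δ (s u) = 0) →
      ∀ f : Z1 (sL (SQ D.S (D.q n))) (twAct 1 rbar),
      (∀ σ, ((f.1 σ : ad0 (ResidueField 𝒪)) : M2 (ResidueField 𝒪)) = psi (Y.A n).r0 rbar δ σ) →
      ((ptd (SQ D.S (D.q n))).loc ⟨ExtCitation.pPrime p, subset_SQ D.hpS⟩ (twAct 1 rbar)).h1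
        (H1.mk (sL (SQ D.S (D.q n))) (twAct 1 rbar) f) ∈ Tp) :
    (TanX (𝒪 := 𝒪) π (Y.A n).r0 Y.φ Y.τ s).Finite ∧
      Nat.card (TanX (𝒪 := 𝒪) π (Y.A n).r0 Y.φ Y.τ s) * Nat.card (ResidueField 𝒪) ≤
        Nat.card (ResidueField 𝒪) ^ m * d :=
  card_TanX_mul_le D.rd hp2 D.unrOut (D.tw n) D.hpS (D.ec n) (D.mdef hχ n hπ)
      (fun v hv => by
        rw [D.mem_Sig] at hv
        rcases hv with h | ⟨l, h⟩ | ⟨i, h⟩
        · have : v = ExtCitation.pPrime p := Subtype.ext h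
          rw [this]; exact subset_SQ D.hpS
        · have : v = ⟨Y.ℓ l, D.prime l⟩ := Subtype.ext h.symm
          rw [this]; exact subset_SQ (D.mem l)
        · have : v = D.q n i := Subtype.ext h.symm
          rw [this]; exact mem_SQ.mpr (Or.inr ⟨i, rfl⟩))
      hπ (Y.A n).norm (Y.A n).adj (fun l => (⟨Y.ℓ l, D.prime l⟩ : Nat.Primes))
      (fun a b hab => D.inj (congrArg Subtype.val hab)) D.mem Y.φ Y.τ D.tame
      (fun v hv hvp hvl hvS => by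
        rw [D.mem_Sig] at hvS
        rcases hvS with h | ⟨l, h⟩ | ⟨i, h⟩
        · exact hvp (Subtype.ext h)
        · exact hvl l (Subtype.ext h.symm)
        · have : v = D.q n i := Subtype.ext h.symm
          rw [this] at hv
          exact (D.tw n).notMem i hv)
      s Tp d hTp (fun x hx f hf => hloc x.1 hx.1 hx.2.2.2.2 f hf)

omit [IsNoetherianRing 𝒪] [IsAdicComplete (maximalIdeal 𝒪) 𝒪] [Finite (ResidueField 𝒪)]
  [Fintype Λ] [DecidableEq Λ] in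
/-- the zero tangent vector -/
theorem zero_mem_TanX {R : Type} [CommRing R] [Algebra 𝒪 R] (π : R →+* ResidueField 𝒪)
    (r0 : GQ →* M2 R) {Υ : Type} (φ τ : Λ → GQ) (s : Υ → R) :
    (0 : (R → ResidueField 𝒪) × (Λ → M2 (ResidueField 𝒪))) ∈ TanX (𝒪 := 𝒪) π r0 φ τ s := by
  refine ⟨⟨fun x y => ?_, fun x y => ?_, fun o => ?_⟩, fun l => ?_, fun l => ?_, fun l => ?_,
    fun u => rfl⟩
  · exact (add_zero _).symm
  · show (0 : ResidueField 𝒪) = _
    simp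
  · rfl
  · show (0 : M2 (ResidueField 𝒪)).trace = 0
    exact trace_zero _ _
  · show (r0 (φ l)).map (0 : R → ResidueField 𝒪) = _ * (0 : M2 (ResidueField 𝒪)) -
      (0 : M2 (ResidueField 𝒪)) * _
    rw [mul_zero, zero_mul, sub_zero]; rfl
  · show (r0 (τ l)).map (0 : R → ResidueField 𝒪) = _ * (0 : M2 (ResidueField 𝒪)) -
      (0 : M2 (ResidueField 𝒪)) * _
    rw [mul_zero, zero_mul, sub_zero]; rfl

/-- **Framings from a local bound.** -/
theorem TanData.exists_frm (hp2 : p ≠ 2) (hχ : CycChar p χ) {Υ : Type} [Finite Υ] (g' d : ℕ)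
    (s : ∀ n, Υ → (Y.A n).R) (hs : ∀ n u, s n u ∈ maximalIdeal (Y.A n).R)
    (hd : Nat.card (ResidueField 𝒪) ^ m * d ≤
      Nat.card (ResidueField 𝒪) ^ g' * Nat.card (ResidueField 𝒪))
    (Tp : AddSubgroup (H1 (allL.comap (rl (ExtCitation.pPrime p)))
      ((twAct 1 rbar).comp (rl (ExtCitation.pPrime p)))))
    (hTp : Nat.card Tp ≤ d *
      Nat.card (H0 ((twAct 1 rbar).comp (rl (ExtCitation.pPrime p)))))
    (hloc : ∀ n (π : (Y.A n).R →+* ResidueField 𝒪),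
      (∀ o, π (algebraMap 𝒪 _ o) = residue 𝒪 o) → ∀ δ : (Y.A n).R → ResidueField 𝒪,
      IsDer 𝒪 π δ → (∀ u, δ (s n u) = 0) →
      ∀ f : Z1 (sL (SQ D.S (D.q n))) (twAct 1 rbar),
      (∀ σ, ((f.1 σ : ad0 (ResidueField 𝒪)) : M2 (ResidueField 𝒪)) = psi (Y.A n).r0 rbar δ σ) →
      ((ptd (SQ D.S (D.q n))).loc ⟨ExtCitation.pPrime p, subset_SQ D.hpS⟩ (twAct 1 rbar)).h1
        (H1.mk (sL (SQ D.S (D.q n))) (twAct 1 rbar) f) ∈ Tp) :
    ∃ Z : RT8.Frm Y Υ g', Z.s = s := by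
  classical
  choose F₀ hF₀ using fun (l : Λ) => show ∃ F₀ : M2 𝒪, F₀.map (residue 𝒪) = rbar (Y.φ l) from by
    choose M hM using fun (i j : Fin 2) => residue_surjective (R := 𝒪) (rbar (Y.φ l) i j)
    exact ⟨Matrix.of M, Matrix.ext hM⟩
  choose N₀ hN₀ using fun (l : Λ) =>
    show ∃ N₀ : M2 𝒪, N₀.map (residue 𝒪) = rbar (Y.τ l) - 1 from by
      choose M hM using fun (i j : Fin 2) =>
        residue_surjective (R := 𝒪) ((rbar (Y.τ l) - 1) i j)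
      exact ⟨Matrix.of M, Matrix.ext hM⟩
  have key : ∀ n, ∃ Θ : MvPowerSeries (LocRing.FIdx Λ (Υ ⊕ Fin g')) 𝒪 →ₐ[𝒪]
      MvPowerSeries (Λ × Fin 3) (Y.A n).R,
      Function.Surjective Θ ∧
      (∀ l i j, Θ (LocRing.fullF (Υ ⊕ Fin g') F₀ l i j) =
        RT8J.frM l ((Y.A n).r0 (Y.φ l)) i j) ∧
      (∀ l i j, Θ (LocRing.fullN (Υ ⊕ Fin g') N₀ l i j) =
        RT8J.frM l ((Y.A n).r0 (Y.τ l) - 1) i j) ∧
      (∀ u, Θ (MvPowerSeries.X (Sum.inr (Sum.inl u))) = MvPowerSeries.C (s n u)) ∧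
      (∀ i, Θ (MvPowerSeries.X i) ∈ maximalIdeal (MvPowerSeries (Λ × Fin 3) (Y.A n).R)) := by
    intro n
    obtain ⟨π, hπ⟩ := RT8J.exists_pi (𝒪 := 𝒪) (R := (Y.A n).R) (Y.A n).surj
    have hM := D.mdef hχ n hπ
    obtain ⟨hfin, hcard⟩ := D.bound hp2 hχ d n (s n) hπ Tp hTp (hloc n π hπ)
    have hkpos : 0 < Nat.card (ResidueField 𝒪) := Nat.card_pos
    exact RT8J.exists_framed_surj π hπ (Y.A n).r0 Y.φ Y.τ (s n) (hs n) F₀ N₀
      (fun l => by rw [hF₀, hM.red]) (fun l => by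
        rw [hN₀, RT8J.map_sub_one_pi, hM.red]) g' hfin
      (Nat.le_of_mul_le_mul_right (hcard.trans hd) hkpos)
  choose Θ h1 h2 h3 h4 _ using key
  exact ⟨⟨F₀, N₀, hN₀, s, Θ, h1, h2, h3, h4⟩, rfl⟩

end main

end Fermat.Agent.RTan
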