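import Fermat.Agent.RTan.Final

/-!
# Framings of patching systems: the three cases
-/

set_option autoImplicit false

namespace Fermat.Agent.RTan

open IsLocalRing Matrix Fermat.Agent.PT
open Fermat.Agent.PTC (ptd sL allL muA cyclo_spec)
open Fermat.Agent.TWP (psi psi_mul psi_mul_rbar psi_sub MDef sqKer mem_sqKer IsDer ad0 twAct Pl rl Γl
  mem_ad0 rep_mul_inv rep_inv_mul Qb map_mul_der SQ mem_SQ subset_SQ RD UnrOut TWSet)
open Fermat.Agent.DefRing (MatCont Red Norm SliceData M2 GQ mapRep)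
open Fermat.Agent.RT8J (TanX JRing)
open Fermat.Agent.ORD (Pair)
open scoped Pointwise

section main

variable {𝒪 : Type} [CommRing 𝒪] [IsLocalRing 𝒪] [IsNoetherianRing 𝒪]
  [IsAdicComplete (maximalIdeal 𝒪) 𝒪] [Finite (ResidueField 𝒪)] {p : ℕ}
  [hp : Fact p.Prime] {rbar : GQ →* M2 (ResidueField 𝒪)} {sd : SliceData rbar} {m : ℕ}
  {Λ J K : Type} [Fintype Λ] [DecidableEq Λ]
  {Y : RT8.Sys sd p m Λ J K} {χ : GQ → 𝒪} (D : TanData Y χ)

include D in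
/-- **Framings, flat case.** -/
theorem TanData.exists_frm_flat [Finite J] (hp2 : p ≠ 2) (hχ : CycChar p χ)
    (hflat : ∀ n j, FlatM p 𝒪 (Y.C n j).r)
    (hB : haveI := Flat.setting_padic (p := p) hp2
      Flat.FlatBound p (PadicAlgCl p) (Flat.Loc.inert p) (rbar.comp (localGaloisToGlobal p))) :
    Nonempty (RT8.Frm Y Empty m) := by
  have iS := Flat.setting_padic (p := p) hp2
  obtain ⟨T, -, hT1, hT2⟩ := Flat.exists_flat_subgroup hp2 rbar hB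
  have hfl : ∀ n, FlatM p 𝒪 (Y.A n).r0 := fun n =>
    FlatM.of_family (fun j => (Y.A n).pr j) (Y.A n).inj fun j => by
      rw [(Y.A n).pr_r0 j]
      exact hflat n j
  obtain ⟨Z, -⟩ := D.exists_frm hp2 hχ (Υ := Empty) m (Nat.card (ResidueField 𝒪))
    (fun n u => u.elim) (fun n u => u.elim) le_rfl T hT1
    (fun n π hπ δ hδ _ f hf => by
      rw [PairHom.h1_mk]
      apply hT2
      have h1 := flatE_of_flatM hp2 (hfl n) hδ (RT8J.map_pi_of_red π hπ (Y.A n).red) hπ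
      have h2 : (fun γ : Flat.GP p =>
          (((((ptd (SQ D.S (D.q n))).loc ⟨ExtCitation.pPrime p, subset_SQ D.hpS⟩
            (twAct 1 rbar)).z1 f).1 γ : ad0 (ResidueField 𝒪)) : M2 (ResidueField 𝒪))) =
          fun γ => psi (Y.A n).r0 rbar δ (localGaloisToGlobal p γ) := by
        funext γ
        exact hf _
      rw [h2]
      exact h1)
  exact ⟨Z⟩

section ord

variable (hp2 : p ≠ 2) (hχ : CycChar p χ) (hp𝒪 : (p : 𝒪) ∈ maximalIdeal 𝒪)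
  (hord : ∀ n j, OrdAt p χ (Y.C n j).r) (b : Bas p χ rbar) {φ τ : GQ}
  (hpair : Pair p (Pl (ExtCitation.pPrime p)) φ τ)

include D hord in
omit [IsNoetherianRing 𝒪] [IsAdicComplete (maximalIdeal 𝒪) 𝒪] [Finite (ResidueField 𝒪)] in
/-- local data at `p` for the joint rings -/
theorem TanData.ordLoc (n : ℕ) : OrdLoc p χ (Y.A n).r0 (b.g (Y.A n).r0) :=
  b.ordLoc (Y.A n).red (OrdAt.of_family (fun j => (Y.A n).pr j) (Y.A n).inj fun j => by
      rw [(Y.A n).pr_r0 j]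
      exact hord n j) (jring_det (Y.A n) (D.det n))

/-- residue map as an algebra map -/
def piAlg {R : Type} [CommRing R] [Algebra 𝒪 R] (π : R →+* ResidueField 𝒪)
    (hπ : ∀ o, π (algebraMap 𝒪 R o) = residue 𝒪 o) : R →ₐ[𝒪] ResidueField 𝒪 :=
  { π with commutes' := hπ }

omit [IsNoetherianRing 𝒪] [IsAdicComplete (maximalIdeal 𝒪) 𝒪] [Finite (ResidueField 𝒪)] in
theorem mapRep_piAlg {n : ℕ} {π : (Y.A n).R →+* ResidueField 𝒪}
    (hπ : ∀ o, π (algebraMap 𝒪 _ o) = residue 𝒪 o) :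
    mapRep (piAlg π hπ : (Y.A n).R →+* ResidueField 𝒪) (Y.A n).r0 = rbar :=
  MonoidHom.ext fun σ => RT8J.map_pi_of_red π hπ (Y.A n).red σ

omit [IsNoetherianRing 𝒪] [IsAdicComplete (maximalIdeal 𝒪) 𝒪] [Finite (ResidueField 𝒪)] in
theorem g_pi {n : ℕ} {π : (Y.A n).R →+* ResidueField 𝒪}
    (hπ : ∀ o, π (algebraMap 𝒪 _ o) = residue 𝒪 o) :
    (b.g (Y.A n).r0).map π = b.g rbar := by
  have h1 := b.g_map (piAlg π hπ) (Y.A n).r0
  rw [mapRep_piAlg hπ] at h1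
  exact h1

omit [IsNoetherianRing 𝒪] [IsAdicComplete (maximalIdeal 𝒪) 𝒪] [Finite (ResidueField 𝒪)] in
theorem isUnit_g_pi {n : ℕ} {π : (Y.A n).R →+* ResidueField 𝒪}
    (hπ : ∀ o, π (algebraMap 𝒪 _ o) = residue 𝒪 o) : IsUnit ((b.g (Y.A n).r0).map π).det := by
  rw [g_pi b hπ, isUnit_iff_ne_zero]
  exact b.det

omit [IsNoetherianRing 𝒪] [IsAdicComplete (maximalIdeal 𝒪) 𝒪] [Finite (ResidueField 𝒪)] in
theorem isUnit_gn (n : ℕ) : IsUnit (b.g (Y.A n).r0).det := b.isUnit_det (Y.A n).red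

omit [IsNoetherianRing 𝒪] [IsAdicComplete (maximalIdeal 𝒪) 𝒪] [Finite (ResidueField 𝒪)] in
theorem pi_z {n : ℕ} {π : (Y.A n).R →+* ResidueField 𝒪}
    (hπ : ∀ o, π (algebraMap 𝒪 _ o) = residue 𝒪 o) (φ : GQ) :
    π (b.z (Y.A n).r0 φ) = b.z rbar φ := by
  have h1 := b.map_z (piAlg π hπ) (Y.A n).r0 (isUnit_gn b n) φ
  rw [mapRep_piAlg hπ] at h1
  exact h1

omit [IsNoetherianRing 𝒪] [IsAdicComplete (maximalIdeal 𝒪) 𝒪] [Finite (ResidueField 𝒪)] in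
theorem pi_v {n : ℕ} {π : (Y.A n).R →+* ResidueField 𝒪}
    (hπ : ∀ o, π (algebraMap 𝒪 _ o) = residue 𝒪 o) (τ : GQ) :
    π (b.v (Y.A n).r0 τ) = b.v rbar τ := by
  have h1 := b.map_v (piAlg π hπ) (Y.A n).r0 (isUnit_gn b n) τ
  rw [mapRep_piAlg hπ] at h1
  exact h1

include D hχ hp𝒪 hord hpair in
/-- `(z² - 1) v = 0` in the joint rings -/
theorem TanData.sq_mul (n : ℕ) :
    (b.z (Y.A n).r0 φ ^ 2 - 1) * b.v (Y.A n).r0 τ = 0 := by
  have hfin : Finite (ResidueField (Y.A n).R) := by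
    refine Finite.of_surjective
      (fun x : ResidueField 𝒪 => ResidueField.map (algebraMap 𝒪 (Y.A n).R) x) fun y => ?_
    obtain ⟨o, ho⟩ := (Y.A n).surj y
    exact ⟨residue 𝒪 o, by rw [← ho]; exact ResidueField.map_residue _ _⟩
  have hpR : (p : (Y.A n).R) ∈ maximalIdeal (Y.A n).R := by
    rw [← map_natCast (algebraMap 𝒪 (Y.A n).R)]
    exact map_nonunit (algebraMap 𝒪 (Y.A n).R) _ hp𝒪
  exact sq_sub_one_mul hχ hp𝒪 hpR (Y.A n).cont (D.ordLoc hord b n) hpair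

include D hχ hp𝒪 hord hpair in
/-- if the residual monodromy vanishes then `rbar τ = 1` -/
theorem TanData.rbar_tau (h0 : b.v rbar τ = 0) : rbar τ = 1 := by
  obtain ⟨π, hπ⟩ := RT8J.exists_pi (𝒪 := 𝒪) (R := (Y.A 0).R) (Y.A 0).surj
  have hL := D.ordLoc hord b 0
  have hg' := isUnit_g_pi b (Y := Y) (n := 0) hπ
  have hM := D.mdef hχ 0 hπ
  have h1 : (cj (b.g (Y.A 0).r0) hL.unit (Y.A 0).r0 τ).map π = 1 := by
    have hD := hL.tri.diag (inertia_le_decomp hpair.tau_mem)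
    rw [hL.tri.quo τ hpair.tau_mem, mul_one, hχ.eq_one hp𝒪 hpair.tau_mu, map_one] at hD
    apply ext_two
    · rw [Matrix.map_apply, hD, map_one]; rfl
    · exact (pi_v b hπ τ).trans h0
    · rw [Matrix.map_apply, hL.tri.low τ (inertia_le_decomp hpair.tau_mem), map_zero]; rfl
    · rw [Matrix.map_apply, hL.tri.quo τ hpair.tau_mem, map_one]; rfl
  rw [cj_map hM hL hg'] at h1
  rw [cj_back _ hg' rbar τ, h1, mul_one, Matrix.mul_nonsing_inv _ hg']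

include D hχ hp𝒪 hord hpair in
/-- the Frobenius eigenvalue is a sign in the strict case -/
theorem TanData.sq_eq_one (hτ : rbar τ ≠ 1) (n : ℕ) : b.z (Y.A n).r0 φ ^ 2 = 1 := by
  obtain ⟨π, hπ⟩ := RT8J.exists_pi (𝒪 := 𝒪) (R := (Y.A n).R) (Y.A n).surj
  have h1 := D.sq_mul hχ hp𝒪 hord b hpair n
  have hv : IsUnit (b.v (Y.A n).r0 τ) := by
    by_contra hcon
    have h2 : b.v (Y.A n).r0 τ ∈ maximalIdeal (Y.A n).R := hcon
    rw [← RT8J.pi_eq_zero_iff π hπ, pi_v b hπ] at h2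
    exact hτ (D.rbar_tau hχ hp𝒪 hord b hpair h2)
  rw [hv.mul_left_eq_zero, sub_eq_zero] at h1
  exact h1

/-- the residual line -/
noncomputable def Bas.w : Fin 2 → ResidueField 𝒪 := b.g rbar *ᵥ v0 (ResidueField 𝒪)

include D hχ hp𝒪 hord hpair in
/-- stability of the residual line -/
theorem TanData.stable [Algebra (ZMod p) (ResidueField 𝒪)] (hz : b.z rbar φ ^ 2 = 1)
    (γ : Γl (ExtCitation.pPrime p)) :
    ∃ x : ResidueField 𝒪, rbar (rl (ExtCitation.pPrime p) γ) *ᵥ b.w = x • b.w ∧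
      x ^ 2 = algebraMap (ZMod p) (ResidueField 𝒪)
        (ExtCitation.cycloChar p (rl (ExtCitation.pPrime p) γ) : ZMod p) *
        (rbar (rl (ExtCitation.pPrime p) γ)).det := by
  obtain ⟨π, hπ⟩ := RT8J.exists_pi (𝒪 := 𝒪) (R := (Y.A 0).R) (Y.A 0).surj
  have hL := D.ordLoc hord b 0
  have hg' := isUnit_g_pi b (Y := Y) (n := 0) hπ
  have hM := D.mdef hχ 0 hπ
  have h1 := stable_line hM hχ hp𝒪 hπ hL hg' (fun σ hσ =>
    sign_quot hM hL hpair.frob (by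
      have h2 : π (cj (b.g (Y.A 0).r0) hL.unit (Y.A 0).r0 φ 1 1) = b.z rbar φ := pi_z b hπ φ
      rw [h2, hz]) hσ) γ
  rw [g_pi b hπ] at h1
  exact h1

omit [IsNoetherianRing 𝒪] [IsAdicComplete (maximalIdeal 𝒪) 𝒪] [Finite (ResidueField 𝒪)] in
theorem Bas.w_ne : b.w ≠ 0 := by
  intro h0
  have hg' : IsUnit (b.g rbar).det := isUnit_iff_ne_zero.mpr b.det
  have h1 : (b.g rbar)⁻¹ *ᵥ (b.g rbar *ᵥ v0 (ResidueField 𝒪)) = 0 := by
    have h2 : b.g rbar *ᵥ v0 (ResidueField 𝒪) = 0 := h0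
    rw [h2, mulVec_zero]
  rw [mulVec_mulVec, Matrix.nonsing_inv_mul _ hg', one_mulVec] at h1
  have h2 := congrFun h1 0
  simp at h2

include D hp2 hχ hp𝒪 hord b hpair in
/-- **Framings, strict case.** -/
theorem TanData.exists_frm_st (hτ : rbar τ ≠ 1) : Nonempty (RT8.Frm Y Empty m) := by
  have iC : CharP (ResidueField 𝒪) p := D.rd.charP hp.out
  let _ : Algebra (ZMod p) (ResidueField 𝒪) := ZMod.algebra (ResidueField 𝒪) p
  have hsq := D.sq_eq_one hχ hp𝒪 hord b hpair hτ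
  have hzb : b.z rbar φ ^ 2 = 1 := by
    obtain ⟨π, hπ⟩ := RT8J.exists_pi (𝒪 := 𝒪) (R := (Y.A 0).R) (Y.A 0).surj
    rw [← pi_z b hπ φ, ← map_pow, hsq 0, map_one]
  have hcard := card_Lstr_le (D.stable hχ hp𝒪 hord b hpair hzb) b.w_ne rfl D.rd.cont
  obtain ⟨Z, -⟩ := D.exists_frm hp2 hχ (Υ := Empty) m (Nat.card (ResidueField 𝒪))
    (fun n u => u.elim) (fun n u => u.elim) le_rfl
    (Lstr rbar b.w (ExtCitation.pPrime p)) hcard
    (fun n π hπ δ hδ _ f hf => by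
      have h1 := mem_Lstr (D.mdef hχ n hπ) (D.ordLoc hord b n) (isUnit_g_pi b hπ)
        (D.rd.two_ne hp2) hpair.frob hδ (der_sign (D.rd.two_ne hp2) hδ (hsq n)) D.rd.cont
        (subset_SQ D.hpS) f hf
      rw [g_pi b hπ] at h1
      exact h1)
  exact ⟨Z⟩

include D hp2 hχ hp𝒪 hord hpair in
/-- **Framings, case (B).** -/
theorem TanData.exists_frm_B (hτ : rbar τ = 1) (z₀ : 𝒪) (hz₀ : z₀ ^ 2 = 1)
    (hres : b.z rbar φ = residue 𝒪 z₀) :
    ∃ g' : ℕ, g' + 1 = m ∧ ∃ Z : RT8.Frm Y Bool g',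
      (∀ n, Z.s n false = b.z (Y.A n).r0 φ - algebraMap 𝒪 _ z₀) ∧
      (∀ n, Z.s n true = b.v (Y.A n).r0 τ) ∧ ∀ n, Z.s n false * Z.s n true = 0 := by
  have iC : CharP (ResidueField 𝒪) p := D.rd.charP hp.out
  let _ : Algebra (ZMod p) (ResidueField 𝒪) := ZMod.algebra (ResidueField 𝒪) p
  have h2k := D.rd.two_ne hp2
  have hzb : b.z rbar φ ^ 2 = 1 := by rw [hres, ← map_pow, hz₀, map_one]
  obtain ⟨γτ, hγτ⟩ := exists_rl (ExtCitation.pPrime p)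
    (inertia_le_decomp hpair.tau_mem : τ ∈ (Pl (ExtCitation.pPrime p)).decompositionSubgroup ℚ)
  have hcard := card_Lsu_le (D.stable hχ hp𝒪 hord b hpair hzb) b.w_ne rfl D.rd.cont
    (γτ := γτ) (by rw [hγτ]; exact hτ) (by rw [hγτ]; exact hpair.tau_p)
  let s : ∀ n, Bool → (Y.A n).R := fun n t => if t then b.v (Y.A n).r0 τ else
    b.z (Y.A n).r0 φ - algebraMap 𝒪 _ z₀
  have hvb : b.v rbar τ = 0 := b.v_eq_zero (isUnit_iff_ne_zero.mpr b.det) hτ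
  have hs : ∀ n u, s n u ∈ maximalIdeal (Y.A n).R := by
    intro n u
    obtain ⟨π, hπ⟩ := RT8J.exists_pi (𝒪 := 𝒪) (R := (Y.A n).R) (Y.A n).surj
    rw [← RT8J.pi_eq_zero_iff π hπ]
    cases u
    · show π (b.z (Y.A n).r0 φ - algebraMap 𝒪 _ z₀) = 0
      rw [map_sub, pi_z b hπ, hres, hπ, sub_self]
    · show π (b.v (Y.A n).r0 τ) = 0
      rw [pi_v b hπ, hvb]
  have hloc : ∀ n (π : (Y.A n).R →+* ResidueField 𝒪),
      (∀ o, π (algebraMap 𝒪 _ o) = residue 𝒪 o) → ∀ δ : (Y.A n).R → ResidueField 𝒪,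
      IsDer 𝒪 π δ → (∀ u, δ (s n u) = 0) →
      ∀ f : Z1 (sL (SQ D.S (D.q n))) (twAct 1 rbar),
      (∀ σ, ((f.1 σ : ad0 (ResidueField 𝒪)) : M2 (ResidueField 𝒪)) = psi (Y.A n).r0 rbar δ σ) →
      ((ptd (SQ D.S (D.q n))).loc ⟨ExtCitation.pPrime p, subset_SQ D.hpS⟩ (twAct 1 rbar)).h1
        (H1.mk (sL (SQ D.S (D.q n))) (twAct 1 rbar) f) ∈
          Lsu rbar b.w (ExtCitation.pPrime p) γτ := by
    intro n π hπ δ hδ hδs f hf
    have hδz : δ (b.z (Y.A n).r0 φ) = 0 := by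
      have h1 := hδs false
      have h3 : δ (b.z (Y.A n).r0 φ - algebraMap 𝒪 _ z₀) = 0 := h1
      rw [hδ.sub, hδ.alg, sub_zero] at h3
      exact h3
    have hδv : δ (b.v (Y.A n).r0 τ) = 0 := hδs true
    have h1 := mem_Lsu (D.mdef hχ n hπ) (D.ordLoc hord b n) (isUnit_g_pi b hπ)
      h2k hχ hp𝒪 hpair hγτ hδ hδz hδv D.rd.cont (subset_SQ D.hpS) f hf
    rw [g_pi b hπ] at h1
    exact h1
  have huv : ∀ n, s n false * s n true = 0 := by
    intro n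
    obtain ⟨π, hπ⟩ := RT8J.exists_pi (𝒪 := 𝒪) (R := (Y.A n).R) (Y.A n).surj
    have h1 := D.sq_mul hχ hp𝒪 hord b hpair n
    have hu : IsUnit (b.z (Y.A n).r0 φ + algebraMap 𝒪 _ z₀) := by
      by_contra hcon
      have h2 : b.z (Y.A n).r0 φ + algebraMap 𝒪 _ z₀ ∈ maximalIdeal (Y.A n).R := hcon
      rw [← RT8J.pi_eq_zero_iff π hπ, map_add, pi_z b hπ, hπ, hres, ← two_mul] at h2
      have h3 := (mul_eq_zero.1 h2).resolve_left h2k
      have h4 := congrArg (residue 𝒪) hz₀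
      rw [map_pow, h3, map_one, zero_pow two_ne_zero] at h4
      exact zero_ne_one h4
    have h3 : (b.z (Y.A n).r0 φ + algebraMap 𝒪 _ z₀) *
        ((b.z (Y.A n).r0 φ - algebraMap 𝒪 _ z₀) * b.v (Y.A n).r0 τ) = 0 := by
      have h4 : algebraMap 𝒪 (Y.A n).R z₀ ^ 2 = 1 := by rw [← map_pow, hz₀, map_one]
      linear_combination h1 - b.v (Y.A n).r0 τ * h4
    rw [hu.mul_right_eq_zero] at h3
    exact h3
  -- the number of Taylor–Wiles primes is positive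
  obtain ⟨g', rfl⟩ : ∃ g', g' + 1 = m := by
    rcases Nat.eq_zero_or_pos m with h0 | h0
    · exfalso
      obtain ⟨π, hπ⟩ := RT8J.exists_pi (𝒪 := 𝒪) (R := (Y.A 0).R) (Y.A 0).surj
      obtain ⟨h1, h3⟩ := D.bound hp2 hχ 1 0 (s 0) hπ (Lsu rbar b.w (ExtCitation.pPrime p) γτ)
        (by rw [one_mul]; exact hcard) (hloc 0 π hπ)
      have h4 : Finite (TanX (𝒪 := 𝒪) π (Y.A 0).r0 Y.φ Y.τ (s 0)) := h1
      have h5 : Nonempty (TanX (𝒪 := 𝒪) π (Y.A 0).r0 Y.φ Y.τ (s 0)) :=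
        ⟨⟨0, zero_mem_TanX π (Y.A 0).r0 Y.φ Y.τ (s 0)⟩⟩
      have h6 : 0 < Nat.card (TanX (𝒪 := 𝒪) π (Y.A 0).r0 Y.φ Y.τ (s 0)) := Nat.card_pos
      have h7 : 1 < Nat.card (ResidueField 𝒪) := Finite.one_lt_card
      have h9 : Nat.card (ResidueField 𝒪) ^ m * 1 = 1 := by
        have h10 : Nat.card (ResidueField 𝒪) ^ m = Nat.card (ResidueField 𝒪) ^ 0 :=
          congrArg (Nat.card (ResidueField 𝒪) ^ ·) h0
        rw [h10, pow_zero, one_mul]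
      rw [h9] at h3
      have h8 := Nat.mul_le_mul_right (Nat.card (ResidueField 𝒪)) h6
      rw [Nat.succ_eq_add_one, zero_add, one_mul] at h8
      omega
    · exact ⟨m - 1, by omega⟩
  obtain ⟨Z, hZ⟩ := D.exists_frm hp2 hχ (Υ := Bool) g' 1 s hs (by rw [mul_one, pow_succ])
      (Lsu rbar b.w (ExtCitation.pPrime p) γτ) (by rw [one_mul]; exact hcard) hloc
  refine ⟨g', rfl, Z, fun n => ?_, fun n => ?_, fun n => ?_⟩
  · rw [hZ]; rfl
  · rw [hZ]; rfl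
  · rw [hZ]; exact huv n

end ord

end main

end Fermat.Agent.RTan
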