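import Fermat.Agent.RTan.FlatE
import Fermat.Agent.RTan.Final2
import Fermat.Agent.Flat.FlatG

/-!
# Flat residual representations
-/

set_option autoImplicit false

namespace Fermat.Agent.RTan

open IsLocalRing Matrix
open Fermat.Agent.DefRing (M2 GQ mapRep)
open Fermat.Agent.HopfOrder (IsFlatMod)

section ext

variable {k : Type} [Field k] {rbar : GQ →* M2 k}

/-- the residual module -/
def ResM (k : Type) : Type := Fin 2 → k

noncomputable instance : AddCommGroup (ResM k) := inferInstanceAs (AddCommGroup (Fin 2 → k))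

/-- the Galois action on the residual module -/
@[reducible] noncomputable def resAction (rbar : GQ →* M2 k) :
    DistribMulAction GQ (ResM k) where
  smul σ z := rbar σ *ᵥ (z : Fin 2 → k)
  one_smul z := by
    have h : ∀ z : Fin 2 → k, rbar 1 *ᵥ z = z := fun z => by rw [map_one, one_mulVec]
    exact h z
  mul_smul σ τ z := by
    have h : ∀ z : Fin 2 → k, rbar (σ * τ) *ᵥ z = rbar σ *ᵥ (rbar τ *ᵥ z) := fun z => by
      rw [map_mul, mulVec_mulVec]
    exact h z
  smul_zero σ := by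
    show rbar σ *ᵥ (0 : Fin 2 → k) = 0
    rw [mulVec_zero]
  smul_add σ z w := mulVec_add (rbar σ) (z : Fin 2 → k) (w : Fin 2 → k)

end ext

section main

variable {p : ℕ} [hp : Fact p.Prime] {𝒪 : Type} [CommRing 𝒪] [IsLocalRing 𝒪]
  {R : Type} [CommRing R] [Algebra 𝒪 R]
  {π : R →+* ResidueField 𝒪} {r : GQ →* M2 R} {rbar : GQ →* M2 (ResidueField 𝒪)}

/-- Flatness of the residual module. -/
theorem isFlatMod_res [Finite (ResidueField 𝒪)] (h : FlatM p 𝒪 r)
    (hred : ∀ σ, (r σ).map π = rbar σ)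
    (hπ : ∀ o, π (algebraMap 𝒪 R o) = residue 𝒪 o) :
    @IsFlatMod p (ResM (ResidueField 𝒪)) _ (resAction rbar) := by
  obtain ⟨M, i1, i2, i3, f, h1, h2, h3⟩ := h 1
  rw [pow_one] at h3
  let iE := resAction rbar
  have hker : ∀ y ∈ (maximalIdeal 𝒪).map (algebraMap 𝒪 R), π y = 0 := by
    intro y hy
    refine Submodule.span_induction ?_ ?_ ?_ ?_ hy
    · rintro _ ⟨o, ho, rfl⟩
      rw [hπ]; exact (residue_eq_zero_iff o).mpr ho
    · exact map_zero _
    · rintro a b _ _ ha hb
      rw [map_add, ha, hb, add_zero]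
    · rintro a b _ hb
      rw [smul_eq_mul, map_mul, hb, mul_zero]
  let N : AddSubgroup M := f.range
  have hN : ∀ (σ : GQ), ∀ x ∈ N, σ • x ∈ N := by
    rintro σ _ ⟨x, rfl⟩
    exact ⟨r σ *ᵥ x, h2 σ x⟩
  let iN : DistribMulAction GQ N :=
    { smul := fun σ x => ⟨σ • x.1, hN σ x.1 x.2⟩
      one_smul := fun x => Subtype.ext (one_smul _ _)
      mul_smul := fun σ τ x => Subtype.ext (mul_smul _ _ _)
      smul_zero := fun σ => Subtype.ext (smul_zero _)
      smul_add := fun σ x y => Subtype.ext (smul_add _ _ _) }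
  have hNf : IsFlatMod p N := h1.of_injective N.subtype Subtype.val_injective fun σ x => rfl
  let ev : (Fin 2 → R) → ResM (ResidueField 𝒪) := fun x => fun i => π (x i)
  have hev : ∀ x y, f x = f y → ev x = ev y := by
    intro x y hxy
    funext i
    have := hker _ (h3 (x - y) (by rw [map_sub, hxy, sub_self]) i)
    rw [Pi.sub_apply, map_sub, sub_eq_zero] at this
    exact this
  have hadd : ∀ x y, ev (x + y) = ev x + ev y := fun x y => funext fun i => map_add _ _ _
  have hG : ∀ (σ : GQ) x, ev (r σ *ᵥ x) = σ • ev x := by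
    intro σ x
    funext i
    show _ = (rbar σ *ᵥ fun i => π (x i)) i
    rw [← hred]
    show π ((r σ *ᵥ x) i) = _
    simp only [mulVec, dotProduct, Fin.sum_univ_two, map_add, map_mul, Matrix.map_apply]
  choose lift hlift using fun y : N => y.2
  have hl : ∀ (y : N) x, f x = y.1 → ev (lift y) = ev x := fun y x hx =>
    hev _ _ ((hlift y).trans hx.symm)
  let F : N →+ ResM (ResidueField 𝒪) := AddMonoidHom.mk' (fun y => ev (lift y)) fun x y => by
      rw [hl (x + y) (lift x + lift y) (by rw [map_add, hlift, hlift]; rfl), hadd]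
  refine hNf.of_surjective F ?_ ?_
  · intro a
    choose oa hoa using fun i => residue_surjective (R := 𝒪) ((a : Fin 2 → _) i)
    refine ⟨⟨f fun i => algebraMap 𝒪 R (oa i), _, rfl⟩, ?_⟩
    show ev (lift ⟨f fun i => algebraMap 𝒪 R (oa i), _⟩) = a
    rw [hl _ _ rfl]
    funext i
    show π (algebraMap 𝒪 R (oa i)) = _
    rw [hπ, hoa]
  · intro σ y
    show ev (lift (σ • y)) = σ • ev (lift y)
    rw [← hG, hl (σ • y) (r σ *ᵥ lift y) (by rw [h2, hlift]; rfl)]

/-- **The residual representation of a flat representation is flat.** -/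
theorem flatR_of_flatM [Finite (ResidueField 𝒪)] (hp2 : p ≠ 2) (h : FlatM p 𝒪 r)
    (hred : ∀ σ, (r σ).map π = rbar σ) (hπ : ∀ o, π (algebraMap 𝒪 R o) = residue 𝒪 o) :
    haveI := Flat.setting_padic (p := p) hp2
    Flat.FlatR p (PadicAlgCl p) (Flat.Loc.inert p) (rbar.comp (localGaloisToGlobal p)) := by
  let iE := resAction rbar
  have hF : IsFlatMod p (ResM (ResidueField 𝒪)) := isFlatMod_res h hred hπ
  have hfin : Finite (ResM (ResidueField 𝒪)) := inferInstanceAs (Finite (Fin 2 → ResidueField 𝒪))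
  obtain ⟨H, i1, i2, h1, -, -, e, he, hact⟩ := hF.exists_hopfAlgebra
  exact Flat.exists_ord e hp2 he (fun s x => s • x) hact

end main

section frm

open Fermat.Agent.TWP (RD)

variable {𝒪 : Type} [CommRing 𝒪] [IsLocalRing 𝒪] [IsNoetherianRing 𝒪]
  [IsAdicComplete (maximalIdeal 𝒪) 𝒪] [Finite (ResidueField 𝒪)] {p : ℕ}
  [hp : Fact p.Prime] {rbar : GQ →* M2 (ResidueField 𝒪)} {sd : DefRing.SliceData rbar} {m : ℕ}
  {Λ J K : Type} [Fintype Λ] [DecidableEq Λ]
  {Y : RT8.Sys sd p m Λ J K} {χ : GQ → 𝒪} (D : TanData Y χ)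

include D in
/-- **Framings, flat case**, final form. -/
theorem TanData.exists_frm_fl [Finite J] (hp2 : p ≠ 2) (hχ : CycChar p χ)
    (hflat : ∀ n j, FlatM p 𝒪 (Y.C n j).r) : Nonempty (RT8.Frm Y Empty m) := by
  refine D.exists_frm_flat hp2 hχ hflat (Flat.flatBound_RD hp2 D.rd ?_)
  obtain ⟨π, hπ⟩ := RT8J.exists_pi (𝒪 := 𝒪) (R := (Y.A 0).R) (Y.A 0).surj
  have hfl : FlatM p 𝒪 (Y.A 0).r0 :=
    FlatM.of_family (fun j => (Y.A 0).pr j) (Y.A 0).inj fun j => by
      rw [(Y.A 0).pr_r0 j]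
      exact hflat 0 j
  exact flatR_of_flatM hp2 hfl (RT8J.map_pi_of_red π hπ (Y.A 0).red) hπ

end frm

end Fermat.Agent.RTan
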