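import Fermat.Agent.PTLocal.LocHyp


/-!
# The order of `H¹(ℚ_p, μ_p)`
-/

set_option autoImplicit false

namespace Fermat.Agent.RTan

open Fermat.Agent.PT Fermat.Agent.PTLocal IntermediateField

section count

variable {G : Type*} [Group G] {A B C : Type*} [AddCommGroup A] [AddCommGroup B] [AddCommGroup C]
  {ρA : Act G A} {ρB : Act G B} {ρC : Act G C} {L : Levels G}

/-- the order of the image of `H¹(A)` in `H¹(B)` -/
theorem card_image_mul (S : SES ρA ρB ρC) (hB : Smooth L ρB) :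
    Nat.card (S.i.h1 L).range * Nat.card (H0 ρC) * Nat.card (H0 ρA) =
      Nat.card (H1 L ρA) * Nat.card (H0 ρB) := by
  have e0 : Nat.card (H0 ρA) = Nat.card S.i.h0.range := by
    rw [← Nat.card_congr (AddMonoidHom.ofInjective S.inj_H0).toEquiv]
  have e1 := card_eq_of_exact S.i.h0 S.p.h0 S.exact_H0_left
  have e2 := card_eq_of_exact S.p.h0 (S.δ0 hB) (S.exact_H0_right hB)
  have e3 := card_eq_of_exact (S.δ0 hB) (S.i.h1 L) (S.exact_H1_left hB)
  rw [e0, e1, e2, e3]
  ring

end count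

section kum

variable {q : ℕ} [hq : Fact q.Prime] {p : ℕ} [hp : Fact p.Prime]
variable {G : Type*} [Group G] {L : Levels G} (hG : LGal ℚ_[q] (PadicAlgCl q) L)
  {τ : Act G (ZMod p)} {i : ZMod p →+ Additive (PadicAlgCl q)ˣ} (hi : Function.Injective i)
  (hc : ∀ g a, i (τ g a) = hG.act g (i a))

include hi hc in
theorem card_H1_mu_index : Nat.card (H1 L τ) =
    (powMonoidHom p : hG.Eˣ →* hG.Eˣ).range.index := by
  have hs : Function.Surjective ((kumMu hG hi hc).δ0 hG.smooth) := fun x =>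
    ((kumMu hG hi hc).exact_H1_left hG.smooth x).1 (hG.h90 _)
  have h1 : Nat.card (H1 L τ) =
      ((kumMu hG hi hc).δ0 hG.smooth).ker.index := by
    rw [AddSubgroup.index_ker]
    rw [AddMonoidHom.range_eq_top.2 hs, AddSubgroup.card_top]
  rw [h1, ← AddSubgroup.index_comap_of_surjective _ hG.eH0_bijective.2,
    ← Subgroup.index_toAddSubgroup]
  congr 1
  ext x
  rw [AddSubgroup.mem_comap, AddMonoidHom.mem_ker, (kumMu hG hi hc).exact_H0_right hG.smooth]
  constructor
  · rintro ⟨y, hy⟩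
    obtain ⟨y, rfl⟩ := hG.eH0_bijective.2 y
    refine ⟨Additive.toMul y, ?_⟩
    have h3 : hG.eH0 (p • y) = hG.eH0 x := by
      rw [map_nsmul]; exact hy
    have h4 := hG.eH0_bijective.1 h3
    rw [← h4]
    rfl
  · rintro ⟨y, hy⟩
    refine ⟨hG.eH0 (Additive.ofMul y), ?_⟩
    have h3 : x = p • (Additive.ofMul y) := by
      apply Additive.toMul.injective
      exact hy.symm
    rw [h3, map_nsmul]
    rfl

include hi hc in
theorem kc_eq_card_H0 : kc (pmul (Additive hG.Eˣ) p) ⊤ = Nat.card (H0 τ) := by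
  unfold kc
  rw [inf_top_eq]
  let e := AddEquiv.ofBijective hG.eH0 hG.eH0_bijective
  have hmem : ∀ x : (pmul (Additive hG.Eˣ) p).ker, ∃ y : H0 τ, (kumMu hG hi hc).i.h0 y =
      hG.eH0 x.1 := by
    intro x
    refine ((kumMu hG hi hc).exact_H0_left _).1 ?_
    have h1 : p • x.1 = 0 := x.2
    have h2 : (kumMu hG hi hc).p.h0 (hG.eH0 x.1) = p • hG.eH0 x.1 := rfl
    rw [h2, ← map_nsmul, h1, map_zero]
  choose f hf using hmem
  refine Nat.card_congr (Equiv.ofBijective f ⟨?_, ?_⟩)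
  · intro x y h
    have h1 := hf x
    rw [h, hf y] at h1
    exact Subtype.ext (hG.eH0_bijective.1 h1.symm)
  · intro y
    obtain ⟨x, hx⟩ := hG.eH0_bijective.2 ((kumMu hG hi hc).i.h0 y)
    have h1 : x ∈ (pmul (Additive hG.Eˣ) p).ker := by
      rw [AddMonoidHom.mem_ker]
      apply hG.eH0_bijective.1
      rw [map_zero, pmul_apply, map_nsmul, hx]
      exact ((kumMu hG hi hc).exact_H0_left _).2 ⟨y, rfl⟩
    refine ⟨⟨x, h1⟩, ?_⟩
    apply (kumMu hG hi hc).inj_H0
    rw [hf ⟨x, h1⟩, hx]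

include hi hc in
theorem card_H1_mu (hj : Function.Bijective hG.j) :
    Nat.card (H1 L τ) = p * p ^ (if p = q then 1 else 0) * Nat.card (H0 τ) := by
  have hfd := hG.finiteDimensional_E
  rw [card_H1_mu_index hG hi hc, index_pow_eq_cc, cc_top_alg q hG.E p, kc_eq_card_H0 hG hi hc]
  congr 3
  unfold dexpA
  have hE : hG.E = ⊥ := by
    have h1 : hG.j.range = ⊤ := MonoidHom.range_eq_top.2 hj.2
    unfold LGal.E
    rw [h1, ← IntermediateField.fixingSubgroup_bot, InfiniteGalois.fixedField_fixingSubgroup]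
  rw [hE, IntermediateField.finrank_bot]

end kum

end Fermat.Agent.RTan
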