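import Fermat.Agent.RTan.Str
import Fermat.Agent.RTan.LocSurj

/-!
# The local condition at `p` in the semistable/unit case
-/

set_option autoImplicit false

namespace Fermat.Agent.RTan

open Fermat.Agent.PT Fermat.Agent.PTLocal Fermat.Agent.TWP Matrix
open Fermat.Agent.PTC (allL muA exists_allL_le exists_zeta cyclo_spec mulAct)

section kummer

variable (p : ℕ) [hp : Fact p.Prime]

/-- the Kummer cocycle of `p` -/
theorem exists_kummer_cocycle : ∃ (ϖ : Qb) (c : TWP.GQ → ZMod p), ϖ ^ p = (p : Qb) ∧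
    (∀ σ τ, c (σ * τ) = c σ + (ExtCitation.cycloChar p σ : ZMod p) * c τ) ∧
    ∀ σ, c σ = 0 ↔ σ ϖ = ϖ := by
  have hne : NeZero p := ⟨hp.out.ne_zero⟩
  obtain ⟨ζ, hζ⟩ := exists_zeta p
  obtain ⟨ϖ, hϖ⟩ := IsAlgClosed.exists_pow_nat_eq (p : Qb) hp.out.pos
  have hp0 : (p : Qb) ≠ 0 := by exact_mod_cast hp.out.ne_zero
  have hϖ0 : ϖ ≠ 0 := by
    rintro rfl
    rw [zero_pow hp.out.ne_zero] at hϖ
    exact hp0 hϖ.symm
  have hex : ∀ σ : TWP.GQ, ∃ i : ZMod p, σ ϖ = ζ ^ i.val * ϖ := by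
    intro σ
    have h1 : (σ ϖ / ϖ) ^ p = 1 := by
      rw [div_pow, ← map_pow, hϖ, map_natCast, div_self hp0]
    obtain ⟨i, hi, hi2⟩ := hζ.eq_pow_of_pow_eq_one h1
    refine ⟨(i : ZMod p), ?_⟩
    rw [ZMod.val_natCast_of_lt hi, hi2, div_mul_cancel₀ _ hϖ0]
  choose c hc using hex
  have hinj : ∀ i j : ZMod p, ζ ^ i.val = ζ ^ j.val → i = j := by
    intro i j h
    have h1 := hζ.pow_inj (ZMod.val_lt i) (ZMod.val_lt j) h
    exact ZMod.val_injective p h1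
  have hadd : ∀ i j : ZMod p, ζ ^ (i + j).val = ζ ^ i.val * ζ ^ j.val := by
    intro i j
    rw [← pow_add, ZMod.val_add, ← pow_mod_orderOf ζ (i.val + j.val), ← hζ.eq_orderOf]
  have hmul : ∀ i j : ZMod p, ζ ^ (i * j).val = (ζ ^ i.val) ^ j.val := by
    intro i j
    rw [← pow_mul, ZMod.val_mul, ← pow_mod_orderOf ζ (i.val * j.val), ← hζ.eq_orderOf]
  refine ⟨ϖ, c, hϖ, fun σ τ => hinj _ _ ?_, fun σ => ?_⟩
  · apply mul_right_cancel₀ hϖ0
    rw [← hc, hadd, hmul, AlgEquiv.mul_apply, hc τ, map_mul, map_pow, hc σ,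
      ← cyclo_spec p σ hζ.pow_eq_one]
    ring
  · constructor
    · intro h
      rw [hc, h, ZMod.val_zero, pow_zero, one_mul]
    · intro h
      apply hinj
      rw [ZMod.val_zero, pow_zero]
      apply mul_right_cancel₀ hϖ0
      rw [← hc, h, one_mul]

end kummer

section main

variable {k : Type} [Field k] {r : TWP.GQ →* M2 k} {v : Fin 2 → k} {q : Nat.Primes}

variable (r v q) in
/-- the strict local condition with vanishing at a Kummer element -/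
def Lsu (γτ : Γl q) : AddSubgroup (H1 (allL.comap (rl q)) ((twAct 1 r).comp (rl q))) where
  carrier := {x | ∃ f : Z1 (allL.comap (rl q)) ((twAct 1 r).comp (rl q)),
    H1.mk _ _ f = x ∧ (∀ γ, ((f.1 γ : ad0 k) : M2 k) *ᵥ v = 0) ∧
      ((f.1 γτ : ad0 k) : M2 k) = 0}
  zero_mem' := ⟨0, map_zero _, fun γ => by
    show (0 : M2 k) *ᵥ v = 0
    rw [zero_mulVec], rfl⟩
  add_mem' := by
    rintro _ _ ⟨f, rfl, hf, hf'⟩ ⟨g, rfl, hg, hg'⟩
    refine ⟨f + g, map_add _ _ _, fun γ => ?_, ?_⟩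
    · show (((f.1 γ : ad0 k) : M2 k) + ((g.1 γ : ad0 k) : M2 k)) *ᵥ v = 0
      rw [add_mulVec, hf, hg, add_zero]
    · show ((f.1 γτ : ad0 k) : M2 k) + ((g.1 γτ : ad0 k) : M2 k) = 0
      rw [hf', hg', add_zero]
  neg_mem' := by
    rintro _ ⟨f, rfl, hf, hf'⟩
    refine ⟨-f, map_neg _ _, fun γ => ?_, ?_⟩
    · show (-((f.1 γ : ad0 k) : M2 k)) *ᵥ v = 0
      rw [neg_mulVec, hf, neg_zero]
    · show -((f.1 γτ : ad0 k) : M2 k) = 0
      rw [hf', neg_zero]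

variable {p : ℕ} [hp : Fact p.Prime] [Algebra (ZMod p) k]
  (hst : ∀ γ : Γl q, ∃ x : k, r (rl q γ) *ᵥ v = x • v ∧
    x ^ 2 = algebraMap (ZMod p) k (ExtCitation.cycloChar p (rl q γ) : ZMod p) *
      (r (rl q γ)).det)

include hst in
/-- the Kummer classes of `p` in `ad⁰`. -/
theorem exists_kummer_ad (hv : v ≠ 0) {γτ : Γl q} (hτp : ∀ w : Qb, w ^ p = p → rl q γτ w ≠ w) :
    ∃ κ : k → Z1 (allL.comap (rl q)) ((twAct 1 r).comp (rl q)),
      (∀ a γ, (((κ a).1 γ : ad0 k) : M2 k) *ᵥ v = 0) ∧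
      Function.Injective fun a => (((κ a).1 γτ : ad0 k) : M2 k) := by
  obtain ⟨ϖ, c, hϖ, hc, hc0⟩ := exists_kummer_cocycle p
  have hfd : FiniteDimensional ℚ (IntermediateField.adjoin ℚ {ϖ}) :=
    IntermediateField.adjoin.finiteDimensional
      ((AlgebraicClosure.isAlgebraic ℚ).isIntegral.isIntegral ϖ)
  obtain ⟨N, hN, hNF⟩ := exists_allL_le _ hfd
  have hker : ∀ s : Γl q, rl q s ∈ N → c (rl q s) = 0 := by
    intro s hs
    rw [hc0]
    exact (IntermediateField.mem_fixingSubgroup_iff _ _).mp (hNF hs) ϖ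
      (IntermediateField.mem_adjoin_simple_self ℚ ϖ)
  let f : k → Γl q → ad0 k := fun a γ =>
    (lineHom hst).f (algebraMap (ZMod p) k (c (rl q γ)) * a)
  have hf : ∀ a, f a ∈ Z1 (allL.comap (rl q)) ((twAct 1 r).comp (rl q)) := by
    intro a
    refine mem_Z1'.2 ⟨⟨_, ⟨N, hN, rfl⟩, fun g s hs => ?_⟩, fun g s => ?_⟩
    · show (lineHom hst).f _ = (lineHom hst).f _
      rw [map_mul (rl q), hc, hker s hs, mul_zero, add_zero]
    · show (lineHom hst).f _ = (lineHom hst).f _ + ((twAct 1 r).comp (rl q)) g ((lineHom hst).f _)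
      rw [← (lineHom hst).comm, ← map_add]
      congr 1
      show _ = _ + algebraMap (ZMod p) k (ExtCitation.cycloChar p (rl q g) : ZMod p) * _
      rw [map_mul (rl q), hc, map_add, map_mul]
      ring
  refine ⟨fun a => ⟨f a, hf a⟩, fun a γ => ?_, ?_⟩
  · show (((algebraMap (ZMod p) k (c (rl q γ)) * a)) • nu v) *ᵥ v = 0
    rw [smul_mulVec, nu_mulVec_self, smul_zero]
  · intro a b hab
    have h1 : (algebraMap (ZMod p) k (c (rl q γτ)) * a) • nu v =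
      (algebraMap (ZMod p) k (c (rl q γτ)) * b) • nu v := hab
    have h2 := smul_left_injective k (nu_ne_zero hv) h1
    have h3 : algebraMap (ZMod p) k (c (rl q γτ)) ≠ 0 := by
      rw [ne_eq, map_eq_zero, hc0]
      exact hτp ϖ hϖ
    exact mul_left_cancel₀ h3 h2

include hst in
/-- **The order of the local condition.** -/
theorem card_Lsu_le [Finite k] (hv : v ≠ 0) (hq : (q : ℕ) = p)
    (hr : ∃ L : IntermediateField ℚ (AlgebraicClosure ℚ), FiniteDimensional ℚ L ∧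
      ∀ σ : TWP.GQ, (∀ x ∈ L, σ x = x) → r σ = 1)
    {γτ : Γl q} (hτ : r (rl q γτ) = 1) (hτp : ∀ w : Qb, w ^ p = p → rl q γτ w ≠ w) :
    Nat.card (Lsu r v q γτ) ≤ Nat.card (H0 ((twAct 1 r).comp (rl q))) := by
  have hk : (p : k) = 0 := by
    rw [← map_natCast (algebraMap (ZMod p) k), CharP.cast_eq_zero, map_zero]
  have hfin := (finite_loc hr hk q).h1
  obtain ⟨κ, hκ1, hκ2⟩ := exists_kummer_ad hst hv hτp
  have hev : ∀ f g : Z1 (allL.comap (rl q)) ((twAct 1 r).comp (rl q)),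
      H1.mk _ _ f = H1.mk _ _ g → ((f.1 γτ : ad0 k) : M2 k) = ((g.1 γτ : ad0 k) : M2 k) := by
    intro f g hfg
    rw [← sub_eq_zero, ← map_sub] at hfg
    obtain ⟨X, hX⟩ := H1.mk_eq_zero.1 hfg
    have h1 := congrFun hX γτ
    rw [d0_apply] at h1
    have h2 : ((twAct 1 r).comp (rl q)) γτ X = X := twAct_fix (MonoidHom.one_apply _) hτ X
    rw [h2, sub_self] at h1
    have h3 : (0 : ad0 k) = f.1 γτ - g.1 γτ := h1
    have h4 := congrArg Subtype.val (sub_eq_zero.1 h3.symm)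
    exact h4
  have hmem : ∀ x : Lsu r v q γτ × k, (x.1 : H1 _ _) + H1.mk _ _ (κ x.2) ∈ Lstr r v q := by
    rintro ⟨⟨_, f, rfl, hf, hf'⟩, a⟩
    exact AddSubgroup.add_mem _ ⟨f, rfl, hf⟩ ⟨κ a, rfl, hκ1 a⟩
  have h1 : Nat.card (Lsu r v q γτ × k) ≤ Nat.card (Lstr r v q) := by
    refine Nat.card_le_card_of_injective (fun x => ⟨_, hmem x⟩) ?_
    rintro ⟨⟨_, f, rfl, hf, hf'⟩, a⟩ ⟨⟨_, g, rfl, hg, hg'⟩, b⟩ hxy
    have h2 : H1.mk _ _ f + H1.mk _ _ (κ a) = H1.mk _ _ g + H1.mk _ _ (κ b) :=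
      congrArg Subtype.val hxy
    have h3 := h2
    rw [← map_add, ← map_add] at h3
    have h4 := hev _ _ h3
    have h5 : ((f.1 γτ : ad0 k) : M2 k) + (((κ a).1 γτ : ad0 k) : M2 k) =
      ((g.1 γτ : ad0 k) : M2 k) + (((κ b).1 γτ : ad0 k) : M2 k) := h4
    rw [hf', hg', zero_add, zero_add] at h5
    have h6 : a = b := hκ2 h5
    subst h6
    have h7 : H1.mk _ _ f = H1.mk _ _ g := add_right_cancel h2
    refine Prod.ext (Subtype.ext h7) rfl
  rw [Nat.card_prod] at h1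
  have h2 := card_Lstr_le hst hv hq hr
  have hkpos : 0 < Nat.card k := Nat.card_pos
  refine Nat.le_of_mul_le_mul_right (c := Nat.card k) ?_ hkpos
  calc _ ≤ _ := h1
    _ ≤ _ := h2
    _ = _ := mul_comm _ _

end main

end Fermat.Agent.RTan
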