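import Fermat.Agent.RTan.GX

/-!
# Bound for the framed tangent space
-/

set_option autoImplicit false

namespace Fermat.Agent.RTan

open IsLocalRing Module Matrix Fermat.Agent.PT
open Fermat.Agent.PTC (ptd sL allL muA)
open Fermat.Agent.TWP (psi psi_mul psi_mul_rbar psi_sub MDef sqKer mem_sqKer IsDer ad0 twAct Pl rl Γl
  mem_ad0 rep_mul_inv rep_inv_mul Qb SQ mem_SQ subset_SQ RD UnrOut TWSet locT card_locT_le mem_locT
  count_main smooth_SQ ad0_torsion)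
open Fermat.Agent.DefRing (MatCont Red Norm SliceData M2 GQ)
open Fermat.Agent.RT8J (TanX JRing)
open scoped Pointwise

section arith

lemma prod_lam {ι : Type} [DecidableEq ι] (s L : Finset ι) (hLs : L ⊆ s) (v₀ : ι) (hv₀ : v₀ ∈ s)
    (hvL : v₀ ∉ L) {t h : ι → ℕ} {sel c d M : ℕ}
    (H : sel * c * ∏ v ∈ s, h v ≤ M * ∏ v ∈ s, t v) (hpos : ∀ v, 0 < h v)
    (hL : ∀ v ∈ L, t v ≤ 1) (h0 : t v₀ ≤ d * h v₀)
    (hP : ∀ v ∈ s, v ∉ L → v ≠ v₀ → t v ≤ h v) : sel * c * ∏ v ∈ L, h v ≤ M * d := by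
  have h1 : ∏ v ∈ s, t v ≤ d * ∏ v ∈ s \ L, h v := by
    rw [← Finset.prod_sdiff hLs]
    have hmem : v₀ ∈ s \ L := Finset.mem_sdiff.mpr ⟨hv₀, hvL⟩
    have h2 : ∏ v ∈ s \ L, t v ≤ d * ∏ v ∈ s \ L, h v := by
      rw [← Finset.mul_prod_erase _ t hmem, ← Finset.mul_prod_erase _ h hmem, ← mul_assoc]
      refine Nat.mul_le_mul h0 (Finset.prod_le_prod' fun v hv => ?_)
      rw [Finset.mem_erase, Finset.mem_sdiff] at hv
      exact hP v hv.2.1 hv.2.2 hv.1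
    have h3 : ∏ v ∈ L, t v ≤ 1 := Finset.prod_le_one' hL
    calc _ ≤ (d * ∏ v ∈ s \ L, h v) * 1 := Nat.mul_le_mul h2 h3
      _ = _ := mul_one _
  have h2 : 0 < ∏ v ∈ s \ L, h v := Finset.prod_pos fun v _ => hpos v
  rw [← Finset.prod_sdiff hLs] at H
  refine Nat.le_of_mul_le_mul_right ?_ h2
  calc sel * c * (∏ v ∈ L, h v) * ∏ v ∈ s \ L, h v =
      sel * c * ((∏ v ∈ s \ L, h v) * ∏ v ∈ L, h v) := by ring
    _ ≤ M * ∏ v ∈ s, t v := H
    _ ≤ M * (d * ∏ v ∈ s \ L, h v) := Nat.mul_le_mul_left _ h1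
    _ = _ := by ring

end arith

section sel

variable {k : Type} [Field k] {p : ℕ} [hp : Fact p.Prime] {rbar : GQ →* M2 k}
variable {n : ℕ} {S : Finset Nat.Primes} {m : ℕ} {q : Fin m → Nat.Primes} {τ : Fin m → GQ}

/-- the Selmer group with strict conditions at `Λ` -/
theorem exists_selLam [Finite k] (hr : RD p rbar) (hp2 : p ≠ 2) (hrS : UnrOut S rbar)
    (hTW : TWSet p rbar n S m q τ) (hpS : ExtCitation.pPrime p ∈ S)
    (hEC : (Nat.card k : ℝ) * chi (sL (SQ S q)) (dualAct (muA p) (twAct 1 rbar)) ≤ 1)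
    (F : IntermediateField ℚ Qb) [FiniteDimensional ℚ F] (hFn : ∀ σ : GQ, ∀ x ∈ F, σ x ∈ F)
    {Λ : Type} [Fintype Λ] (ℓ : Λ → Nat.Primes) (hℓ : Function.Injective ℓ) (hℓS : ∀ l, ℓ l ∈ S)
    (hℓp : ∀ l, ℓ l ≠ ExtCitation.pPrime p)
    (Tp : AddSubgroup (H1 (allL.comap (rl (ExtCitation.pPrime p)))
      ((twAct 1 rbar).comp (rl (ExtCitation.pPrime p))))) (d : ℕ)
    (hTp : Nat.card Tp ≤ d *
      Nat.card (H0 ((twAct 1 rbar).comp (rl (ExtCitation.pPrime p))))) :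
    ∃ Sel : AddSubgroup (H1 (sL (SQ S q)) (twAct 1 rbar)), Finite Sel ∧
      Nat.card Sel * Nat.card k * ∏ l, Nat.card (H0 ((twAct 1 rbar).comp (rl (ℓ l)))) ≤
        Nat.card k ^ m * d ∧
      ∀ x : H1 (sL (SQ S q)) (twAct 1 rbar),
        (∀ l, ((ptd (SQ S q)).loc ⟨ℓ l, subset_SQ (hℓS l)⟩ (twAct 1 rbar)).h1 x = 0) →
        (∀ v : ↥(SQ S q), v.1 ∈ S → v.1 ≠ ExtCitation.pPrime p → (∀ l, v.1 ≠ ℓ l) →
          ((ptd (SQ S q)).loc v (twAct 1 rbar)).h1 x ∈ locT v.1 F hFn rbar) →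
        ((ptd (SQ S q)).loc ⟨ExtCitation.pPrime p, subset_SQ hpS⟩ (twAct 1 rbar)).h1 x ∈ Tp →
        x ∈ Sel := by
  classical
  let T : ∀ v : ↥(SQ S q), AddSubgroup (H1 (allL.comap (rl v.1)) ((twAct 1 rbar).comp (rl v.1))) :=
    fun v => if hv : v.1 = ExtCitation.pPrime p then hv ▸ Tp else
      if ∃ l, v.1 = ℓ l then ⊥ else if v.1 ∈ S then locT v.1 F hFn rbar else ⊤
  have hT1 : ∀ v : ↥(SQ S q), v.1 ∉ S → T v = ⊤ := by
    intro v hv
    have h1 : v.1 ≠ ExtCitation.pPrime p := fun h1 => hv (h1 ▸ hpS)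
    have h2 : ¬ ∃ l, v.1 = ℓ l := by
      rintro ⟨l, hl⟩
      exact hv (hl ▸ hℓS l)
    show (if hv : v.1 = ExtCitation.pPrime p then hv ▸ Tp else
      if ∃ l, v.1 = ℓ l then ⊥ else if v.1 ∈ S then locT v.1 F hFn rbar else ⊤) = _
    rw [dif_neg h1, if_neg h2, if_neg hv]
  have hT2 : ∀ v : ↥(SQ S q), v.1 ∈ S → v.1 ≠ ExtCitation.pPrime p → (∀ l, v.1 ≠ ℓ l) →
      T v = locT v.1 F hFn rbar := by
    intro v hv h1 h2
    have h2' : ¬ ∃ l, v.1 = ℓ l := fun ⟨l, hl⟩ => h2 l hl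
    show (if hv : v.1 = ExtCitation.pPrime p then hv ▸ Tp else
      if ∃ l, v.1 = ℓ l then ⊥ else if v.1 ∈ S then locT v.1 F hFn rbar else ⊤) = _
    rw [dif_neg h1, if_neg h2', if_pos hv]
  have hT3 : T ⟨ExtCitation.pPrime p, subset_SQ hpS⟩ = Tp := dif_pos rfl
  have hT4 : ∀ v : ↥(SQ S q), (∃ l, v.1 = ℓ l) → T v = ⊥ := by
    intro v hv
    have h1 : v.1 ≠ ExtCitation.pPrime p := by
      obtain ⟨l, hl⟩ := hv
      rw [hl]; exact hℓp l
    show (if hv : v.1 = ExtCitation.pPrime p then hv ▸ Tp else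
      if ∃ l, v.1 = ℓ l then ⊥ else if v.1 ∈ S then locT v.1 F hFn rbar else ⊤) = _
    rw [dif_neg h1, if_pos hv]
  have H := Fermat.Agent.PTGlob.ptHyp (S := SQ S q) hp2 (subset_SQ hpS)
  have hfin1 : Finite (H1 (sL (SQ S q)) (twAct 1 rbar)) :=
    (H.finite (smooth_SQ (q := q) hrS) (ad0_torsion hr.char)).h1
  refine ⟨selL (ptd (SQ S q)) (twAct 1 rbar) T, Subtype.finite, ?_, ?_⟩
  · have h1 := count_main hr hp2 hrS hTW hpS hEC T hT1
    let L : Finset ↥(SQ S q) := Finset.univ.image fun l => (⟨ℓ l, subset_SQ (hℓS l)⟩ : ↥(SQ S q))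
    have hLmem : ∀ v, v ∈ L ↔ ∃ l, v.1 = ℓ l := by
      intro v
      simp only [L, Finset.mem_image, Finset.mem_univ, true_and]
      constructor
      · rintro ⟨l, rfl⟩; exact ⟨l, rfl⟩
      · rintro ⟨l, hl⟩; exact ⟨l, Subtype.ext hl.symm⟩
    have h2 := prod_lam (Finset.univ.filter fun v : ↥(SQ S q) => v.1 ∈ S) L (by
        intro v hv
        obtain ⟨l, hl⟩ := (hLmem v).1 hv
        rw [Finset.mem_filter]
        exact ⟨Finset.mem_univ _, by rw [hl]; exact hℓS l⟩)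
      ⟨ExtCitation.pPrime p, subset_SQ hpS⟩ (by
        rw [Finset.mem_filter]
        exact ⟨Finset.mem_univ _, hpS⟩) (by
        rw [hLmem]
        rintro ⟨l, hl⟩
        exact hℓp l hl.symm) (d := d) h1 (fun v => TWP.card_H0_pos v.1) (by
        intro v hv
        rw [hT4 v ((hLmem v).1 hv), AddSubgroup.card_bot]) (by
        rw [hT3]; exact hTp) (by
        intro v hv hvL hvp
        rw [hT2 v (Finset.mem_filter.mp hv).2 (fun h => hvp (Subtype.ext h))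
          (fun l hl => hvL ((hLmem v).2 ⟨l, hl⟩))]
        exact card_locT_le v.1 F hFn hr.cont)
    rw [Finset.prod_image (by
      intro a _ b _ hab
      exact hℓ (congrArg Subtype.val hab))] at h2
    exact h2
  · intro x hx1 hx2 hx3 v
    by_cases h3 : v.1 ∈ S
    · by_cases h1 : v.1 = ExtCitation.pPrime p
      · obtain ⟨v, hv⟩ := v
        have h1' : v = ExtCitation.pPrime p := h1
        subst h1'
        rw [hT3]
        exact hx3
      · by_cases h4 : ∃ l, v.1 = ℓ l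
        · rw [hT4 v h4]
          obtain ⟨l, hl⟩ := h4
          obtain ⟨v, hv⟩ := v
          have h1' : v = ℓ l := hl
          subst h1'
          rw [hx1 l]
          exact AddSubgroup.zero_mem _
        · rw [hT2 v h3 h1 (fun l hl => h4 ⟨l, hl⟩)]
          exact hx2 v h3 h1 (fun l hl => h4 ⟨l, hl⟩)
    · rw [hT1 v h3]
      exact AddSubgroup.mem_top _

end sel

section main

variable {𝒪 : Type} [CommRing 𝒪] [IsLocalRing 𝒪] [Finite (ResidueField 𝒪)] {p : ℕ}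
  [hp : Fact p.Prime]
  {Sig Smin : Finset ℕ} {rbar : GQ →* M2 (ResidueField 𝒪)} {sd : SliceData rbar}
  {R : Type} [CommRing R] [IsLocalRing R] [Algebra 𝒪 R] {π : R →+* ResidueField 𝒪}
  {r0 : GQ →* M2 R}
variable {n : ℕ} {S : Finset Nat.Primes} {m : ℕ} {q : Fin m → Nat.Primes} {τQ : Fin m → GQ}

/-- **Bound for the framed tangent space** with an abstract local condition at `p`. -/
theorem card_TanX_mul_le (hRD : RD p rbar) (hp2 : p ≠ 2) (hrS : UnrOut S rbar)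
    (hTW : TWSet p rbar n S m q τQ) (hpS : ExtCitation.pPrime p ∈ S)
    (hEC : (Nat.card (ResidueField 𝒪) : ℝ) *
      chi (sL (SQ S q)) (dualAct (muA p) (twAct 1 rbar)) ≤ 1)
    (h : MDef 𝒪 p Sig Smin π r0 rbar)
    (hSig : ∀ v : Nat.Primes, (v : ℕ) ∈ Sig → v ∈ SQ S q)
    (hπ : ∀ o, π (algebraMap 𝒪 R o) = residue 𝒪 o)
    (hn : Norm sd r0) (hadj : Algebra.adjoin 𝒪 {x : R | ∃ σ i j, x = r0 σ i j} = ⊤)
    {Λ Υ : Type} [Fintype Λ] (ℓ : Λ → Nat.Primes) (hℓ : Function.Injective ℓ)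
    (hℓS : ∀ l, ℓ l ∈ S) (φ τ : Λ → GQ) (htame : ∀ l, TameAt p rbar (ℓ l) (φ l) (τ l))
    (hSm : ∀ v ∈ S, v ≠ ExtCitation.pPrime p → (∀ l, v ≠ ℓ l) → (v : ℕ) ∉ Sig)
    (s : Υ → R)
    (Tp : AddSubgroup (H1 (allL.comap (rl (ExtCitation.pPrime p)))
      ((twAct 1 rbar).comp (rl (ExtCitation.pPrime p))))) (d : ℕ)
    (hTp : Nat.card Tp ≤ d *
      Nat.card (H0 ((twAct 1 rbar).comp (rl (ExtCitation.pPrime p)))))
    (hloc : ∀ x ∈ TanX (𝒪 := 𝒪) π r0 φ τ s, ∀ f : Z1 (sL (SQ S q)) (twAct 1 rbar),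
      (∀ σ, ((f.1 σ : ad0 (ResidueField 𝒪)) : M2 (ResidueField 𝒪)) = psi r0 rbar x.1 σ) →
      ((ptd (SQ S q)).loc ⟨ExtCitation.pPrime p, subset_SQ hpS⟩ (twAct 1 rbar)).h1
        (H1.mk (sL (SQ S q)) (twAct 1 rbar) f) ∈ Tp) :
    (TanX (𝒪 := 𝒪) π r0 φ τ s).Finite ∧
      Nat.card (TanX (𝒪 := 𝒪) π r0 φ τ s) * Nat.card (ResidueField 𝒪) ≤
        Nat.card (ResidueField 𝒪) ^ m * d := by
  obtain ⟨F, hF, hFn, hFL⟩ := h.exists_level
  have hℓp : ∀ l, ℓ l ≠ ExtCitation.pPrime p := fun l hl => (htame l).ne (by rw [hl]; rfl)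
  have hpR : (p : R) ∈ maximalIdeal R := by
    rw [← h.ker, map_natCast, hRD.char]
  obtain ⟨Sel, hSel, hcard, hmem⟩ := exists_selLam hRD hp2 hrS hTW hpS hEC F hFn ℓ hℓ hℓS hℓp
    Tp d hTp
  obtain ⟨h1, h2⟩ := card_TanX_le_sel h hSig hRD.char (hRD.two_ne hp2) hπ hn hadj
    (smooth_SQ (q := q) hrS) ℓ φ τ htame s Sel (by
      intro x hx f hf
      refine hmem _ ?_ ?_ (hloc x hx f hf)
      · intro l
        rw [PairHom.h1_mk]
        refine H1.mk_eq_zero.2 ⟨⟨x.2 l, hx.2.1 l⟩, ?_⟩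
        funext γ
        obtain ⟨c, hc, hτc⟩ := (htame l).root
        have h3 := mem_cobSub_of_tame h hpR (htame l).ne hc (htame l).mem hτc (htame l).frob
          (htame l).unip hx.1 (hx.2.2.1 l) (hx.2.2.2.1 l) (TWP.rl_mem (ℓ l) γ)
        rw [mem_cobSub] at h3
        apply Subtype.ext
        show (1 : GQ →* ResidueField 𝒪) (rl (ℓ l) γ) • (rbar (rl (ℓ l) γ) * x.2 l *
          rbar (rl (ℓ l) γ)⁻¹) - x.2 l = ((f.1 (rl (ℓ l) γ) : ad0 (ResidueField 𝒪)) :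
            M2 (ResidueField 𝒪))
        rw [hf, h3, MonoidHom.one_apply, one_smul]
      · intro v hv h3 h4
        have h5 := h.loc_unr hx.1 (hSm v.1 hv h3 h4)
        exact mem_locT F hFn v f (fun σ hσ => h.rbar_eq_one (hFL σ hσ))
          (fun σ hσ => by rw [hf]; exact h.psi_eq_zero hx.1 (hFL σ hσ)) (trace_zero _ _)
          (fun σ hσ => by rw [hf]; exact h5 σ hσ))
  refine ⟨h1, ?_⟩
  calc _ ≤ (Nat.card Sel * ∏ l, Nat.card (H0 ((twAct 1 rbar).comp (rl (ℓ l))))) *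
        Nat.card (ResidueField 𝒪) := Nat.mul_le_mul_right _ h2
    _ = Nat.card Sel * Nat.card (ResidueField 𝒪) *
        ∏ l, Nat.card (H0 ((twAct 1 rbar).comp (rl (ℓ l)))) := by ring
    _ ≤ _ := hcard

end main

end Fermat.Agent.RTan
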