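import Fermat.Agent.RTan.OrdM
import Fermat.Agent.RTan.Su
import Fermat.Agent.RTan.Tan

/-!
# The ordinary local condition of a family of modular points
-/

set_option autoImplicit false

namespace Fermat.Agent.RTan

open IsLocalRing Matrix Fermat.Agent.PT
open Fermat.Agent.PTC (ptd sL allL muA cyclo_spec)
open Fermat.Agent.TWP (psi psi_mul psi_mul_rbar psi_sub MDef sqKer mem_sqKer IsDer ad0 twAct Pl rl Γl
  mem_ad0 rep_mul_inv rep_inv_mul Qb map_mul_der)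
open Fermat.Agent.DefRing (MatCont Red Norm SliceData M2 GQ mapRep)
open scoped Pointwise

section conj

variable {T : Type} [CommRing T]

/-- conjugate representation -/
noncomputable def cj (g : M2 T) (hg : IsUnit g.det) (r : GQ →* M2 T) : GQ →* M2 T where
  toFun σ := g⁻¹ * r σ * g
  map_one' := by rw [map_one, mul_one, Matrix.nonsing_inv_mul _ hg]
  map_mul' σ τ := by
    have h1 : g * g⁻¹ = 1 := Matrix.mul_nonsing_inv _ hg
    rw [map_mul]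
    calc g⁻¹ * (r σ * r τ) * g = g⁻¹ * r σ * 1 * (r τ * g) := by noncomm_ring
      _ = g⁻¹ * r σ * (g * g⁻¹) * (r τ * g) := by rw [h1]
      _ = _ := by noncomm_ring

lemma cj_apply (g : M2 T) (hg : IsUnit g.det) (r : GQ →* M2 T) (σ : GQ) :
    cj g hg r σ = g⁻¹ * r σ * g := rfl

lemma cj_back (g : M2 T) (hg : IsUnit g.det) (r : GQ →* M2 T) (σ : GQ) :
    r σ = g * cj g hg r σ * g⁻¹ := by
  have h1 : g * g⁻¹ = 1 := Matrix.mul_nonsing_inv _ hg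
  rw [cj_apply]
  calc r σ = 1 * r σ * 1 := by rw [one_mul, mul_one]
    _ = (g * g⁻¹) * r σ * (g * g⁻¹) := by rw [h1]
    _ = _ := by noncomm_ring

lemma cj_det (g : M2 T) (hg : IsUnit g.det) (r : GQ →* M2 T) (σ : GQ) :
    (cj g hg r σ).det = (r σ).det := by
  have h1 : g * g⁻¹ = 1 := Matrix.mul_nonsing_inv _ hg
  have h2 : g.det * g⁻¹.det = 1 := by rw [← det_mul, h1, det_one]
  rw [cj_apply, det_mul, det_mul]
  linear_combination (r σ).det * h2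

/-- the projector to the first vector -/
abbrev E0 (T : Type) [CommRing T] : M2 T := !![1, 0; 0, 0]

lemma low_entry {X : M2 T} (h : (1 - E0 T) * X * E0 T = 0) : X 1 0 = 0 := by
  have h1 := congrFun (congrFun h 1) 0
  simpa [Matrix.mul_apply, Fin.sum_univ_two, Matrix.sub_apply] using h1

lemma quo_entry {X : M2 T} (h : (1 - E0 T) * (X - 1) = 0) : X 1 1 = 1 := by
  have h1 := congrFun (congrFun h 1) 1
  have h2 : X 1 1 - 1 = 0 := by
    simpa [Matrix.mul_apply, Fin.sum_univ_two, Matrix.sub_apply] using h1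
  exact sub_eq_zero.1 h2

variable {P : M2 T} {i j : Fin 2} (hP : P * P = P) (hg : IsUnit (gm P i j).det) {r : GQ →* M2 T}

include hP hg in
lemma inv_mul_one_sub : (gm P i j)⁻¹ * (1 - P) = (1 - E0 T) * (gm P i j)⁻¹ := by
  have h1 : gm P i j * (gm P i j)⁻¹ = 1 := Matrix.mul_nonsing_inv _ hg
  have h2 : (gm P i j)⁻¹ * gm P i j = 1 := Matrix.nonsing_inv_mul _ hg
  have h3 : (gm P i j)⁻¹ * P = E0 T * (gm P i j)⁻¹ := by
    calc (gm P i j)⁻¹ * P = (gm P i j)⁻¹ * (P * gm P i j) * (gm P i j)⁻¹ := by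
          rw [mul_assoc, mul_assoc, h1, mul_one]
      _ = ((gm P i j)⁻¹ * gm P i j) * E0 T * (gm P i j)⁻¹ := by
          rw [gm_mul hP]; noncomm_ring
      _ = _ := by rw [h2, one_mul]
  rw [mul_sub, mul_one, h3, sub_mul, one_mul]

include hP in
lemma cj_low {σ : GQ} (h : (1 - P) * r σ * P = 0) : cj (gm P i j) hg r σ 1 0 = 0 := by
  apply low_entry
  rw [cj_apply]
  calc (1 - E0 T) * ((gm P i j)⁻¹ * r σ * gm P i j) * E0 T =
      ((1 - E0 T) * (gm P i j)⁻¹) * r σ * (gm P i j * E0 T) := by noncomm_ring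
    _ = ((gm P i j)⁻¹ * (1 - P)) * r σ * (P * gm P i j) := by
        rw [inv_mul_one_sub hP hg, gm_mul hP]
    _ = (gm P i j)⁻¹ * ((1 - P) * r σ * P) * gm P i j := by noncomm_ring
    _ = 0 := by rw [h, mul_zero, zero_mul]

include hP in
lemma cj_quo {σ : GQ} (h : (1 - P) * (r σ - 1) = 0) : cj (gm P i j) hg r σ 1 1 = 1 := by
  have h2 : (gm P i j)⁻¹ * gm P i j = 1 := Matrix.nonsing_inv_mul _ hg
  apply quo_entry
  rw [cj_apply]
  calc (1 - E0 T) * ((gm P i j)⁻¹ * r σ * gm P i j - 1) =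
      (1 - E0 T) * ((gm P i j)⁻¹ * r σ * gm P i j - (gm P i j)⁻¹ * gm P i j) := by rw [h2]
    _ = ((1 - E0 T) * (gm P i j)⁻¹) * (r σ - 1) * gm P i j := by noncomm_ring
    _ = ((gm P i j)⁻¹ * (1 - P)) * (r σ - 1) * gm P i j := by rw [inv_mul_one_sub hP hg]
    _ = (gm P i j)⁻¹ * ((1 - P) * (r σ - 1)) * gm P i j := by noncomm_ring
    _ = 0 := by rw [h, mul_zero, zero_mul]

end conj

/-- triangular form on the decomposition group -/
structure Tri {𝒪 R : Type} [CommRing 𝒪] [CommRing R] [Algebra 𝒪 R] (A : ValuationSubring Qb)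
    (χ : GQ → 𝒪) (r : GQ →* M2 R) : Prop where
  low : ∀ σ ∈ A.decompositionSubgroup ℚ, r σ 1 0 = 0
  quo : ∀ σ ∈ A.inertiaSubgroupIn ℚ, r σ 1 1 = 1
  det : ∀ σ, (r σ).det = algebraMap 𝒪 R (χ σ)

lemma inertia_le_decomp {A : ValuationSubring Qb} {σ : GQ} (hσ : σ ∈ A.inertiaSubgroupIn ℚ) :
    σ ∈ A.decompositionSubgroup ℚ := by
  obtain ⟨s, -, rfl⟩ := hσ
  exact s.2

section tri

variable {𝒪 R : Type} [CommRing 𝒪] [CommRing R] [Algebra 𝒪 R] {A : ValuationSubring Qb}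
  {χ : GQ → 𝒪} {σ₀ : GQ} {e e' : 𝒪} {r : GQ →* M2 R}

theorem OrdM.tri (h : OrdM A σ₀ e r) (he : e' * (e - 1) = 1)
    (hσ₀ : σ₀ ∈ A.inertiaSubgroupIn ℚ)
    (hdet : ∀ σ, (r σ).det = algebraMap 𝒪 R (χ σ)) {i j : Fin 2}
    (hg : IsUnit (gm (idem e' (r σ₀)) i j).det) :
    Tri A χ (cj (gm (idem e' (r σ₀)) i j) hg r) := by
  have hP : idem e' (r σ₀) * idem e' (r σ₀) = idem e' (r σ₀) :=
    idem_idem he (h.quot σ₀ hσ₀)
  refine ⟨fun σ hσ => cj_low hP hg ?_, fun σ hσ => cj_quo hP hg ?_, fun σ => ?_⟩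
  · rw [one_sub_idem he, idem, smul_mul_assoc, smul_mul_smul_comm, h.stab σ hσ, smul_zero]
  · rw [one_sub_idem he, smul_mul_assoc, h.quot σ hσ, smul_zero]
  · rw [cj_det, hdet]

/-- multiplicativity of the diagonal entries -/
lemma Tri.mul11 (h : Tri A χ r) {σ τ : GQ} (hσ : σ ∈ A.decompositionSubgroup ℚ) :
    r (σ * τ) 1 1 = r σ 1 1 * r τ 1 1 := by
  rw [map_mul, Matrix.mul_apply, Fin.sum_univ_two, h.low σ hσ, zero_mul, zero_add]

lemma Tri.diag (h : Tri A χ r) {σ : GQ} (hσ : σ ∈ A.decompositionSubgroup ℚ) :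
    r σ 0 0 * r σ 1 1 = algebraMap 𝒪 R (χ σ) := by
  rw [← h.det σ, det_fin_two, h.low σ hσ, mul_zero, sub_zero]

end tri

section der

variable {𝒪 R k : Type} [CommRing 𝒪] [CommRing R] [Field k] [Algebra 𝒪 R]
  {π : R →+* k} {δ : R → k} {r : GQ →* M2 R} {rbar : GQ →* M2 k}

/-- conjugation and cocycles -/
theorem psi_conj (hδ : IsDer 𝒪 π δ) (hred : ∀ σ, (r σ).map π = rbar σ) (g : M2 R)
    (hg : IsUnit g.det) (hg' : IsUnit (g.map π).det) (σ : GQ) :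
    psi r rbar δ σ = g.map π * psi (cj g hg r) (cj (g.map π) hg' rbar) δ σ * (g.map π)⁻¹ -
      (rbar σ * (g.map δ * (g.map π)⁻¹) * rbar σ⁻¹ - g.map δ * (g.map π)⁻¹) := by
  have h1 : g * g⁻¹ = 1 := Matrix.mul_nonsing_inv _ hg
  have h2 : g.map π * (g.map π)⁻¹ = 1 := Matrix.mul_nonsing_inv _ hg'
  have h2' : (g.map π)⁻¹ * g.map π = 1 := Matrix.nonsing_inv_mul _ hg'
  have h3 : (g⁻¹).map π = (g.map π)⁻¹ := by
    have h4 : g.map π * (g⁻¹).map π = 1 := by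
      rw [← Matrix.map_mul, h1]
      exact Matrix.map_one π (map_zero π) (map_one π)
    exact (Matrix.inv_eq_right_inv h4).symm
  have h4 : (g⁻¹).map δ = - ((g.map π)⁻¹ * g.map δ * (g.map π)⁻¹) := by
    have h5 := map_mul_der hδ g g⁻¹
    rw [h1, h3] at h5
    have h6 : (1 : M2 R).map δ = 0 := by
      refine Matrix.ext fun i j => ?_
      rw [Matrix.map_apply]
      by_cases h : i = j
      · subst h; rw [Matrix.one_apply_eq, hδ.one]; rfl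
      · rw [Matrix.one_apply_ne h, hδ.zero]; rfl
    rw [h6] at h5
    have h7 : g.map π * (g⁻¹).map δ = - (g.map δ * (g.map π)⁻¹) :=
      eq_neg_of_add_eq_zero_left h5.symm
    calc (g⁻¹).map δ = ((g.map π)⁻¹ * g.map π) * (g⁻¹).map δ := by rw [h2', one_mul]
      _ = (g.map π)⁻¹ * (g.map π * (g⁻¹).map δ) := by rw [mul_assoc]
      _ = _ := by rw [h7]; noncomm_ring
  have hb : rbar σ = g.map π * cj (g.map π) hg' rbar σ * (g.map π)⁻¹ := cj_back _ hg' rbar σ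
  have hb' : rbar σ⁻¹ = g.map π * cj (g.map π) hg' rbar σ⁻¹ * (g.map π)⁻¹ :=
    cj_back _ hg' rbar σ⁻¹
  have hr' : (cj g hg r σ).map π = cj (g.map π) hg' rbar σ := by
    rw [cj_apply, Matrix.map_mul, Matrix.map_mul, h3, hred, cj_apply]
  set G := g.map π with hG
  set D := g.map δ with hD
  set R' := cj G hg' rbar with hR'
  have hinv : R' σ * R' σ⁻¹ = 1 := rep_mul_inv R' σ
  have h5 : (r σ).map δ = G * R' σ * (-(G⁻¹ * D * G⁻¹)) +
      (G * (cj g hg r σ).map δ + D * R' σ) * G⁻¹ := by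
    conv_lhs => rw [cj_back g hg r σ]
    rw [map_mul_der hδ, map_mul_der hδ, Matrix.map_mul, hr', h3, h4]
  have e1 : psi r rbar δ σ = (r σ).map δ * rbar σ⁻¹ := rfl
  have e2 : psi (cj g hg r) R' δ σ = (cj g hg r σ).map δ * R' σ⁻¹ := rfl
  rw [e1, e2, h5, hb']
  have e3 : rbar σ * (D * G⁻¹) * (G * R' σ⁻¹ * G⁻¹) = rbar σ * D * (R' σ⁻¹ * G⁻¹) := by
    calc rbar σ * (D * G⁻¹) * (G * R' σ⁻¹ * G⁻¹) =
        rbar σ * D * (G⁻¹ * G) * (R' σ⁻¹ * G⁻¹) := by noncomm_ring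
      _ = _ := by rw [h2', mul_one]
  have e4 : rbar σ * D * (R' σ⁻¹ * G⁻¹) = G * R' σ * G⁻¹ * D * R' σ⁻¹ * G⁻¹ := by
    rw [hb]; noncomm_ring
  rw [e3, e4]
  have e5 : G * R' σ * (-(G⁻¹ * D * G⁻¹)) * (G * R' σ⁻¹ * G⁻¹) =
      -(G * R' σ * G⁻¹ * D * R' σ⁻¹ * G⁻¹) := by
    calc G * R' σ * (-(G⁻¹ * D * G⁻¹)) * (G * R' σ⁻¹ * G⁻¹) =
        -(G * R' σ * G⁻¹ * D * (G⁻¹ * G) * R' σ⁻¹ * G⁻¹) := by noncomm_ring
      _ = _ := by rw [h2', mul_one]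
  have e6 : (G * (cj g hg r σ).map δ + D * R' σ) * G⁻¹ * (G * R' σ⁻¹ * G⁻¹) =
      G * ((cj g hg r σ).map δ * R' σ⁻¹) * G⁻¹ + D * G⁻¹ := by
    calc (G * (cj g hg r σ).map δ + D * R' σ) * G⁻¹ * (G * R' σ⁻¹ * G⁻¹) =
        (G * (cj g hg r σ).map δ + D * R' σ) * (G⁻¹ * G) * (R' σ⁻¹ * G⁻¹) := by noncomm_ring
      _ = G * ((cj g hg r σ).map δ * R' σ⁻¹) * G⁻¹ + D * (R' σ * R' σ⁻¹) * G⁻¹ := by
          rw [h2']; noncomm_ring
      _ = _ := by rw [hinv, mul_one]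
  rw [add_mul, e5, e6]
  abel

end der

section kill

variable {𝒪 R k : Type} [CommRing 𝒪] [CommRing R] [Field k] [Algebra 𝒪 R]
  {π : R →+* k} {δ : R → k} {r : GQ →* M2 R} {rbar : GQ →* M2 k} {A : ValuationSubring Qb}
  {χ : GQ → 𝒪}

/-- the first basis vector -/
abbrev v0 (k : Type) [Field k] : Fin 2 → k := ![1, 0]

lemma mulVec_v0 (X : M2 k) : X *ᵥ v0 k = ![X 0 0, X 1 0] := by
  apply vec_ext
  · rw [mulVec0]; simp
  · rw [mulVec1]; simp

/-- a derivation killing the lower diagonal entry kills the first basis vector. -/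
theorem psi_v0 (hδ : IsDer 𝒪 π δ) (hred : ∀ σ, (r σ).map π = rbar σ) (h : Tri A χ r) {σ : GQ}
    (hσ : σ ∈ A.decompositionSubgroup ℚ) (hδσ : δ (r σ 1 1) = 0) :
    psi r rbar δ σ *ᵥ v0 k = 0 := by
  have h1 : π (r σ 0 0) * π (r σ 1 1) = π (algebraMap 𝒪 R (χ σ)) := by
    rw [← map_mul, h.diag hσ]
  have hunit : π (r σ 1 1) ≠ 0 := by
    have h2 : r (σ⁻¹ * σ) 1 1 = r σ⁻¹ 1 1 * r σ 1 1 := h.mul11 (inv_mem hσ)
    rw [inv_mul_cancel, map_one, Matrix.one_apply_eq] at h2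
    intro h3
    have h4 := congrArg π h2
    rw [map_one, map_mul, h3, mul_zero] at h4
    exact one_ne_zero h4
  have h2 : δ (r σ 0 0) = 0 := by
    have h3 := congrArg δ (h.diag hσ)
    rw [hδ.mul, hδσ, hδ.alg, mul_zero, zero_add] at h3
    exact (mul_eq_zero.1 h3).resolve_right hunit
  have h3 : rbar σ⁻¹ 1 0 = 0 := by
    rw [← hred]
    show π (r σ⁻¹ 1 0) = 0
    rw [h.low _ (inv_mem hσ), map_zero]
  rw [psi, ← mulVec_mulVec, mulVec_v0, h3]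
  apply vec_ext
  · rw [mulVec0]
    show δ (r σ 0 0) * rbar σ⁻¹ 0 0 + δ (r σ 0 1) * 0 = 0
    rw [h2]; ring
  · rw [mulVec1]
    show δ (r σ 1 0) * rbar σ⁻¹ 0 0 + δ (r σ 1 1) * 0 = 0
    rw [h.low σ hσ, hδ.zero]; ring

/-- vanishing at a Kummer element -/
theorem psi_tau (hδ : IsDer 𝒪 π δ) (h : Tri A χ r) {τ : GQ}
    (hτ : τ ∈ A.inertiaSubgroupIn ℚ) (hχ : χ τ = 1) (hδτ : δ (r τ 0 1) = 0) :
    psi r rbar δ τ = 0 := by
  have h1 := h.diag (inertia_le_decomp hτ)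
  rw [h.quo τ hτ, mul_one, hχ, map_one] at h1
  have h2 : (r τ).map δ = 0 := by
    apply ext_two
    · show δ (r τ 0 0) = 0
      rw [h1, hδ.one]
    · exact hδτ
    · show δ (r τ 1 0) = 0
      rw [h.low τ (inertia_le_decomp hτ), hδ.zero]
    · show δ (r τ 1 1) = 0
      rw [h.quo τ hτ, hδ.one]
  rw [psi, h2, zero_mul]

end kill

section loc

variable {𝒪 : Type} [CommRing 𝒪] {R k : Type} [CommRing R] [Algebra 𝒪 R] [Field k] {π : R →+* k}
  {r : GQ →* M2 R} {rbar : GQ →* M2 k} {δ : R → k}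
  {S' : Finset Nat.Primes}

/-- the trace zero part of the infinitesimal change of basis -/
lemma exists_Y0 (h2 : (2 : k) ≠ 0) (Y : M2 k) : ∃ Y0 : ad0 k, ∀ σ : GQ,
    rbar σ * Y * rbar σ⁻¹ - Y = rbar σ * Y0.1 * rbar σ⁻¹ - Y0.1 := by
  refine ⟨⟨Y - (Y.trace / 2) • 1, ?_⟩, fun σ => ?_⟩
  · rw [mem_ad0, trace_sub, trace_smul, trace_one, Fintype.card_fin, smul_eq_mul]
    push_cast
    field_simp
    ring
  · show _ = rbar σ * (Y - (Y.trace / 2) • 1) * rbar σ⁻¹ - (Y - (Y.trace / 2) • 1)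
    rw [mul_sub, sub_mul, mul_smul_comm, mul_one, smul_mul_assoc, rep_mul_inv]
    abel

/-- the localised class has a nice representative -/
theorem exists_rep (hδ : IsDer 𝒪 π δ) (hred : ∀ σ, (r σ).map π = rbar σ) (h2 : (2 : k) ≠ 0)
    (g : M2 R) (hg : IsUnit g.det) (hg' : IsUnit (g.map π).det)
    (hr : ∃ L : IntermediateField ℚ (AlgebraicClosure ℚ), FiniteDimensional ℚ L ∧
      ∀ σ : GQ, (∀ x ∈ L, σ x = x) → rbar σ = 1)
    (v : ↥S') (f : Z1 (sL S') (twAct 1 rbar))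
    (hf : ∀ σ, ((f.1 σ : ad0 k) : M2 k) = psi r rbar δ σ) :
    ∃ f' : Z1 (allL.comap (rl v.1)) ((twAct 1 rbar).comp (rl v.1)),
      H1.mk _ _ f' = ((ptd S').loc v (twAct 1 rbar)).h1 (H1.mk (sL S') (twAct 1 rbar) f) ∧
      ∀ γ, ((f'.1 γ : ad0 k) : M2 k) = g.map π *
        psi (cj g hg r) (cj (g.map π) hg' rbar) δ (rl v.1 γ) * (g.map π)⁻¹ := by
  obtain ⟨Y0, hY0⟩ := exists_Y0 (rbar := rbar) h2 (g.map δ * (g.map π)⁻¹)
  have hsm := TWP.smooth_loc hr v.1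
  refine ⟨((ptd S').loc v (twAct 1 rbar)).z1 f + cob hsm Y0, ?_, fun γ => ?_⟩
  · rw [map_add, mk_cob, add_zero, PairHom.h1_mk]
  · show ((f.1 (rl v.1 γ) : ad0 k) : M2 k) +
      ((((twAct 1 rbar).comp (rl v.1)) γ Y0 - Y0 : ad0 k) : M2 k) = _
    have h3 : ((((twAct 1 rbar).comp (rl v.1)) γ Y0 - Y0 : ad0 k) : M2 k) =
      rbar (rl v.1 γ) * Y0.1 * rbar (rl v.1 γ)⁻¹ - Y0.1 := by
      show (1 : GQ →* k) (rl v.1 γ) • _ - _ = _
      rw [MonoidHom.one_apply, one_smul]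
    rw [h3, hf, psi_conj hδ hred g hg hg', ← hY0]
    abel

end loc

end Fermat.Agent.RTan
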