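import Fermat.Agent.RTan.OrdJ2

/-!
# The ordinary local condition: tangent spaces
-/

set_option autoImplicit false

namespace Fermat.Agent.RTan

open IsLocalRing Matrix Fermat.Agent.PT
open Fermat.Agent.PTC (ptd sL allL muA cyclo_spec)
open Fermat.Agent.TWP (psi psi_mul psi_mul_rbar psi_sub MDef sqKer mem_sqKer IsDer ad0 twAct Pl rl Γl
  mem_ad0 rep_mul_inv rep_inv_mul Qb map_mul_der SQ mem_SQ subset_SQ RD UnrOut TWSet)
open Fermat.Agent.DefRing (MatCont Red Norm SliceData M2 GQ mapRep)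
open Fermat.Agent.RT8J (TanX)
open Fermat.Agent.ORD (Pair)
open scoped Pointwise

section uv

variable {𝒪 : Type} [CommRing 𝒪] [IsLocalRing 𝒪] [IsNoetherianRing 𝒪] {p : ℕ} [hp : Fact p.Prime]
  {R : Type} [CommRing R] [IsLocalRing R] [IsNoetherianRing R] [Finite (ResidueField R)]
  [Algebra 𝒪 R] {r : GQ →* M2 R} {χ : GQ → 𝒪}
  (hχ : CycChar p χ) (hp𝒪 : (p : 𝒪) ∈ maximalIdeal 𝒪) (hpR : (p : R) ∈ maximalIdeal R)
  (hc : MatCont R r) {g : M2 R} (hL : OrdLoc p χ r g) {φ τ : GQ}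
  (hpair : Pair p (Pl (ExtCitation.pPrime p)) φ τ)

omit [IsLocalRing R] [IsNoetherianRing R] [Finite (ResidueField R)] in
lemma cj_pow_mem {g : M2 R} (hg : IsUnit g.det) {σ : GQ} {I : Ideal R}
    (hσ : ∀ i j, (r σ - 1) i j ∈ I) (i j : Fin 2) : (cj g hg r σ - 1) i j ∈ I := by
  have h1 : g⁻¹ * g = 1 := Matrix.nonsing_inv_mul _ hg
  have h2 : cj g hg r σ - 1 = g⁻¹ * (r σ - 1) * g := by
    rw [cj_apply, mul_sub, mul_one, sub_mul, h1]
  rw [h2, Matrix.mul_apply]
  refine Ideal.sum_mem _ fun l _ => Ideal.mul_mem_right _ _ ?_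
  rw [Matrix.mul_apply]
  exact Ideal.sum_mem _ fun m _ => Ideal.mul_mem_left _ _ (hσ m l)

include hχ hpR hc hpair in
omit [IsLocalRing 𝒪] [IsNoetherianRing 𝒪] in
/-- conjugation by Frobenius does not change the monodromy -/
theorem conj_entry : cj g hL.unit r (φ * τ * φ⁻¹) 0 1 = cj g hL.unit r τ 0 1 := by
  have key : ∀ N : ℕ, cj g hL.unit r (φ * τ * φ⁻¹) 0 1 - cj g hL.unit r τ 0 1 ∈
      maximalIdeal R ^ N := by
    intro N
    have hfin : Finite (R ⧸ maximalIdeal R ^ N) := by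
      have : Finite (R ⧸ maximalIdeal R) := ‹Finite (ResidueField R)›
      exact Ideal.finite_quotient_pow (IsNoetherian.noetherian _) N
    obtain ⟨L, hLf, hLc⟩ := hc N
    have hppow : ∀ x : R, (p : R) ^ N * x ∈ maximalIdeal R ^ N := fun x =>
      Ideal.mul_mem_right _ _ (Ideal.pow_mem_pow hpR N)
    have h1 := Pair.conj_eq (TWP.Pl_lies (ExtCitation.pPrime p)) hpair N
      (B := R ⧸ maximalIdeal R ^ N) (fun b => by
        obtain ⟨x, rfl⟩ := Ideal.Quotient.mk_surjective b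
        rw [← map_nsmul, nsmul_eq_mul, Nat.cast_pow]
        exact Ideal.Quotient.eq_zero_iff_mem.mpr (hppow x))
      (fun σ => Ideal.Quotient.mk (maximalIdeal R ^ N) (cj g hL.unit r σ 0 1)) (by
        intro s hs t ht a ha
        have hsD := inertia_le_decomp hs
        have h2 : cj g hL.unit r (s * t) 0 1 =
            cj g hL.unit r s 0 0 * cj g hL.unit r t 0 1 + cj g hL.unit r s 0 1 := by
          rw [map_mul, Matrix.mul_apply, Fin.sum_univ_two, hL.tri.quo t ht, mul_one]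
        have h3 : cj g hL.unit r s 0 0 = algebraMap 𝒪 R (χ s) := by
          rw [← hL.tri.diag hsD, hL.tri.quo s hs, mul_one]
        have h4 := hχ.spec N s a ha
        rw [Ideal.mem_span_singleton] at h4
        obtain ⟨y, hy⟩ := h4
        have h5 : cj g hL.unit r s 0 0 = (a : R) + (p : R) ^ N * algebraMap 𝒪 R y := by
          rw [h3, ← map_natCast (algebraMap 𝒪 R) p, ← map_pow, ← map_mul, ← hy, map_sub,
            map_natCast]
          ring
        show Ideal.Quotient.mk _ (cj g hL.unit r (s * t) 0 1) =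
          Ideal.Quotient.mk _ (cj g hL.unit r s 0 1) +
            a • Ideal.Quotient.mk _ (cj g hL.unit r t 0 1)
        rw [← map_nsmul, ← map_add, Ideal.Quotient.eq, h2, h5, nsmul_eq_mul]
        have h6 : ((a : R) + (p : R) ^ N * algebraMap 𝒪 R y) * cj g hL.unit r t 0 1 +
            cj g hL.unit r s 0 1 - (cj g hL.unit r s 0 1 + (a : R) * cj g hL.unit r t 0 1) =
            (p : R) ^ N * (algebraMap 𝒪 R y * cj g hL.unit r t 0 1) := by ring
        rw [h6]
        exact hppow _) (E := L) (by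
        intro s _ hsL
        refine Ideal.Quotient.eq_zero_iff_mem.mpr ?_
        have h2 := cj_pow_mem hL.unit (hLc s hsL) 0 1
        rwa [Matrix.sub_apply, Matrix.one_apply_ne (by decide), sub_zero] at h2)
    exact (Ideal.Quotient.eq).mp h1
  have h3 : cj g hL.unit r (φ * τ * φ⁻¹) 0 1 - cj g hL.unit r τ 0 1 ∈
      (⨅ n : ℕ, maximalIdeal R ^ n) := by
    rw [Ideal.mem_iInf]; exact key
  rw [Ideal.iInf_pow_eq_bot_of_isLocalRing _ (maximalIdeal.isMaximal R).ne_top] at h3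
  exact sub_eq_zero.1 h3

include hχ hp𝒪 hpR hc hpair in
/-- `(z² - 1) v = 0` -/
theorem sq_sub_one_mul : (cj g hL.unit r φ 1 1 ^ 2 - 1) * cj g hL.unit r τ 0 1 = 0 := by
  have h1 := conj_entry hχ hpR hc hL hpair
  have hφD : φ ∈ (Pl (ExtCitation.pPrime p)).decompositionSubgroup ℚ := hpair.phi_mem
  have hφ1 : χ φ = 1 := hχ.eq_one hp𝒪 hpair.phi_mu
  have hc1 : χ (φ * τ * φ⁻¹) = 1 := hχ.eq_one hp𝒪 hpair.conj_mu
  have h2 := hL.tri.quo _ hpair.conj_mem
  have h3 := hL.tri.diag (inertia_le_decomp hpair.conj_mem)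
  rw [h2, mul_one, hc1, map_one] at h3
  have h4 : cj g hL.unit r (φ * τ * φ⁻¹) * cj g hL.unit r φ =
      cj g hL.unit r φ * cj g hL.unit r τ := by
    rw [← map_mul, ← map_mul]
    congr 1
    group
  have h5 := congrFun (congrFun h4 0) 1
  rw [Matrix.mul_apply, Matrix.mul_apply, Fin.sum_univ_two, Fin.sum_univ_two, h3, one_mul, h1,
    hL.tri.quo τ hpair.tau_mem, mul_one] at h5
  have h6 := hL.tri.diag hφD
  rw [hφ1, map_one] at h6
  linear_combination cj g hL.unit r φ 1 1 * h5 + cj g hL.unit r τ 0 1 * h6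

end uv

end Fermat.Agent.RTan
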