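import Fermat.Agent.RTan.OrdJ3

/-!
# The ordinary local conditions: membership
-/

set_option autoImplicit false

namespace Fermat.Agent.RTan

open IsLocalRing Matrix Fermat.Agent.PT
open Fermat.Agent.PTC (ptd sL allL muA cyclo_spec)
open Fermat.Agent.TWP (psi psi_mul psi_mul_rbar psi_sub MDef sqKer mem_sqKer IsDer ad0 twAct Pl rl Γl
  mem_ad0 rep_mul_inv rep_inv_mul Qb map_mul_der SQ mem_SQ subset_SQ RD UnrOut TWSet)
open Fermat.Agent.DefRing (MatCont Red Norm SliceData M2 GQ mapRep)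
open Fermat.Agent.ORD (Pair)
open scoped Pointwise

section mem

variable {𝒪 : Type} [CommRing 𝒪] [IsLocalRing 𝒪] [IsNoetherianRing 𝒪] {p : ℕ} [hp : Fact p.Prime]
  {Sig Smin : Finset ℕ} {R : Type} [CommRing R] [IsLocalRing R] [Algebra 𝒪 R]
  {π : R →+* ResidueField 𝒪} {r : GQ →* M2 R} {rbar : GQ →* M2 (ResidueField 𝒪)} {χ : GQ → 𝒪}

variable (h : MDef 𝒪 p Sig Smin π r rbar) {g : M2 R} (hL : OrdLoc p χ r g)
  (hg' : IsUnit (g.map π).det) {φ τ : GQ}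

include hg' in
omit [IsNoetherianRing 𝒪] [IsLocalRing R] [Algebra 𝒪 R] in
lemma mulVec_v0_ne : g.map π *ᵥ v0 (ResidueField 𝒪) ≠ 0 := by
  intro h0
  have h1 : (g.map π)⁻¹ *ᵥ (g.map π *ᵥ v0 (ResidueField 𝒪)) = 0 := by rw [h0, mulVec_zero]
  rw [mulVec_mulVec, Matrix.nonsing_inv_mul _ hg', one_mulVec] at h1
  have h2 := congrFun h1 0
  simp at h2

include h hL hg' in
/-- representative killing the line -/
theorem exists_rep_line (h2 : (2 : ResidueField 𝒪) ≠ 0)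
    (hφ : (Pl (ExtCitation.pPrime p)).IsFrobeniusAt φ p)
    {δ : R → ResidueField 𝒪} (hδ : IsDer 𝒪 π δ) (hδφ : δ (cj g hL.unit r φ 1 1) = 0)
    (hr : ∃ L : IntermediateField ℚ (AlgebraicClosure ℚ), FiniteDimensional ℚ L ∧
      ∀ σ : GQ, (∀ x ∈ L, σ x = x) → rbar σ = 1)
    {S' : Finset Nat.Primes} (hpS : ExtCitation.pPrime p ∈ S')
    (f : Z1 (sL S') (twAct 1 rbar))
    (hf : ∀ σ, ((f.1 σ : ad0 (ResidueField 𝒪)) : M2 (ResidueField 𝒪)) = psi r rbar δ σ) :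
    ∃ f' : Z1 (allL.comap (rl (ExtCitation.pPrime p)))
        ((twAct 1 rbar).comp (rl (ExtCitation.pPrime p))),
      H1.mk _ _ f' = ((ptd S').loc ⟨ExtCitation.pPrime p, hpS⟩ (twAct 1 rbar)).h1
        (H1.mk (sL S') (twAct 1 rbar) f) ∧
      (∀ γ, ((f'.1 γ : ad0 (ResidueField 𝒪)) : M2 (ResidueField 𝒪)) *ᵥ
        (g.map π *ᵥ v0 (ResidueField 𝒪)) = 0) ∧
      ∀ γ, ((f'.1 γ : ad0 (ResidueField 𝒪)) : M2 (ResidueField 𝒪)) = g.map π *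
        psi (cj g hL.unit r) (cj (g.map π) hg' rbar) δ (rl (ExtCitation.pPrime p) γ) *
          (g.map π)⁻¹ := by
  obtain ⟨f', hf'1, hf'2⟩ := exists_rep hδ h.red h2 g hL.unit hg' hr
    ⟨ExtCitation.pPrime p, hpS⟩ f hf
  refine ⟨f', hf'1, fun γ => ?_, hf'2⟩
  have hinv' : (g.map π)⁻¹ * g.map π = 1 := Matrix.nonsing_inv_mul _ hg'
  rw [hf'2, mulVec_mulVec, mul_assoc, hinv', mul_one, ← mulVec_mulVec]
  have h3 : psi (cj g hL.unit r) (cj (g.map π) hg' rbar) δ (rl (ExtCitation.pPrime p) γ) *ᵥ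
      v0 (ResidueField 𝒪) = 0 :=
    psi_v0 hδ (fun σ => cj_map h hL hg' σ) hL.tri (TWP.rl_mem (ExtCitation.pPrime p) γ)
      (der_quot h hL hφ hδ hδφ (TWP.rl_mem (ExtCitation.pPrime p) γ))
  rw [h3, mulVec_zero]

include h hL hg' in
/-- **Strict condition.** -/
theorem mem_Lstr (h2 : (2 : ResidueField 𝒪) ≠ 0)
    (hφ : (Pl (ExtCitation.pPrime p)).IsFrobeniusAt φ p)
    {δ : R → ResidueField 𝒪} (hδ : IsDer 𝒪 π δ) (hδφ : δ (cj g hL.unit r φ 1 1) = 0)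
    (hr : ∃ L : IntermediateField ℚ (AlgebraicClosure ℚ), FiniteDimensional ℚ L ∧
      ∀ σ : GQ, (∀ x ∈ L, σ x = x) → rbar σ = 1)
    {S' : Finset Nat.Primes} (hpS : ExtCitation.pPrime p ∈ S')
    (f : Z1 (sL S') (twAct 1 rbar))
    (hf : ∀ σ, ((f.1 σ : ad0 (ResidueField 𝒪)) : M2 (ResidueField 𝒪)) = psi r rbar δ σ) :
    ((ptd S').loc ⟨ExtCitation.pPrime p, hpS⟩ (twAct 1 rbar)).h1
      (H1.mk (sL S') (twAct 1 rbar) f) ∈
        Lstr rbar (g.map π *ᵥ v0 (ResidueField 𝒪)) (ExtCitation.pPrime p) := by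
  obtain ⟨f', hf'1, hf'2, -⟩ := exists_rep_line h hL hg' h2 hφ hδ hδφ hr hpS f hf
  exact ⟨f', hf'1, hf'2⟩

include h hL hg' in
/-- **Unipotent condition.** -/
theorem mem_Lsu (h2 : (2 : ResidueField 𝒪) ≠ 0) (hχ : CycChar p χ)
    (hp𝒪 : (p : 𝒪) ∈ maximalIdeal 𝒪) (hpair : Pair p (Pl (ExtCitation.pPrime p)) φ τ)
    {γτ : Γl (ExtCitation.pPrime p)} (hγτ : rl (ExtCitation.pPrime p) γτ = τ)
    {δ : R → ResidueField 𝒪} (hδ : IsDer 𝒪 π δ) (hδφ : δ (cj g hL.unit r φ 1 1) = 0)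
    (hδτ : δ (cj g hL.unit r τ 0 1) = 0)
    (hr : ∃ L : IntermediateField ℚ (AlgebraicClosure ℚ), FiniteDimensional ℚ L ∧
      ∀ σ : GQ, (∀ x ∈ L, σ x = x) → rbar σ = 1)
    {S' : Finset Nat.Primes} (hpS : ExtCitation.pPrime p ∈ S')
    (f : Z1 (sL S') (twAct 1 rbar))
    (hf : ∀ σ, ((f.1 σ : ad0 (ResidueField 𝒪)) : M2 (ResidueField 𝒪)) = psi r rbar δ σ) :
    ((ptd S').loc ⟨ExtCitation.pPrime p, hpS⟩ (twAct 1 rbar)).h1
      (H1.mk (sL S') (twAct 1 rbar) f) ∈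
        Lsu rbar (g.map π *ᵥ v0 (ResidueField 𝒪)) (ExtCitation.pPrime p) γτ := by
  obtain ⟨f', hf'1, hf'2, hf'3⟩ := exists_rep_line h hL hg' h2 hpair.frob hδ hδφ hr hpS f hf
  refine ⟨f', hf'1, hf'2, ?_⟩
  rw [hf'3, hγτ]
  have h3 : psi (cj g hL.unit r) (cj (g.map π) hg' rbar) δ τ = 0 :=
    psi_tau hδ hL.tri hpair.tau_mem (hχ.eq_one hp𝒪 hpair.tau_mu) hδτ
  rw [h3, mul_zero, zero_mul]

end mem

section sq

variable {𝒪 k R : Type} [CommRing 𝒪] [CommRing R] [Field k] [Algebra 𝒪 R] {π : R →+* k}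
  {δ : R → k}

/-- derivations kill signs -/
lemma der_sign (h2 : (2 : k) ≠ 0) (hδ : IsDer 𝒪 π δ) {z : R} (hz : z ^ 2 = 1) : δ z = 0 := by
  have h1 := congrArg δ hz
  rw [pow_two, hδ.mul, hδ.one] at h1
  have h3 : π z ≠ 0 := by
    intro h0
    have h4 := congrArg π hz
    rw [map_pow, h0, map_one, zero_pow two_ne_zero] at h4
    exact zero_ne_one h4
  have h4 : (2 : k) * (π z * δ z) = 0 := by linear_combination h1
  exact (mul_eq_zero.1 ((mul_eq_zero.1 h4).resolve_left h2)).resolve_left h3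

end sq

end Fermat.Agent.RTan
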