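import Fermat.Agent.RTan.KumLoc
import Fermat.Agent.TWP.Count2

/-!
# The strict ordinary local condition at `p`
-/

set_option autoImplicit false

namespace Fermat.Agent.RTan

open Fermat.Agent.PT Fermat.Agent.PTLocal Fermat.Agent.PTC Fermat.Agent.TWP Matrix

section mu

variable (p : ℕ) [hp : Fact p.Prime]

theorem card_H1_muA (q : Nat.Primes) :
    Nat.card (H1 (allL.comap (rl q)) ((muA p).comp (rl q))) =
      p * p ^ (if p = (q : ℕ) then 1 else 0) * Nat.card (H0 ((muA p).comp (rl q))) := by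
  have : NeZero p := ⟨hp.out.ne_zero⟩
  let hq : Fact ((q : ℕ)).Prime := ⟨q.2⟩
  obtain ⟨ζ, hζ⟩ := exists_zeta p
  have hμ : ∀ g, g ζ = ζ ^ (muA p g 1).val := by
    intro g
    rw [cyclo_spec p g hζ.pow_eq_one, muA, mulAct_apply, mul_one]
  let hG := lgalQ (q : ℕ) (allL.comap (localGaloisToGlobal (q : ℕ))) (by
    rintro _ ⟨_, ⟨hn, F, hF, rfl⟩, rfl⟩
    exact ⟨F, hF, fun g hg => hg⟩) (by
    intro F hF
    obtain ⟨N, hN, hle⟩ := exists_allL_le F hF
    exact ⟨_, ⟨N, hN, rfl⟩, fun g hg => hle hg⟩)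
  have hζ' : IsPrimitiveRoot (padicEmbedding (q : ℕ) ζ) p :=
    hζ.map_of_injective (padicEmbedding (q : ℕ)).injective
  have hc : ∀ g a, zetaHom hζ' ((muA p).comp (localGaloisToGlobal (q : ℕ)) g a) =
      hG.act g (zetaHom hζ' a) := by
    intro g a
    apply Additive.toMul.injective
    apply Units.ext
    show ((Additive.toMul (zetaHom hζ' (muA p (localGaloisToGlobal (q : ℕ) g) a)) :
      (PadicAlgCl (q : ℕ))ˣ) : PadicAlgCl (q : ℕ)) =
        g ((Additive.toMul (zetaHom hζ' a) : (PadicAlgCl (q : ℕ))ˣ) : PadicAlgCl (q : ℕ))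
    rw [zetaHom_apply, zetaHom_apply, map_pow, ← padicEmbedding_localGaloisToGlobal, hμ, map_pow,
      ← pow_mul]
    have h3 : muA p (localGaloisToGlobal (q : ℕ) g) a =
        a.val • muA p (localGaloisToGlobal (q : ℕ) g) 1 := by
      rw [← map_nsmul, nsmul_eq_mul, mul_one, ZMod.natCast_val, ZMod.cast_id', id]
    rw [h3, nsmul_eq_mul]
    have h4 : ((a.val : ZMod p) * (muA p (localGaloisToGlobal (q : ℕ) g)) 1).val =
        (((muA p (localGaloisToGlobal (q : ℕ) g)) 1).val * a.val) % p := by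
      rw [ZMod.val_mul, ZMod.val_natCast_of_lt (ZMod.val_lt a), mul_comm]
    rw [h4, ← pow_mod_orderOf _ (((muA p (localGaloisToGlobal (q : ℕ) g)) 1).val * a.val),
      ← hζ'.eq_orderOf]
  exact card_H1_mu hG (zetaHom_injective hζ') hc Function.bijective_id

end mu

section alg

variable {k : Type} [Field k]

/-- the nilpotent matrix attached to a vector -/
def nu (v : Fin 2 → k) : M2 k := !![-(v 0 * v 1), v 0 ^ 2; -(v 1 ^ 2), v 0 * v 1]

lemma nu00 (v : Fin 2 → k) : nu v 0 0 = -(v 0 * v 1) := rfl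
lemma nu01 (v : Fin 2 → k) : nu v 0 1 = v 0 ^ 2 := rfl
lemma nu10 (v : Fin 2 → k) : nu v 1 0 = -(v 1 ^ 2) := rfl
lemma nu11 (v : Fin 2 → k) : nu v 1 1 = v 0 * v 1 := rfl

lemma ext_two {R : Type} {X Y : M2 R} (h00 : X 0 0 = Y 0 0) (h01 : X 0 1 = Y 0 1)
    (h10 : X 1 0 = Y 1 0) (h11 : X 1 1 = Y 1 1) : X = Y := by
  refine Matrix.ext fun i j => ?_
  fin_cases i <;> fin_cases j <;> assumption

lemma trace_nu (v : Fin 2 → k) : (nu v).trace = 0 := by
  rw [trace_fin_two, nu00, nu11]; ring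

lemma mulVec0 {R : Type} [CommRing R] (X : M2 R) (v : Fin 2 → R) :
    (X *ᵥ v) 0 = X 0 0 * v 0 + X 0 1 * v 1 := by
  simp [mulVec, dotProduct, Fin.sum_univ_two]

lemma mulVec1 {R : Type} [CommRing R] (X : M2 R) (v : Fin 2 → R) :
    (X *ᵥ v) 1 = X 1 0 * v 0 + X 1 1 * v 1 := by
  simp [mulVec, dotProduct, Fin.sum_univ_two]

lemma vec_ext {R : Type} {v w : Fin 2 → R} (h0 : v 0 = w 0) (h1 : v 1 = w 1) : v = w := by
  funext i
  fin_cases i
  · exact h0
  · exact h1

lemma nu_mulVec_self (v : Fin 2 → k) : nu v *ᵥ v = 0 := by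
  apply vec_ext
  · rw [mulVec0, nu00, nu01, Pi.zero_apply]; ring
  · rw [mulVec1, nu10, nu11, Pi.zero_apply]; ring

lemma nu_ne_zero {v : Fin 2 → k} (hv : v ≠ 0) : nu v ≠ 0 := by
  intro h
  apply hv
  have h1 : v 0 ^ 2 = 0 := congrFun (congrFun h 0) 1
  have h2 : -(v 1 ^ 2) = 0 := congrFun (congrFun h 1) 0
  apply vec_ext
  · exact pow_eq_zero_iff two_ne_zero |>.1 h1
  · exact pow_eq_zero_iff two_ne_zero |>.1 (neg_eq_zero.1 h2)

lemma exists_smul_nu {v : Fin 2 → k} (hv : v ≠ 0) {X : M2 k} (htr : X.trace = 0)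
    (hX : X *ᵥ v = 0) : ∃ c : k, X = c • nu v := by
  have e0 : X 0 0 * v 0 + X 0 1 * v 1 = 0 := by rw [← mulVec0, hX]; rfl
  have e1 : X 1 0 * v 0 + X 1 1 * v 1 = 0 := by rw [← mulVec1, hX]; rfl
  have e2 : X 1 1 = - X 0 0 := by
    rw [trace_fin_two] at htr
    linear_combination htr
  rw [e2] at e1
  by_cases h0 : v 0 = 0
  · have h1 : v 1 ≠ 0 := by
      intro h1
      exact hv (vec_ext h0 h1)
    rw [h0] at e0 e1
    have f1 : X 0 1 = 0 := by
      have : X 0 1 * v 1 = 0 := by linear_combination e0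
      exact (mul_eq_zero.1 this).resolve_right h1
    have f2 : X 0 0 = 0 := by
      have : X 0 0 * v 1 = 0 := by linear_combination -e1
      exact (mul_eq_zero.1 this).resolve_right h1
    refine ⟨-(X 1 0) / v 1 ^ 2, ?_⟩
    apply ext_two <;> rw [Matrix.smul_apply, smul_eq_mul]
    · rw [nu00, h0, f2]; ring
    · rw [nu01, h0, f1]; ring
    · rw [nu10]; field_simp
    · rw [nu11, h0, e2, f2]; ring
  · have f1 : X 0 0 = - X 0 1 * v 1 / v 0 := by
      field_simp
      linear_combination e0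
    have f2 : X 1 0 = - X 0 1 * v 1 ^ 2 / v 0 ^ 2 := by
      have : X 1 0 * v 0 = X 0 0 * v 1 := by linear_combination e1
      rw [f1] at this
      field_simp at this ⊢
      linear_combination this
    refine ⟨X 0 1 / v 0 ^ 2, ?_⟩
    apply ext_two <;> rw [Matrix.smul_apply, smul_eq_mul]
    · rw [f1, nu00]; field_simp
    · rw [nu01]; field_simp
    · rw [f2, nu10]; field_simp
    · rw [e2, f1, nu11]; field_simp

lemma mul_nu_adj {v : Fin 2 → k} {M : M2 k} {x : k} (h : M *ᵥ v = x • v) :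
    M * nu v * M.adjugate = x ^ 2 • nu v := by
  have e0 : M 0 0 * v 0 + M 0 1 * v 1 = x * v 0 := by rw [← mulVec0, h]; rfl
  have e1 : M 1 0 * v 0 + M 1 1 * v 1 = x * v 1 := by rw [← mulVec1, h]; rfl
  have a00 : M.adjugate 0 0 = M 1 1 := by rw [adjugate_fin_two]; rfl
  have a01 : M.adjugate 0 1 = - M 0 1 := by rw [adjugate_fin_two]; rfl
  have a10 : M.adjugate 1 0 = - M 1 0 := by rw [adjugate_fin_two]; rfl
  have a11 : M.adjugate 1 1 = M 0 0 := by rw [adjugate_fin_two]; rfl
  apply ext_two <;> simp only [Matrix.smul_apply, smul_eq_mul, Matrix.mul_apply,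
    Fin.sum_univ_two, a00, a01, a10, a11, nu00, nu01, nu10, nu11]
  · linear_combination (-(M 1 0 * v 0 + M 1 1 * v 1)) * e0 - x * v 0 * e1
  · linear_combination ((M 0 0 * v 0 + M 0 1 * v 1) + x * v 0) * e0
  · linear_combination (-(M 1 0 * v 0 + M 1 1 * v 1) - x * v 1) * e1
  · linear_combination (M 1 0 * v 0 + M 1 1 * v 1) * e0 + x * v 0 * e1

variable {G : Type} [Group G] (r : G →* M2 k)

lemma det_rep_ne_zero (g : G) : (r g).det ≠ 0 := by
  intro h
  have h1 := congrArg Matrix.det (rep_mul_inv r g)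
  rw [det_mul, h, zero_mul, det_one] at h1
  exact zero_ne_one h1

lemma det_smul_inv (g : G) : (r g).det • r g⁻¹ = (r g).adjugate := by
  have h2 : (r g).adjugate * r g = (r g).det • (1 : M2 k) := adjugate_mul _
  calc (r g).det • r g⁻¹ = ((r g).det • (1 : M2 k)) * r g⁻¹ := by
        rw [smul_mul_assoc, one_mul]
    _ = (r g).adjugate * (r g * r g⁻¹) := by rw [← h2, mul_assoc]
    _ = _ := by rw [rep_mul_inv, mul_one]

lemma conj_nu {v : Fin 2 → k} {g : G} {x e : k} (h : r g *ᵥ v = x • v)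
    (hx : x ^ 2 = e * (r g).det) : r g * nu v * r g⁻¹ = e • nu v := by
  have h1 := mul_nu_adj h
  rw [← det_smul_inv r, mul_smul_comm, hx, mul_comm, mul_smul] at h1
  exact smul_right_injective _ (det_rep_ne_zero r g) h1

/-- if `X` is trace zero and stabilises the line, then its conjugate differs by a multiple of
`nu v`. -/
lemma conj_sub {v : Fin 2 → k} (hv : v ≠ 0) {g : G} {x : k} (h : r g *ᵥ v = x • v)
    {X : M2 k} (htr : X.trace = 0) {a : k} (hX : X *ᵥ v = a • v) :
    ∃ c : k, r g * X * r g⁻¹ - X = c • nu v := by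
  have hx : x ≠ 0 := by
    rintro rfl
    apply hv
    have h1 : r g⁻¹ *ᵥ (r g *ᵥ v) = v := by
      rw [mulVec_mulVec, rep_inv_mul, one_mulVec]
    rw [h, zero_smul, mulVec_zero] at h1
    exact h1.symm
  have h2 : r g⁻¹ *ᵥ v = x⁻¹ • v := by
    have h1 : r g⁻¹ *ᵥ (r g *ᵥ v) = v := by
      rw [mulVec_mulVec, rep_inv_mul, one_mulVec]
    rw [h, mulVec_smul] at h1
    calc r g⁻¹ *ᵥ v = x⁻¹ • (x • r g⁻¹ *ᵥ v) := by
          rw [smul_smul, inv_mul_cancel₀ hx, one_smul]
      _ = _ := by rw [h1]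
  refine exists_smul_nu hv ?_ ?_
  · rw [trace_sub, trace_conj_rep, htr, sub_zero]
  · rw [sub_mulVec, ← mulVec_mulVec, ← mulVec_mulVec, h2, mulVec_smul, mulVec_smul, hX,
      mulVec_smul, h, smul_comm a x v, smul_smul, inv_mul_cancel₀ hx, one_smul,
      sub_self]

/-- a trace zero matrix with eigenvector `v` -/
lemma exists_h (v : Fin 2 → k) : ∃ H : M2 k, H.trace = 0 ∧ H *ᵥ v = v := by
  by_cases h0 : v 0 = 0
  · refine ⟨!![-1, 0; 0, 1], by simp, ?_⟩
    apply vec_ext
    · rw [mulVec0]; simp [h0]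
    · rw [mulVec1]; simp
  · refine ⟨!![1, 0; 2 * v 1 / v 0, -1], by simp, ?_⟩
    apply vec_ext
    · rw [mulVec0]; simp
    · rw [mulVec1]
      show 2 * v 1 / v 0 * v 0 + -1 * v 1 = v 1
      field_simp
      ring

end alg

section line

variable {k : Type} [Field k] {p : ℕ} [hp : Fact p.Prime] [Algebra (ZMod p) k]

/-- the action on `k` through a character -/
def lineAct (k : Type) [Field k] [Algebra (ZMod p) k] {G : Type} [Group G]
    (χ : G →* (ZMod p)ˣ) : Act G k where
  toFun g := AddMonoidHom.mulLeft (algebraMap (ZMod p) k (χ g : ZMod p))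
  map_one' := by
    apply AddMonoidHom.ext
    intro a
    show algebraMap (ZMod p) k (χ 1 : ZMod p) * a = a
    rw [map_one, Units.val_one, map_one, one_mul]
  map_mul' g h := by
    apply AddMonoidHom.ext
    intro a
    show algebraMap (ZMod p) k (χ (g * h) : ZMod p) * a =
      algebraMap (ZMod p) k (χ g : ZMod p) * (algebraMap (ZMod p) k (χ h : ZMod p) * a)
    rw [map_mul, Units.val_mul, map_mul, mul_assoc]

lemma lineAct_apply {G : Type} [Group G] (χ : G →* (ZMod p)ˣ) (g : G) (a : k) :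
    lineAct k χ g a = algebraMap (ZMod p) k (χ g : ZMod p) * a := rfl

/-- the line is a sum of copies of the prime field line -/
noncomputable def lineFree [Finite k] {G : Type} [Group G] (χ : G →* (ZMod p)ˣ) :
    FreeOn (Fin (Module.finrank (ZMod p) k)) (mulAct χ) (lineAct k χ) where
  a j :=
    { f := (LinearMap.toSpanSingleton (ZMod p) k (Module.finBasis (ZMod p) k j)).toAddMonoidHom
      comm := fun g z => by
        show ((χ g : ZMod p) * z) • Module.finBasis (ZMod p) k j =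
          algebraMap (ZMod p) k (χ g : ZMod p) * (z • Module.finBasis (ZMod p) k j)
        rw [mul_smul, Algebra.smul_def (χ g : ZMod p)] }
  b j :=
    { f := ((Module.finBasis (ZMod p) k).coord j).toAddMonoidHom
      comm := fun g y => by
        show (Module.finBasis (ZMod p) k).coord j (algebraMap (ZMod p) k (χ g : ZMod p) * y) =
          (χ g : ZMod p) * (Module.finBasis (ZMod p) k).coord j y
        rw [← Algebra.smul_def, map_smul, smul_eq_mul] }
  ba i j z := by
    show (Module.finBasis (ZMod p) k).coord i (z • Module.finBasis (ZMod p) k j) = _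
    rw [map_smul, Module.Basis.coord_apply, Module.Basis.repr_self, Finsupp.single_apply,
      smul_eq_mul]
    by_cases h : i = j
    · rw [if_pos h, if_pos h.symm, mul_one]
    · rw [if_neg h, if_neg (Ne.symm h), mul_zero]
  ab y := by
    show ∑ j, ((Module.finBasis (ZMod p) k).coord j y) • Module.finBasis (ZMod p) k j = y
    exact (Module.finBasis (ZMod p) k).sum_repr y

variable (p) in
theorem card_H1_line [Finite k] (q : Nat.Primes) (hq : (q : ℕ) = p) :
    Nat.card (H1 (allL.comap (rl q)) ((lineAct k (ExtCitation.cycloChar p)).comp (rl q))) =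
      Nat.card k ^ 2 * Nat.card (H0 ((lineAct k (ExtCitation.cycloChar p)).comp (rl q))) := by
  have F := (lineFree (k := k) (ExtCitation.cycloChar p)).along (rl q)
  have h1 := card_H1_muA p q
  rw [if_pos hq.symm, pow_one] at h1
  have h2 := F.card_h1 (allL.comap (rl q))
  have h3 := F.card_h0
  have h4 : Nat.card k = p ^ Fintype.card (Fin (Module.finrank (ZMod p) k)) := by
    rw [Fintype.card_fin, Module.natCard_eq_pow_finrank (K := ZMod p), Nat.card_zmod]
  have h5 : Nat.card (H1 (allL.comap (rl q)) ((mulAct (ExtCitation.cycloChar p)).comp (rl q))) =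
      p * p * Nat.card (H0 ((mulAct (ExtCitation.cycloChar p)).comp (rl q))) := h1
  rw [h2, h3, h5, h4, mul_pow, mul_pow, pow_two]

end line

section main

variable {k : Type} [Field k] {r : TWP.GQ →* M2 k} {v : Fin 2 → k} {q : Nat.Primes}

variable (r v q) in
/-- the strict local condition: classes with a representative killing `v`. -/
def Lstr : AddSubgroup (H1 (allL.comap (rl q)) ((twAct 1 r).comp (rl q))) where
  carrier := {x | ∃ f : Z1 (allL.comap (rl q)) ((twAct 1 r).comp (rl q)),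
    H1.mk _ _ f = x ∧ ∀ γ, ((f.1 γ : ad0 k) : M2 k) *ᵥ v = 0}
  zero_mem' := ⟨0, map_zero _, fun γ => by
    show (0 : M2 k) *ᵥ v = 0
    rw [zero_mulVec]⟩
  add_mem' := by
    rintro _ _ ⟨f, rfl, hf⟩ ⟨g, rfl, hg⟩
    refine ⟨f + g, map_add _ _ _, fun γ => ?_⟩
    show (((f.1 γ : ad0 k) : M2 k) + ((g.1 γ : ad0 k) : M2 k)) *ᵥ v = 0
    rw [add_mulVec, hf, hg, add_zero]
  neg_mem' := by
    rintro _ ⟨f, rfl, hf⟩
    refine ⟨-f, map_neg _ _, fun γ => ?_⟩
    show (-((f.1 γ : ad0 k) : M2 k)) *ᵥ v = 0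
    rw [neg_mulVec, hf, neg_zero]

variable {p : ℕ} [hp : Fact p.Prime] [Algebra (ZMod p) k]
  (hst : ∀ γ : Γl q, ∃ x : k, r (rl q γ) *ᵥ v = x • v ∧
    x ^ 2 = algebraMap (ZMod p) k (ExtCitation.cycloChar p (rl q γ) : ZMod p) *
      (r (rl q γ)).det)

/-- the inclusion of the line `Hom(V/L, L)` in `ad⁰`. -/
def lineHom : EHom ((lineAct k (ExtCitation.cycloChar p)).comp (rl q))
    ((twAct 1 r).comp (rl q)) where
  f :=
    { toFun := fun a => ⟨a • nu v, by rw [mem_ad0, trace_smul, trace_nu, smul_zero]⟩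
      map_zero' := Subtype.ext (zero_smul _ _)
      map_add' := fun a b => Subtype.ext (add_smul _ _ _) }
  comm γ a := by
    obtain ⟨x, h1, h2⟩ := hst γ
    apply Subtype.ext
    show (algebraMap (ZMod p) k (ExtCitation.cycloChar p (rl q γ) : ZMod p) * a) • nu v =
      (1 : k) • (r (rl q γ) * (a • nu v) * r (rl q γ)⁻¹)
    rw [one_smul, mul_smul_comm, smul_mul_assoc, conj_nu r h1 h2, smul_smul, mul_comm]

lemma lineHom_injective (hv : v ≠ 0) : Function.Injective (lineHom hst).f := by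
  intro a b h
  have h1 : a • nu v = b • nu v := congrArg Subtype.val h
  exact smul_left_injective k (nu_ne_zero hv) h1

include hst in
/-- **The order of the strict local condition.** -/
theorem card_Lstr_le [Finite k] (hv : v ≠ 0) (hq : (q : ℕ) = p)
    (hr : ∃ L : IntermediateField ℚ (AlgebraicClosure ℚ), FiniteDimensional ℚ L ∧
      ∀ σ : TWP.GQ, (∀ x ∈ L, σ x = x) → r σ = 1) :
    Nat.card (Lstr r v q) ≤ Nat.card k * Nat.card (H0 ((twAct 1 r).comp (rl q))) := by
  have hk : (p : k) = 0 := by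
    rw [← map_natCast (algebraMap (ZMod p) k), CharP.cast_eq_zero, map_zero]
  have hsm := smooth_loc hr q
  have hfin := (finite_loc hr hk q).h1
  have hfin0 := (finite_loc hr hk q).h0
  let S := SES.ofInj (lineHom hst) (lineHom_injective hst hv)
  -- the strict condition is contained in the image
  have hle : Lstr r v q ≤ (S.i.h1 (allL.comap (rl q))).range := by
    rintro _ ⟨f, rfl, hf⟩
    refine (S.exact_H1_mid hsm _).1 ?_
    rw [EHom.h1, PairHom.h1_mk]
    refine H1.mk_eq_zero.2 ⟨0, ?_⟩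
    funext γ
    have h1 : S.p.f (f.1 γ) = 0 := by
      refine (S.exact _).2 ?_
      obtain ⟨c, hc⟩ := exists_smul_nu hv (f.1 γ).2 (hf γ)
      exact ⟨c, Subtype.ext hc.symm⟩
    rw [map_zero]
    exact h1.symm
  have h1 := card_image_mul S hsm
  have h2 : Nat.card (H1 (allL.comap (rl q))
      ((lineAct k (ExtCitation.cycloChar p)).comp (rl q))) =
      Nat.card k ^ 2 * Nat.card (H0 ((lineAct k (ExtCitation.cycloChar p)).comp (rl q))) :=
    card_H1_line p q hq
  rw [h2] at h1
  -- the invariants of the quotient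
  obtain ⟨H, hHt, hHv⟩ := exists_h v
  have hmem : ∀ a : k, QuotientAddGroup.mk' (lineHom hst).f.range
      (⟨a • H, by rw [mem_ad0, trace_smul, hHt, smul_zero]⟩ : ad0 k) ∈
        H0 (quotAct ((twAct 1 r).comp (rl q)) (lineHom hst).f.range (by
          rintro g _ ⟨a, rfl⟩; exact ⟨_, (lineHom hst).comm g a⟩)) := by
    intro a
    rw [mem_H0]
    intro γ
    obtain ⟨x, hx1, hx2⟩ := hst γ
    obtain ⟨c, hc⟩ := conj_sub r hv hx1 (X := a • H) (by rw [trace_smul, hHt, smul_zero])
      (a := a) (by rw [smul_mulVec, hHv])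
    show ((((twAct 1 r).comp (rl q)) γ ⟨a • H, _⟩ : ad0 k) : ad0 k ⧸ (lineHom hst).f.range) =
      ((⟨a • H, _⟩ : ad0 k) : ad0 k ⧸ (lineHom hst).f.range)
    rw [QuotientAddGroup.eq, neg_add_eq_sub, ← neg_mem_iff, neg_sub]
    refine ⟨c, Subtype.ext ?_⟩
    show c • nu v = (1 : k) • (r (rl q γ) * (a • H) * r (rl q γ)⁻¹) - a • H
    rw [one_smul, hc]
  have h3 : Nat.card k ≤ Nat.card (H0 (quotAct ((twAct 1 r).comp (rl q)) (lineHom hst).f.range (by
          rintro g _ ⟨a, rfl⟩; exact ⟨_, (lineHom hst).comm g a⟩))) := by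
    refine Nat.card_le_card_of_injective (fun a => ⟨_, hmem a⟩) ?_
    intro a b hab
    have h4 := congrArg Subtype.val hab
    have h5 := QuotientAddGroup.eq.1 h4
    obtain ⟨c, hc⟩ := h5
    have h6 : c • nu v = -(a • H) + b • H := congrArg Subtype.val hc
    have h7 := congrArg (· *ᵥ v) h6
    simp only [smul_mulVec, nu_mulVec_self, smul_zero, add_mulVec, neg_mulVec, hHv] at h7
    have h8 : (b - a) • v = 0 := by rw [sub_smul, h7]; abel
    have h9 := (smul_eq_zero.1 h8).resolve_right hv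
    exact (sub_eq_zero.1 h9).symm
  have hpos : 0 < Nat.card (H0 ((lineAct k (ExtCitation.cycloChar p)).comp (rl q))) :=
    Nat.card_pos
  have hkpos : 0 < Nat.card k := Nat.card_pos
  have h4 : Nat.card (S.i.h1 (allL.comap (rl q))).range * Nat.card k *
      Nat.card (H0 ((lineAct k (ExtCitation.cycloChar p)).comp (rl q))) ≤
      Nat.card k ^ 2 * Nat.card (H0 ((lineAct k (ExtCitation.cycloChar p)).comp (rl q))) *
        Nat.card (H0 ((twAct 1 r).comp (rl q))) := by
    rw [← h1]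
    exact Nat.mul_le_mul_right _ (Nat.mul_le_mul_left _ h3)
  have h5 : Nat.card (S.i.h1 (allL.comap (rl q))).range ≤
      Nat.card k * Nat.card (H0 ((twAct 1 r).comp (rl q))) := by
    refine Nat.le_of_mul_le_mul_right (c := Nat.card k *
      Nat.card (H0 ((lineAct k (ExtCitation.cycloChar p)).comp (rl q)))) ?_
      (Nat.mul_pos hkpos hpos)
    calc _ = Nat.card (S.i.h1 (allL.comap (rl q))).range * Nat.card k *
      Nat.card (H0 ((lineAct k (ExtCitation.cycloChar p)).comp (rl q))) := by ring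
      _ ≤ _ := h4
      _ = _ := by ring
  refine le_trans ?_ h5
  have hfr : Finite (S.i.h1 (allL.comap (rl q))).range := Subtype.finite
  exact Nat.card_le_card_of_injective (AddSubgroup.inclusion hle)
    (AddSubgroup.inclusion_injective hle)

end main

end Fermat.Agent.RTan
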