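import Fermat.Agent.RTan.Mod
import Fermat.Agent.TWP.ExistsTW
import Fermat.Agent.TWP.Tame2

/-!
# Taylor–Wiles data for patching systems
-/

set_option autoImplicit false

namespace Fermat.Agent.RTan

open IsLocalRing Matrix Polynomial Fermat.Agent.PT
open Fermat.Agent.PTC (ptd sL allL muA cyclo_spec)
open Fermat.Agent.TWP (twAct Pl rl Γl Qb SQ RD UnrOut TWSet TWPrime)
open Fermat.Agent.DefRing (MatCont Red Norm SliceData M2 GQ mapRep)
open scoped Pointwise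

section twp

variable {𝒪 : Type} [CommRing 𝒪] [IsLocalRing 𝒪] {p : ℕ} [hp : Fact p.Prime]
  {rbar : GQ →* M2 (ResidueField 𝒪)}

omit hp in
/-- coefficients of a split characteristic polynomial -/
theorem tr_det_of_charpoly {k : Type} [Field k] {M : M2 k} {α β : k}
    (h : M.charpoly = (X - C α) * (X - C β)) : M.trace = α + β ∧ M.det = α * β := by
  rw [charpoly_fin_two] at h
  have h1 := congrArg (fun P => P.coeff 1) h
  have h0 := congrArg (fun P => P.coeff 0) h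
  have e : (X - C α) * (X - C β) = X ^ 2 - C (α + β) * X + C (α * β) := by
    rw [C_add, C_mul]; ring
  rw [e] at h1 h0
  simp [coeff_X, coeff_C] at h1 h0
  exact ⟨by linear_combination -h1, h0⟩

omit hp in
/-- Taylor–Wiles data at a Taylor–Wiles prime: the element `s` of inertia acts on `μ_q` through a
generator. -/
theorem exists_TWP (hr : RD p rbar) {n : ℕ} {q : Nat.Primes} {τ : GQ}
    (h : TWPrime p rbar n q (Pl q) τ) :
    ∃ P : RT8.TWP rbar, P.φ = τ ∧ P.s ∈ (Pl q).inertiaSubgroupIn ℚ ∧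
      ∃ c : (ZMod q)ˣ, (∀ x : (ZMod q)ˣ, x ∈ Subgroup.zpowers c) ∧
        ∀ ζ : Qb, ζ ^ (q : ℕ) = 1 → P.s ζ = ζ ^ (c : ZMod q).val := by
  have hq : Fact (q : ℕ).Prime := ⟨q.2⟩
  have hne : NeZero (q : ℕ) := ⟨q.2.ne_zero⟩
  obtain ⟨α, β, hαβ⟩ := hr.split τ
  obtain ⟨h1, h2⟩ := tr_det_of_charpoly hαβ
  obtain ⟨a, rfl⟩ := residue_surjective (R := 𝒪) α
  obtain ⟨b, rfl⟩ := residue_surjective (R := 𝒪) β
  have hcyc : IsCyclic (ZMod (q : ℕ))ˣ := inferInstance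
  obtain ⟨c, hc⟩ := hcyc.exists_generator
  obtain ⟨ζ, hζ⟩ := HasEnoughRootsOfUnity.exists_primitiveRoot (AlgebraicClosure ℚ) (q : ℕ)
  have hζ1 : IsPrimitiveRoot ζ ((q : ℕ) ^ 1) := by rwa [pow_one]
  have hcop : Nat.Coprime (c : ZMod (q : ℕ)).val ((q : ℕ) ^ 1) := by
    rw [pow_one]
    exact ZMod.val_coe_unit_coprime c
  obtain ⟨s, hs, hsζ⟩ := ORD.exists_inertia_root (TWP.Pl_lies q) 1 hζ1
    (hζ1.pow_of_coprime _ hcop)
  refine ⟨⟨τ, s, a, b, by rw [h1, map_add], by rw [h2, map_mul], ?_⟩, rfl, hs, c, hc, ?_⟩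
  · intro hab
    apply h.reg
    have h3 := h.det
    rw [h2, hab] at h3
    rw [h1, hab]
    linear_combination 4 * h3
  · intro μ hμ
    obtain ⟨j, -, rfl⟩ := hζ.eq_pow_of_pow_eq_one hμ
    show s (ζ ^ j) = _
    rw [map_pow, hsζ, ← pow_mul, ← pow_mul, mul_comm]

variable [Finite (ResidueField 𝒪)]

/-- **Existence of the Taylor–Wiles data.** -/
theorem exists_TWdata (hp2 : p ≠ 2) (hr : RD p rbar) {S₁ : Finset Nat.Primes}
    (hpS₁ : ExtCitation.pPrime p ∈ S₁) (hrS : UnrOut S₁ rbar) (A₀ : Finset ℕ) :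
    ∃ (S : Finset Nat.Primes) (g : ℕ) (q : ℕ → Fin g → Nat.Primes)
      (P : ℕ → Fin g → RT8.TWP rbar), S₁ ⊆ S ∧ ∀ n,
      TWSet p rbar n S g (q n) (fun i => (P n i).φ) ∧
      (∀ i, (q n i : ℕ) ∉ A₀) ∧
      (Nat.card (ResidueField 𝒪) : ℝ) *
        chi (sL (SQ S (q n))) (dualAct (muA p) (twAct 1 rbar)) ≤ 1 ∧
      ∀ i, (P n i).s ∈ (Pl (q n i)).inertiaSubgroupIn ℚ ∧
        ∃ c : (ZMod (q n i))ˣ, (∀ x : (ZMod (q n i))ˣ, x ∈ Subgroup.zpowers c) ∧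
          ∀ ζ : Qb, ζ ^ (q n i : ℕ) = 1 → (P n i).s ζ = ζ ^ (c : ZMod (q n i)).val := by
  obtain ⟨S, g, hS, h⟩ := TWP.exists_TW hp2 hr hpS₁ hrS
  choose q τ hTW hA hEC using fun n => h n A₀
  choose P hP1 hP2 c hc hP3 using fun n i => exists_TWP hr ((hTW n).tw i)
  refine ⟨S, g, q, P, hS, fun n => ⟨?_, hA n, hEC n, fun i => ⟨hP2 n i, c n i, hc n i, hP3 n i⟩⟩⟩
  have h1 : (fun i => (P n i).φ) = τ n := funext fun i => hP1 n i
  rw [h1]
  exact hTW n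

end twp

end Fermat.Agent.RTan
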