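import Fermat.Agent.OrdOld.Final
import Fermat.Agent.RTan.UP
import Fermat.Agent.TWDeg.LocNewPf

/-!
# [U2]
-/

set_option autoImplicit false
set_option linter.unusedSectionVars false

noncomputable section

namespace Fermat.Agent.RTan

open IsLocalRing Matrix HeckeHom ModularCurve.Period CongruenceSubgroup
open Fermat.Agent.TWDeg (eigSp)
open scoped MatrixGroups

/-- **[U2]** -/
theorem u2 : U2 := by
  intro p hp hp2 m n hn hm hpm hnm hpn E _ _ _ a A _ _ _ _ _ _ hpA ι hι r hr htr hirr hne B hB hord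
  have hiff : ∀ s : ℕ, s.Prime → (s ∣ m ↔ s ∣ m * n) := by
    intro s hs
    refine ⟨fun h => h.mul_right _, fun h => ?_⟩
    rcases (Nat.Prime.dvd_mul hs).mp h with h | h
    · exact h
    · exact hnm s hs h
  have hm' : m * n ≠ 0 := mul_ne_zero hm (NeZero.ne n)
  obtain ⟨φ, hφ, hφ0⟩ := (Submodule.ne_bot_iff _).mp hne
  have hV : ∀ ψ (hψ : ψ ∈ eigSp E m n a),
      (⟨ψ, hψ.1⟩ : parabolicHoms E (Gamma0 n) E) ∈ LocEll.VE E n (m * n) a := by
    intro ψ hψ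
    exact LocEll.mem_VE.mpr fun s hs hsn hsm => hψ.2 s hs hsn fun h' =>
      hsm ((hiff s hs).mp h')
  obtain ⟨w, hw, hD, hI⟩ := hord
  obtain ⟨z, hz, -, h2, -⟩ := OrdOld.ordOldE hpA ι hι hpn hp2 hm' (dvd_mul_left n m) a
    (φ := ⟨φ, hφ.1⟩) (fun h0 => hφ0 (congrArg Subtype.val h0)) (hV φ hφ) r hr
    (fun s hs hsm B' hB' τ hτ => (htr s hs (fun h => hsm ((hiff s hs).mp h)) B' hB' τ hτ).1)
    hirr hB ⟨w, hw, hI⟩
  refine ⟨z, hz, fun ψ hψ => ?_⟩
  have h3 := congrArg Subtype.val (h2 _ (hV ψ hψ))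
  exact h3

end Fermat.Agent.RTan

end
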